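import Mathlib
import Fermat.Agent.JAC.Prop.PowerCurve27
import Fermat.Agent.JAC.Bridge.H0Proper57

/-!
# S26 track / PROD : pointed varieties over a field and their products

`PtVar K` : an integral scheme locally of finite type over a field `K` with a `K`-point, bundled
as an object of `Over (Spec K)` with a morphism from the monoidal unit.  Products are the
cartesian monoidal products of `Over (Spec K)` (`(V ⊗ W).left = pullback V.hom W.hom` by `rfl`).

Over an algebraically closed field: products are again integral (`PtVar.prod`), geometrically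
integral; proper ones (`IsProperVar`) are stable under products and have `H⁰ = K`
(`PtVar.isIso_appTop`).  `PtVar.listProd` is the iterated product of a list.
-/

set_option autoImplicit false

universe u

open CategoryTheory Limits AlgebraicGeometry MonoidalCategory CartesianMonoidalCategory

namespace Fermat.Agent.JAC.Cube.PtVar27

open Fermat.Agent.JAC.Prop

/-- A pointed variety over `K`: an integral scheme, locally of finite type over `K`, with a
`K`-rational point. -/
structure PtVar (K : Type u) [Field K] where
  /-- the underlying scheme over `Spec K` -/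
  obj : Over (Spec (CommRingCat.of K))
  /-- the base point -/
  pt : 𝟙_ (Over (Spec (CommRingCat.of K))) ⟶ obj
  [isIntegral : IsIntegral obj.left]
  [lft : LocallyOfFiniteType obj.hom]

attribute [instance] PtVar.isIntegral PtVar.lft

noncomputable section

namespace PtVar

variable {K : Type u} [Field K]

/-- The underlying scheme. -/
abbrev X (V : PtVar K) : Scheme.{u} := V.obj.left

/-- The structure morphism. -/
abbrev hom (V : PtVar K) : V.X ⟶ Spec (CommRingCat.of K) := V.obj.hom

/-- The base point as a morphism of schemes. -/
abbrev pt0 (V : PtVar K) : Spec (CommRingCat.of K) ⟶ V.X := V.pt.left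

@[reassoc (attr := simp)]
theorem pt0_hom (V : PtVar K) : V.pt0 ≫ V.hom = 𝟙 _ := Over.w V.pt

/-- A pointed variety from unbundled data. -/
def ofScheme {X : Scheme.{u}} (x : X ⟶ Spec (CommRingCat.of K))
    (x0 : Spec (CommRingCat.of K) ⟶ X) (h : x0 ≫ x = 𝟙 _) [IsIntegral X]
    [LocallyOfFiniteType x] : PtVar K where
  obj := Over.mk x
  pt := Over.homMk x0 h
  isIntegral := ‹IsIntegral X›
  lft := ‹LocallyOfFiniteType x›

@[simp] theorem ofScheme_X {X : Scheme.{u}} (x : X ⟶ Spec (CommRingCat.of K))
    (x0 : Spec (CommRingCat.of K) ⟶ X) (h : x0 ≫ x = 𝟙 _) [IsIntegral X]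
    [LocallyOfFiniteType x] : (ofScheme x x0 h).X = X := rfl

@[simp] theorem ofScheme_hom {X : Scheme.{u}} (x : X ⟶ Spec (CommRingCat.of K))
    (x0 : Spec (CommRingCat.of K) ⟶ X) (h : x0 ≫ x = 𝟙 _) [IsIntegral X]
    [LocallyOfFiniteType x] : (ofScheme x x0 h).hom = x := rfl

@[simp] theorem ofScheme_pt0 {X : Scheme.{u}} (x : X ⟶ Spec (CommRingCat.of K))
    (x0 : Spec (CommRingCat.of K) ⟶ X) (h : x0 ≫ x = 𝟙 _) [IsIntegral X]
    [LocallyOfFiniteType x] : (ofScheme x x0 h).pt0 = x0 := rfl

instance (V : PtVar K) : Flat V.hom := inferInstance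

instance (V : PtVar K) : LocallyOfFinitePresentation V.hom := inferInstance

instance (V : PtVar K) : UniversallyOpen V.hom := inferInstance

/-- The point `Spec K`. -/
def unit : PtVar K where
  obj := 𝟙_ _
  pt := 𝟙 _
  isIntegral := inferInstanceAs (IsIntegral (Spec (CommRingCat.of K)))
  lft := inferInstanceAs (LocallyOfFiniteType (𝟙 (Spec (CommRingCat.of K))))

section AlgClosed

variable [IsAlgClosed K]

instance geometricallyIntegral_hom (V : PtVar K) : GeometricallyIntegral V.hom :=
  GeomIntegral27.geometricallyIntegral_of_isIntegral V.hom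

/-- The product of two integral schemes locally of finite type over an algebraically closed field
is integral. -/
theorem isIntegral_pullback (V W : PtVar K) : IsIntegral (pullback V.hom W.hom) := by
  have : IsLocallyNoetherian V.X := LocallyOfFiniteType.isLocallyNoetherian V.hom
  infer_instance

/-- The product of two pointed varieties. -/
def prod (V W : PtVar K) : PtVar K where
  obj := V.obj ⊗ W.obj
  pt := lift V.pt W.pt
  isIntegral := isIntegral_pullback V W
  lft := by
    change LocallyOfFiniteType (pullback.fst V.hom W.hom ≫ V.hom)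
    infer_instance

@[simp] theorem prod_obj (V W : PtVar K) : (prod V W).obj = V.obj ⊗ W.obj := rfl

theorem prod_X (V W : PtVar K) : (prod V W).X = pullback V.hom W.hom := rfl

theorem prod_hom (V W : PtVar K) : (prod V W).hom = pullback.fst V.hom W.hom ≫ V.hom := rfl

@[simp] theorem prod_pt (V W : PtVar K) : (prod V W).pt = lift V.pt W.pt := rfl

/-- The iterated product of a list of pointed varieties (right nested, ending with the point). -/
def listProd : List (PtVar K) → PtVar K
  | [] => unit
  | V :: l => prod V (listProd l)

@[simp] theorem listProd_nil : listProd ([] : List (PtVar K)) = unit := rfl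

@[simp] theorem listProd_cons (V : PtVar K) (l : List (PtVar K)) :
    listProd (V :: l) = prod V (listProd l) := rfl

end AlgClosed

/-- Proper pointed varieties. -/
class IsProperVar (V : PtVar K) : Prop where
  proper : IsProper V.hom

attribute [instance] IsProperVar.proper

instance : IsProperVar (unit : PtVar K) :=
  ⟨inferInstanceAs (IsProper (𝟙 (Spec (CommRingCat.of K))))⟩

section AlgClosed

variable [IsAlgClosed K]

instance isProperVar_prod (V W : PtVar K) [IsProperVar V] [IsProperVar W] :
    IsProperVar (prod V W) :=
  ⟨by
    change IsProper (pullback.fst V.hom W.hom ≫ V.hom)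
    infer_instance⟩

theorem isProperVar_listProd : ∀ (l : List (PtVar K)), (∀ V ∈ l, IsProperVar V) →
    IsProperVar (listProd l)
  | [], _ => inferInstanceAs (IsProperVar unit)
  | V :: l, h => by
    have : IsProperVar V := h V (List.mem_cons_self)
    have := isProperVar_listProd l fun W hW => h W (List.mem_cons_of_mem _ hW)
    exact isProperVar_prod V (listProd l)

/-- `H⁰(V, 𝒪) = K` for a proper pointed variety over an algebraically closed field. -/
theorem isIso_appTop (V : PtVar K) [IsProperVar V] : IsIso V.hom.appTop :=
  Fermat.Agent.JAC.Bridge.H0Proper57.isIso_appTop V.hom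

/-- The pointed variety of a pointed proper smooth integral curve. -/
def ofCurve {C : Scheme.{u}} (c : C ⟶ Spec (CommRingCat.of K)) [IsProper c]
    [SmoothOfRelativeDimension 1 c] [IsIntegral C] (ε : Spec (CommRingCat.of K) ⟶ C)
    (hε : ε ≫ c = 𝟙 _) : PtVar K :=
  ofScheme c ε hε

instance {C : Scheme.{u}} (c : C ⟶ Spec (CommRingCat.of K)) [IsProper c]
    [SmoothOfRelativeDimension 1 c] [IsIntegral C] (ε : Spec (CommRingCat.of K) ⟶ C)
    (hε : ε ≫ c = 𝟙 _) : IsProperVar (ofCurve c ε hε) :=
  ⟨‹IsProper c›⟩

end AlgClosed

end PtVar

end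

end Fermat.Agent.JAC.Cube.PtVar27
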