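import Mathlib

/-!
# S26 track / PROD : faces of a triple product and the rearrangement isomorphism

Everything in an arbitrary cartesian monoidal category `𝒞` (to be used for `Over (Spec K)`).
For pointed objects `X, X', Y, T` (points = morphisms from the unit):

* `face₁ x0 : Y ⊗ T ⟶ X ⊗ (Y ⊗ T)`, `face₂ y0 : X ⊗ T ⟶ X ⊗ (Y ⊗ T)`,
  `face₃ t0 : X ⊗ Y ⟶ X ⊗ (Y ⊗ T)` : the three coordinate faces through the base point;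
* `rearr : (X ⊗ X') ⊗ (Y ⊗ T) ≅ X ⊗ (Y ⊗ (X' ⊗ T))`;
* `inFst c0 : X' ⊗ Z ⟶ (C ⊗ X') ⊗ Z`, `inSnd x0' : C ⊗ Z ⟶ (C ⊗ X') ⊗ Z` : insertion of a point
  in the first factor;
* the identities (R1)–(R3) describing the faces of `X ⊗ (Y ⊗ (X' ⊗ T))` transported through
  `rearr.inv`, as needed for "`Cubical C → Cubical X' → Cubical (C ⊗ X')`".
-/

set_option autoImplicit false

universe v u

open CategoryTheory MonoidalCategory CartesianMonoidalCategory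

namespace Fermat.Agent.JAC.Cube.Rearrange27

variable {𝒞 : Type u} [Category.{v} 𝒞] [CartesianMonoidalCategory 𝒞]

section Faces

variable {X Y T : 𝒞}

/-- The face `{x0} × Y × T`. -/
def face₁ (x0 : 𝟙_ 𝒞 ⟶ X) : Y ⊗ T ⟶ X ⊗ (Y ⊗ T) := lift (toUnit _ ≫ x0) (𝟙 _)

/-- The face `X × {y0} × T`. -/
def face₂ (y0 : 𝟙_ 𝒞 ⟶ Y) : X ⊗ T ⟶ X ⊗ (Y ⊗ T) :=
  lift (fst X T) (lift (toUnit _ ≫ y0) (snd X T))

/-- The face `X × Y × {t0}`. -/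
def face₃ (t0 : 𝟙_ 𝒞 ⟶ T) : X ⊗ Y ⟶ X ⊗ (Y ⊗ T) :=
  lift (fst X Y) (lift (snd X Y) (toUnit _ ≫ t0))

@[reassoc (attr := simp)]
theorem face₁_fst (x0 : 𝟙_ 𝒞 ⟶ X) : face₁ (Y := Y) (T := T) x0 ≫ fst _ _ = toUnit _ ≫ x0 :=
  lift_fst _ _

@[reassoc (attr := simp)]
theorem face₁_snd (x0 : 𝟙_ 𝒞 ⟶ X) : face₁ (Y := Y) (T := T) x0 ≫ snd _ _ = 𝟙 _ :=
  lift_snd _ _

@[reassoc (attr := simp)]
theorem face₂_fst (y0 : 𝟙_ 𝒞 ⟶ Y) : face₂ (X := X) (T := T) y0 ≫ fst _ _ = fst _ _ :=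
  lift_fst _ _

@[reassoc (attr := simp)]
theorem face₂_snd_fst (y0 : 𝟙_ 𝒞 ⟶ Y) :
    face₂ (X := X) (T := T) y0 ≫ snd _ _ ≫ fst _ _ = toUnit _ ≫ y0 := by
  simp [face₂]

@[reassoc (attr := simp)]
theorem face₂_snd_snd (y0 : 𝟙_ 𝒞 ⟶ Y) :
    face₂ (X := X) (T := T) y0 ≫ snd _ _ ≫ snd _ _ = snd _ _ := by
  simp [face₂]

@[reassoc (attr := simp)]
theorem face₃_fst (t0 : 𝟙_ 𝒞 ⟶ T) : face₃ (X := X) (Y := Y) t0 ≫ fst _ _ = fst _ _ :=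
  lift_fst _ _

@[reassoc (attr := simp)]
theorem face₃_snd_fst (t0 : 𝟙_ 𝒞 ⟶ T) :
    face₃ (X := X) (Y := Y) t0 ≫ snd _ _ ≫ fst _ _ = snd _ _ := by
  simp [face₃]

@[reassoc (attr := simp)]
theorem face₃_snd_snd (t0 : 𝟙_ 𝒞 ⟶ T) :
    face₃ (X := X) (Y := Y) t0 ≫ snd _ _ ≫ snd _ _ = toUnit _ ≫ t0 := by
  simp [face₃]

/-- `face₂` is `X ◁ (y0, id)`. -/
theorem face₂_eq_whiskerLeft (y0 : 𝟙_ 𝒞 ⟶ Y) :
    face₂ (X := X) (T := T) y0 = X ◁ lift (toUnit _ ≫ y0) (𝟙 T) := by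
  ext <;> simp [face₂]

/-- `face₃` is `X ◁ (id, t0)`. -/
theorem face₃_eq_whiskerLeft (t0 : 𝟙_ 𝒞 ⟶ T) :
    face₃ (X := X) (Y := Y) t0 = X ◁ lift (𝟙 Y) (toUnit _ ≫ t0) := by
  ext <;> simp [face₃]

end Faces

section Rearr

variable (X X' Y T : 𝒞)

/-- `(X × X') × (Y × T) ≅ X × (Y × (X' × T))`. -/
def rearr : (X ⊗ X') ⊗ (Y ⊗ T) ≅ X ⊗ (Y ⊗ (X' ⊗ T)) where
  hom := lift (fst _ _ ≫ fst _ _)
    (lift (snd _ _ ≫ fst _ _) (lift (fst _ _ ≫ snd _ _) (snd _ _ ≫ snd _ _)))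
  inv := lift (lift (fst _ _) (snd _ _ ≫ snd _ _ ≫ fst _ _))
    (lift (snd _ _ ≫ fst _ _) (snd _ _ ≫ snd _ _ ≫ snd _ _))
  hom_inv_id := by ext <;> simp
  inv_hom_id := by ext <;> simp

@[reassoc (attr := simp)]
theorem rearr_hom_fst : (rearr X X' Y T).hom ≫ fst _ _ = fst _ _ ≫ fst _ _ := by simp [rearr]

@[reassoc (attr := simp)]
theorem rearr_hom_snd_fst :
    (rearr X X' Y T).hom ≫ snd _ _ ≫ fst _ _ = snd _ _ ≫ fst _ _ := by simp [rearr]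

@[reassoc (attr := simp)]
theorem rearr_hom_snd_snd_fst :
    (rearr X X' Y T).hom ≫ snd _ _ ≫ snd _ _ ≫ fst _ _ = fst _ _ ≫ snd _ _ := by simp [rearr]

@[reassoc (attr := simp)]
theorem rearr_hom_snd_snd_snd :
    (rearr X X' Y T).hom ≫ snd _ _ ≫ snd _ _ ≫ snd _ _ = snd _ _ ≫ snd _ _ := by simp [rearr]

@[reassoc (attr := simp)]
theorem rearr_inv_fst_fst : (rearr X X' Y T).inv ≫ fst _ _ ≫ fst _ _ = fst _ _ := by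
  simp [rearr]

@[reassoc (attr := simp)]
theorem rearr_inv_fst_snd :
    (rearr X X' Y T).inv ≫ fst _ _ ≫ snd _ _ = snd _ _ ≫ snd _ _ ≫ fst _ _ := by simp [rearr]

@[reassoc (attr := simp)]
theorem rearr_inv_snd_fst :
    (rearr X X' Y T).inv ≫ snd _ _ ≫ fst _ _ = snd _ _ ≫ fst _ _ := by simp [rearr]

@[reassoc (attr := simp)]
theorem rearr_inv_snd_snd :
    (rearr X X' Y T).inv ≫ snd _ _ ≫ snd _ _ = snd _ _ ≫ snd _ _ ≫ snd _ _ := by simp [rearr]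

/-- `Y × (X' × T) ≅ X' × (Y × T)`. -/
def swap₁₂ : Y ⊗ (X' ⊗ T) ≅ X' ⊗ (Y ⊗ T) where
  hom := lift (snd _ _ ≫ fst _ _) (lift (fst _ _) (snd _ _ ≫ snd _ _))
  inv := lift (snd _ _ ≫ fst _ _) (lift (fst _ _) (snd _ _ ≫ snd _ _))
  hom_inv_id := by ext <;> simp
  inv_hom_id := by ext <;> simp

@[reassoc (attr := simp)]
theorem swap₁₂_hom_fst : (swap₁₂ X' Y T).hom ≫ fst _ _ = snd _ _ ≫ fst _ _ := by simp [swap₁₂]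

@[reassoc (attr := simp)]
theorem swap₁₂_hom_snd_fst : (swap₁₂ X' Y T).hom ≫ snd _ _ ≫ fst _ _ = fst _ _ := by
  simp [swap₁₂]

@[reassoc (attr := simp)]
theorem swap₁₂_hom_snd_snd :
    (swap₁₂ X' Y T).hom ≫ snd _ _ ≫ snd _ _ = snd _ _ ≫ snd _ _ := by simp [swap₁₂]

end Rearr

section Insert

variable {C X' : 𝒞} (Z : 𝒞)

/-- `X' × Z ⟶ (C × X') × Z`, `(x', z) ↦ ((c0, x'), z)`. -/
def inFst (c0 : 𝟙_ 𝒞 ⟶ C) : X' ⊗ Z ⟶ (C ⊗ X') ⊗ Z :=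
  lift (lift (toUnit _ ≫ c0) (fst _ _)) (snd _ _)

/-- `C × Z ⟶ (C × X') × Z`, `(c, z) ↦ ((c, x0'), z)`. -/
def inSnd (x0' : 𝟙_ 𝒞 ⟶ X') : C ⊗ Z ⟶ (C ⊗ X') ⊗ Z :=
  lift (lift (fst _ _) (toUnit _ ≫ x0')) (snd _ _)

@[reassoc (attr := simp)]
theorem inFst_fst_fst (c0 : 𝟙_ 𝒞 ⟶ C) :
    inFst (X' := X') Z c0 ≫ fst _ _ ≫ fst _ _ = toUnit _ ≫ c0 := by simp [inFst]

@[reassoc (attr := simp)]
theorem inFst_fst_snd (c0 : 𝟙_ 𝒞 ⟶ C) :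
    inFst (X' := X') Z c0 ≫ fst _ _ ≫ snd _ _ = fst _ _ := by simp [inFst]

@[reassoc (attr := simp)]
theorem inFst_snd (c0 : 𝟙_ 𝒞 ⟶ C) : inFst (X' := X') Z c0 ≫ snd _ _ = snd _ _ := by
  simp [inFst]

@[reassoc (attr := simp)]
theorem inSnd_fst_fst (x0' : 𝟙_ 𝒞 ⟶ X') :
    inSnd (C := C) Z x0' ≫ fst _ _ ≫ fst _ _ = fst _ _ := by simp [inSnd]

@[reassoc (attr := simp)]
theorem inSnd_fst_snd (x0' : 𝟙_ 𝒞 ⟶ X') :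
    inSnd (C := C) Z x0' ≫ fst _ _ ≫ snd _ _ = toUnit _ ≫ x0' := by simp [inSnd]

@[reassoc (attr := simp)]
theorem inSnd_snd (x0' : 𝟙_ 𝒞 ⟶ X') : inSnd (C := C) Z x0' ≫ snd _ _ = snd _ _ := by
  simp [inSnd]

end Insert

section Compat

variable {C X' Y T : 𝒞} (c0 : 𝟙_ 𝒞 ⟶ C) (x0' : 𝟙_ 𝒞 ⟶ X') (y0 : 𝟙_ 𝒞 ⟶ Y) (t0 : 𝟙_ 𝒞 ⟶ T)

/-- (R1) The face `{c0} × Y × (X' × T)` of `C × (Y × (X' × T))`, seen in `(C × X') × (Y × T)`,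
is `X' × (Y × T)` inserted at `c0`. -/
theorem face₁_rearr_inv :
    face₁ (Y := Y) (T := X' ⊗ T) c0 ≫ (rearr C X' Y T).inv =
      (swap₁₂ X' Y T).hom ≫ inFst (Y ⊗ T) c0 := by
  ext <;> simp

/-- (R1a) -/
theorem face₁_inFst :
    face₁ (Y := Y) (T := T) x0' ≫ inFst (Y ⊗ T) c0 = face₁ (lift c0 x0') := by
  ext <;> simp

/-- (R1b) -/
theorem face₂_inFst :
    face₂ (X := X') (T := T) y0 ≫ inFst (Y ⊗ T) c0 = inFst T c0 ≫ face₂ y0 := by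
  ext <;> simp

/-- (R1c) -/
theorem face₃_inFst :
    face₃ (X := X') (Y := Y) t0 ≫ inFst (Y ⊗ T) c0 = inFst Y c0 ≫ face₃ t0 := by
  ext <;> simp

/-- (R2) The face `C × {y0} × (X' × T)` is the face `(C × X') × {y0} × T`. -/
theorem face₂_rearr_inv :
    face₂ (X := C) (T := X' ⊗ T) y0 ≫ (rearr C X' Y T).inv =
      (α_ C X' T).inv ≫ face₂ y0 := by
  ext <;> simp

/-- (R3) The face `C × Y × {(x0', t0)}` lies in the face `(C × X') × Y × {t0}`. -/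
theorem face₃_rearr_inv :
    face₃ (X := C) (Y := Y) (lift x0' t0) ≫ (rearr C X' Y T).inv =
      inSnd Y x0' ≫ face₃ t0 := by
  ext <;> simp

end Compat

end Fermat.Agent.JAC.Cube.Rearrange27
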