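import Mathlib
import Fermat.Agent.JAC.Cube.PtVar27
import Fermat.Agent.JAC.Cube.Rearrange27
import Fermat.Agent.JAC.Rig.Rigidity6
import Fermat.Prelude.Def_AlgebraicGeometry_RelativePicardFunctor

/-!
# S26 track / PROD : bridge between the `Over (Spec K)` language and raw pullbacks

The faces `Rearrange27.face₁/₂/₃` in `Over (Spec K)`, on underlying schemes, are the morphisms
`Rigidity6.sectionOfPoint`, and the Prelude's `RelPicard.baseChangeSnd` along
`Rigidity6.sectionOfPoint` / `Rigidity6.inclOfPoint`.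
-/

set_option autoImplicit false

universe u

open CategoryTheory Limits AlgebraicGeometry MonoidalCategory CartesianMonoidalCategory
  NeronModelInfra AlgebraicGeometry.RelPicard

namespace Fermat.Agent.JAC.Cube.Bridge27

open Fermat.Agent.JAC.Cube.Rearrange27 Fermat.Agent.JAC.Rig.Rigidity6

variable {K : Type u} [Field K]

/-- `(C ◁ φ).left` is the Prelude's `baseChangeSnd` along `φ`. -/
theorem whiskerLeft_left_eq_baseChangeSnd (C : Over (Spec (CommRingCat.of K)))
    {T T' : Over (Spec (CommRingCat.of K))} (φ : T' ⟶ T) :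
    (C ◁ φ).left = baseChangeSnd C.hom (⟨φ.left, Over.w φ⟩ : SchemeHomOver T'.hom T.hom) := by
  apply pullback.hom_ext
  · simp only [Over.whiskerLeft_left_fst, baseChangeSnd, pullback.map]
    exact (pullback.lift_fst _ _ _).symm
  · simp only [Over.whiskerLeft_left_snd, baseChangeSnd, pullback.map]
    exact (pullback.lift_snd _ _ _).symm

variable (X Y T : Over (Spec (CommRingCat.of K)))

/-- `(id, t0) : Y ⟶ Y × T` is `inclOfPoint`. -/
theorem lift_id_pt_left (t0 : 𝟙_ (Over (Spec (CommRingCat.of K))) ⟶ T) :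
    (lift (𝟙 Y) (toUnit Y ≫ t0)).left = inclOfPoint Y.hom T.hom t0.left (Over.w t0) := by
  apply pullback.hom_ext <;> simp [inclOfPoint]

/-- `(y0, id) : T ⟶ Y × T` is `sectionOfPoint`. -/
theorem lift_pt_id_left (y0 : 𝟙_ (Over (Spec (CommRingCat.of K))) ⟶ Y) :
    (lift (toUnit T ≫ y0) (𝟙 T)).left = sectionOfPoint Y.hom T.hom y0.left (Over.w y0) := by
  apply pullback.hom_ext <;> simp [sectionOfPoint]

/-- The face `{x0} × (Y × T)` is `sectionOfPoint`. -/
theorem face₁_left (x0 : 𝟙_ (Over (Spec (CommRingCat.of K))) ⟶ X) :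
    (face₁ (Y := Y) (T := T) x0).left =
      sectionOfPoint X.hom (Y ⊗ T).hom x0.left (Over.w x0) :=
  lift_pt_id_left X (Y ⊗ T) x0

/-- The face `X × {y0} × T` is `baseChangeSnd` along `sectionOfPoint`. -/
theorem face₂_left (y0 : 𝟙_ (Over (Spec (CommRingCat.of K))) ⟶ Y) :
    (face₂ (X := X) (T := T) y0).left =
      baseChangeSnd X.hom (⟨sectionOfPoint Y.hom T.hom y0.left (Over.w y0), by
        rw [← lift_pt_id_left]; exact Over.w _⟩ : SchemeHomOver T.hom (Y ⊗ T).hom) := by
  rw [face₂_eq_whiskerLeft, whiskerLeft_left_eq_baseChangeSnd]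
  congr 2

/-- The face `X × Y × {t0}` is `baseChangeSnd` along `inclOfPoint`. -/
theorem face₃_left (t0 : 𝟙_ (Over (Spec (CommRingCat.of K))) ⟶ T) :
    (face₃ (X := X) (Y := Y) t0).left =
      baseChangeSnd X.hom (⟨inclOfPoint Y.hom T.hom t0.left (Over.w t0), by
        rw [← lift_id_pt_left]; exact Over.w _⟩ : SchemeHomOver Y.hom (Y ⊗ T).hom) := by
  rw [face₃_eq_whiskerLeft, whiskerLeft_left_eq_baseChangeSnd]
  congr 2

end Fermat.Agent.JAC.Cube.Bridge27
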