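/-
S26/S27 track, brick CUBE_W, part [S] (helper6): the cube step.

Let `c : C ⟶ Spec k` be a pointed `k`-scheme whose rigidified degree-zero Picard functor is
represented (the frozen `RepresentsRelSubPic` interface of S25, taken as a HYPOTHESIS here), with
separated representing scheme.  Let `X`, `Y` be pointed `k`-schemes, `X` proper with
`H⁰(X, 𝒪) = k`, `X ×ₖ Y` integral.  An invertible module `M` on `C ×ₖ (X ×ₖ Y)` which is
trivial on the three faces `{ε} × X × Y`, `C × X × {y₀}`, `C × {x₀} × Y` and fibrewise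
algebraically equivalent to zero is trivial.
-/
import Mathlib
import Fermat.Prelude.Def_AlgebraicGeometry_RelPicardAlgEquivZeroCut
import Fermat.Agent.JAC.Rig.Rigidity6

set_option autoImplicit false
set_option linter.unusedSimpArgs false

universe u

open CategoryTheory CategoryTheory.Limits AlgebraicGeometry AlgebraicGeometry.RelPicard
  NeronModelInfra GoodReductionJacobian

namespace Fermat.Agent.JAC.Cube.Step6

open Fermat.Agent.JAC.Rig.Rigidity6

noncomputable section

variable {k : Type u} [Field k] {C : Scheme.{u}} {c : C ⟶ Spec (CommRingCat.of k)}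
  {ε : SchemeHomOver (𝟙 (Spec (CommRingCat.of k))) c}

/-- `M` is trivial. -/
def IsTrivial {Z : Scheme.{u}} (M : Z.Modules) : Prop :=
  Nonempty (M ≅ SheafOfModules.unit Z.ringCatSheaf)

variable {X Y : Scheme.{u}} (x : X ⟶ Spec (CommRingCat.of k)) (y : Y ⟶ Spec (CommRingCat.of k))

/-- The structure morphism of `X ×ₖ Y`. -/
abbrev prodStr : pullback x y ⟶ Spec (CommRingCat.of k) := pullback.fst x y ≫ x

/-- `X ⟶ X ×ₖ Y`, `a ↦ (a, y₀)` as a morphism over `k`. -/
def inclOver (y₀ : Spec (CommRingCat.of k) ⟶ Y) (hy₀ : y₀ ≫ y = 𝟙 _) :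
    SchemeHomOver x (prodStr x y) :=
  ⟨inclOfPoint x y y₀ hy₀, by rw [inclOfPoint_fst_assoc]⟩

/-- `Y ⟶ X ×ₖ Y`, `b ↦ (x₀, b)` as a morphism over `k`. -/
def sectionOver (x₀ : Spec (CommRingCat.of k) ⟶ X) (hx₀ : x₀ ≫ x = 𝟙 _) :
    SchemeHomOver y (prodStr x y) :=
  ⟨sectionOfPoint x y x₀ hx₀, by rw [sectionOfPoint_fst_assoc, hx₀, Category.comp_id]⟩

/-- Pulling back in two steps is pulling back along the composite. -/
def pullbackAlongPostCompIso {T T' T'' : Scheme.{u}} {t : T ⟶ Spec (CommRingCat.of k)}
    {t' : T' ⟶ Spec (CommRingCat.of k)} {t'' : T'' ⟶ Spec (CommRingCat.of k)}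
    (M : RigidifiedLineBundle c ε t) (φ : SchemeHomOver t' t) (ψ : SchemeHomOver t'' t') :
    ((M.pullbackAlong φ).pullbackAlong ψ).L ≅ (M.pullbackAlong (postComp φ ψ)).L :=
  (Scheme.Modules.pullbackComp _ _).app M.L ≪≫
    (Scheme.Modules.pullbackCongr (baseChangeSnd_comp c φ ψ)).app M.L

/-- The pullback of a trivial rigidified bundle is trivial. -/
theorem isTrivial_pullbackAlong {T T' : Scheme.{u}} {t : T ⟶ Spec (CommRingCat.of k)}
    {t' : T' ⟶ Spec (CommRingCat.of k)} (M : RigidifiedLineBundle c ε t)
    (ψ : SchemeHomOver t' t) (hM : IsTrivial M.L) : IsTrivial (M.pullbackAlong ψ).L :=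
  ⟨(Scheme.Modules.pullback (baseChangeSnd c ψ)).mapIso hM.some ≪≫
    Scheme.Modules.pullbackUnitIso _⟩

theorem IsTrivial.of_iso {Z : Scheme.{u}} {M M' : Z.Modules} (e : M ≅ M') (hM : IsTrivial M) :
    IsTrivial M' :=
  ⟨e.symm ≪≫ hM.some⟩

variable {D : RelativePic0Designation k c}

/-- The zero section as a morphism over `k`. -/
def zeroOver (D : RelativePic0Designation k c) :
    SchemeHomOver (𝟙 (Spec (CommRingCat.of k))) D.toBase :=
  ⟨D.zeroSection, D.zeroSection_toBase⟩

/-- The structure morphism `T ⟶ Spec k` as a morphism over `k`. -/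
def strOver {T : Scheme.{u}} (t : T ⟶ Spec (CommRingCat.of k)) :
    SchemeHomOver t (𝟙 (Spec (CommRingCat.of k))) :=
  ⟨t, Category.comp_id t⟩

/-- The constant morphism `T ⟶ J` with value the zero section. -/
def constZero (D : RelativePic0Designation k c) {T : Scheme.{u}}
    (t : T ⟶ Spec (CommRingCat.of k)) : SchemeHomOver t D.toBase :=
  postComp (zeroOver D) (strOver t)

/-- The Poincaré bundle pulled back along a constant zero map is trivial. -/
theorem isTrivial_poincare_constZero (h : RepresentsRelSubPic c ε (algEquivZeroCut c ε) D)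
    {T : Scheme.{u}} (t : T ⟶ Spec (CommRingCat.of k)) :
    IsTrivial (h.poincare.pullbackAlong (constZero D t)).L := by
  have h0 : IsTrivial (h.poincare.pullbackAlong (zeroOver D)).L := h.zero
  exact (isTrivial_pullbackAlong _ (strOver t) h0).of_iso
    (pullbackAlongPostCompIso h.poincare (zeroOver D) (strOver t))

/-- A classifying-type morphism along which the Poincaré bundle becomes trivial is the constant
zero map. -/
theorem eq_constZero_of_isTrivial (h : RepresentsRelSubPic c ε (algEquivZeroCut c ε) D)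
    {T : Scheme.{u}} (t : T ⟶ Spec (CommRingCat.of k)) (g : SchemeHomOver t D.toBase)
    (hg : IsTrivial (h.poincare.pullbackAlong g).L) : g = constZero D t :=
  h.ext_of_iso t g (constZero D t)
    ⟨hg.some ≪≫ (isTrivial_poincare_constZero h t).some.symm⟩

theorem cube_step
    (h : RepresentsRelSubPic c ε (algEquivZeroCut c ε) D) [IsSeparated D.toBase]
    [IsProper x] (hx : IsIso x.appTop) [IsIntegral (pullback x y)]
    (x₀ : Spec (CommRingCat.of k) ⟶ X) (hx₀ : x₀ ≫ x = 𝟙 _)
    (y₀ : Spec (CommRingCat.of k) ⟶ Y) (hy₀ : y₀ ≫ y = 𝟙 _)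
    (M : RigidifiedLineBundle c ε (prodStr x y)) (hM : FibrewiseAlgEquivZero M)
    (hX : IsTrivial (M.pullbackAlong (inclOver x y y₀ hy₀)).L)
    (hY : IsTrivial (M.pullbackAlong (sectionOver x y x₀ hx₀)).L) :
    IsTrivial M.L := by
  -- the classifying morphism
  let g : SchemeHomOver (prodStr x y) D.toBase := h.classify (prodStr x y) M hM
  obtain ⟨e⟩ := h.classify_spec (prodStr x y) M hM
  -- `g` is zero on `X × {y₀}`
  have h1 : postComp g (inclOver x y y₀ hy₀) = constZero D x := by
    apply eq_constZero_of_isTrivial h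
    refine IsTrivial.of_iso (pullbackAlongPostCompIso h.poincare g (inclOver x y y₀ hy₀)) ?_
    exact hX.of_iso ((Scheme.Modules.pullback _).mapIso e.symm)
  -- `g` is zero on `{x₀} × Y`
  have h2 : postComp g (sectionOver x y x₀ hx₀) = constZero D y := by
    apply eq_constZero_of_isTrivial h
    refine IsTrivial.of_iso (pullbackAlongPostCompIso h.poincare g (sectionOver x y x₀ hx₀)) ?_
    exact hY.of_iso ((Scheme.Modules.pullback _).mapIso e.symm)
  -- rigidity
  have h3 : g.1 = pullback.snd x y ≫ y ≫ D.zeroSection :=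
    eq_const_of_contracts x y hx x₀ hx₀ D.toBase g.1 (g.2.trans pullback.condition) y₀ hy₀
      D.zeroSection
      (congrArg Subtype.val h1) (congrArg Subtype.val h2)
  have h4 : g = constZero D (prodStr x y) := Subtype.ext (by
    rw [h3]; simp [constZero, postComp, zeroOver, strOver, prodStr, pullback.condition_assoc])
  have h5 := isTrivial_poincare_constZero h (prodStr x y)
  rw [← h4] at h5
  exact h5.of_iso e

/-! ### Fibrewise algebraic equivalence to zero is automatic over a geometrically integral base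
with a rational point where the bundle is trivial -/

section AlgEquiv

variable {T : Scheme.{u}} (t : T ⟶ Spec (CommRingCat.of k))

theorem fibrewiseAlgEquivZero_of_isTrivial_at_point [LocallyOfFiniteType t]
    [GeometricallyIntegral t] (t₀ : SchemeHomOver (𝟙 (Spec (CommRingCat.of k))) t)
    (M : RigidifiedLineBundle c ε t) (h0 : IsTrivial (M.pullbackAlong t₀).L) :
    FibrewiseAlgEquivZero M := by
  intro k' _ _ s
  -- notation
  let a := fibreAt c t s
  let p := pullback.fst (pullback.snd c t) s
  have hp : p ≫ pullback.snd c t = a ≫ s := pullback.condition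
  let κ : Spec (CommRingCat.of k') ⟶ Spec (CommRingCat.of k) := s ≫ t
  let h := pullback.snd t κ
  let q := pullback.fst t κ
  have hq : q ≫ t = h ≫ κ := pullback.condition
  have hcond : (pullback.fst a h ≫ p ≫ pullback.fst c t) ≫ c = (pullback.snd a h ≫ q) ≫ t := by
    rw [Category.assoc, Category.assoc, pullback.condition, reassoc_of% hp, Category.assoc, hq,
      ← Category.assoc (pullback.fst a h), pullback.condition, Category.assoc]
  let F : pullback a h ⟶ pullback c t :=
    pullback.lift (pullback.fst a h ≫ p ≫ pullback.fst c t) (pullback.snd a h ≫ q) hcond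
  let t₁' : SchemeHomOver (𝟙 (Spec (CommRingCat.of k'))) h :=
    ⟨pullback.lift s (𝟙 _) (by rw [Category.id_comp]), pullback.lift_snd _ _ _⟩
  let t₀' : SchemeHomOver (𝟙 (Spec (CommRingCat.of k'))) h :=
    ⟨pullback.lift (κ ≫ t₀.1) (𝟙 _) (by rw [Category.assoc, t₀.2, Category.comp_id,
      Category.id_comp]), pullback.lift_snd _ _ _⟩
  have hG0 : (pullback.fst a (𝟙 _) ≫ p ≫ pullback.fst c t) ≫ c =
      (pullback.snd a (𝟙 _) ≫ κ) ≫ 𝟙 _ := by
    rw [Category.assoc, Category.assoc, pullback.condition, reassoc_of% hp,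
      ← Category.assoc (pullback.fst a (𝟙 _)), pullback.condition, Category.comp_id,
      Category.comp_id]
  let G0' : pullback a (𝟙 (Spec (CommRingCat.of k'))) ⟶ pullback c (𝟙 (Spec (CommRingCat.of k))) :=
    pullback.lift (pullback.fst a (𝟙 _) ≫ p ≫ pullback.fst c t) (pullback.snd a (𝟙 _) ≫ κ) hG0
  have e0 : baseChangeSnd a t₀' ≫ F = G0' ≫ baseChangeSnd c t₀ := by
    apply pullback.hom_ext
    · simp only [baseChangeSnd, F, G0', Category.assoc, pullback.lift_fst, pullback.lift_snd,
        pullback.lift_fst_assoc, pullback.lift_snd_assoc, Category.comp_id, Category.id_comp]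
    · simp only [baseChangeSnd, F, G0', t₀', q, Category.assoc, pullback.lift_fst,
        pullback.lift_snd, pullback.lift_fst_assoc, pullback.lift_snd_assoc, Category.comp_id,
        Category.id_comp]
  have e1 : baseChangeSnd a t₁' ≫ F = pullback.fst a (𝟙 _) ≫ p := by
    apply pullback.hom_ext
    · simp only [baseChangeSnd, F, Category.assoc, pullback.lift_fst, pullback.lift_snd,
        pullback.lift_fst_assoc, pullback.lift_snd_assoc, Category.comp_id, Category.id_comp]
    · simp only [baseChangeSnd, F, t₁', q, Category.assoc, pullback.lift_snd,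
        pullback.lift_snd_assoc, pullback.lift_fst, pullback.lift_fst_assoc, hp, Category.comp_id,
        Category.id_comp]
      rw [← Category.assoc (pullback.fst a (𝟙 _)), pullback.condition, Category.comp_id]
  refine ⟨pullback t κ, h, inferInstance, inferInstance, (Scheme.Modules.pullback F).obj M.L,
    M.isInvertible.pullback F, t₀', t₁', ⟨?_⟩, ⟨?_⟩⟩
  · exact (Scheme.Modules.pullbackComp _ _).app M.L ≪≫
      (Scheme.Modules.pullbackCongr e0).app M.L ≪≫
      ((Scheme.Modules.pullbackComp _ _).app M.L).symm ≪≫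
      (Scheme.Modules.pullback G0').mapIso h0.some ≪≫
      Scheme.Modules.pullbackUnitIso G0'
  · exact (Scheme.Modules.pullbackComp _ _).app M.L ≪≫
      (Scheme.Modules.pullbackCongr e1).app M.L ≪≫
      ((Scheme.Modules.pullbackComp _ _).app M.L).symm

end AlgEquiv

end

end Fermat.Agent.JAC.Cube.Step6
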