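/-
S26/S27 track, brick CUBE_W, part [C] (helper6): the theorem of the cube for products of pointed
curves, in `Scheme.Modules` language, by induction on the number of curve factors.

We work in `Over (Spec k)` with its cartesian monoidal structure
(`(R ⊗ S).left = pullback R.hom S.hom`).  For a class `N` of "nice" `k`-schemes (proper,
`H⁰ = k`, geometrically integral, closed under products), a pointed `k`-scheme `(W, w₀)` is
`CubeGood` if every invertible module on `W × X × Y` (`X`, `Y` nice and pointed) which is trivial on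
the three faces `{w₀} × X × Y`, `W × {x₀} × Y`, `W × X × {y₀}` is trivial.  The point is `CubeGood`;
if `W'` is nice and `CubeGood` and `C` is a pointed `k`-scheme whose `Pic⁰` is represented (frozen
S25 interface) by a separated scheme, then `C × W'` is `CubeGood`.
-/
import Mathlib
import Fermat.Agent.JAC.Cube.Step6

set_option autoImplicit false
set_option linter.unusedSimpArgs false

universe u

open CategoryTheory CategoryTheory.Limits AlgebraicGeometry MonoidalCategory
  CartesianMonoidalCategory AlgebraicGeometry.RelPicard NeronModelInfra GoodReductionJacobian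

namespace Fermat.Agent.JAC.Cube.Induct6

open Fermat.Agent.JAC.Cube.Step6 Fermat.Agent.JAC.Rig.Rigidity6

noncomputable section

/-! ### Triviality and pullbacks -/

section Trivial

variable {Z Z' Z'' Z₁ : Scheme.{u}}

theorem isTrivial_pullback (f : Z' ⟶ Z) {M : Z.Modules} (h : IsTrivial M) :
    IsTrivial ((Scheme.Modules.pullback f).obj M) :=
  ⟨(Scheme.Modules.pullback f).mapIso h.some ≪≫ Scheme.Modules.pullbackUnitIso f⟩

/-- If `f ≫ g = f' ≫ g'` and `g'^* M` is trivial then `f^* g^* M` is trivial. -/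
theorem isTrivial_pullback_pullback_of_eq (f : Z'' ⟶ Z') (g : Z' ⟶ Z) (f' : Z'' ⟶ Z₁)
    (g' : Z₁ ⟶ Z) (e : f ≫ g = f' ≫ g') {M : Z.Modules}
    (h : IsTrivial ((Scheme.Modules.pullback g').obj M)) :
    IsTrivial ((Scheme.Modules.pullback f).obj ((Scheme.Modules.pullback g).obj M)) :=
  (isTrivial_pullback f' h).of_iso
    ((Scheme.Modules.pullbackComp _ _).app M ≪≫ (Scheme.Modules.pullbackCongr e.symm).app M ≪≫
      ((Scheme.Modules.pullbackComp _ _).app M).symm)

/-- If `f ≫ g = g'` and `g'^* M` is trivial then `f^* g^* M` is trivial. -/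
theorem isTrivial_pullback_pullback_of_eq' (f : Z'' ⟶ Z') (g : Z' ⟶ Z) (g' : Z'' ⟶ Z)
    (e : f ≫ g = g') {M : Z.Modules} (h : IsTrivial ((Scheme.Modules.pullback g').obj M)) :
    IsTrivial ((Scheme.Modules.pullback f).obj ((Scheme.Modules.pullback g).obj M)) :=
  h.of_iso ((Scheme.Modules.pullbackCongr e.symm).app M ≪≫
    ((Scheme.Modules.pullbackComp _ _).app M).symm)

/-- Triviality can be tested after pullback along a split monomorphism. -/
theorem isTrivial_of_pullback_of_retraction (a : Z' ⟶ Z) (b : Z ⟶ Z') (e : b ≫ a = 𝟙 Z)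
    {M : Z.Modules} (h : IsTrivial ((Scheme.Modules.pullback a).obj M)) : IsTrivial M :=
  (isTrivial_pullback b h).of_iso
    ((Scheme.Modules.pullbackComp _ _).app M ≪≫ (Scheme.Modules.pullbackCongr e).app M ≪≫
      (Scheme.Modules.pullbackId Z).app M)

end Trivial

variable (k : Type u) [Field k]

/-- The base `Spec k`. -/
abbrev Sk : Scheme.{u} := Spec (CommRingCat.of k)

variable {k}

/-! ### Faces -/

section Faces

variable (W X Y : Over (Sk k)) (w₀ : 𝟙_ (Over (Sk k)) ⟶ W) (x₀ : 𝟙_ (Over (Sk k)) ⟶ X)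
  (y₀ : 𝟙_ (Over (Sk k)) ⟶ Y)

/-- The face `{w₀} × X × Y`. -/
def face₁ : X ⊗ Y ⟶ W ⊗ (X ⊗ Y) := lift (toUnit _ ≫ w₀) (𝟙 _)

/-- The face `W × {x₀} × Y`. -/
def face₂ : W ⊗ Y ⟶ W ⊗ (X ⊗ Y) := W ◁ lift (toUnit _ ≫ x₀) (𝟙 _)

/-- The face `W × X × {y₀}`. -/
def face₃ : W ⊗ X ⟶ W ⊗ (X ⊗ Y) := W ◁ lift (𝟙 _) (toUnit _ ≫ y₀)

end Faces

/-- A class of "nice" `k`-schemes: proper, with `H⁰ = k`, geometrically integral, closed under
products and containing the point. -/
structure NiceClass (k : Type u) [Field k] where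
  P : Over (Sk k) → Prop
  unit : P (𝟙_ (Over (Sk k)))
  tensor : ∀ {X Y : Over (Sk k)}, P X → P Y → P (X ⊗ Y)
  isProper : ∀ {X : Over (Sk k)}, P X → IsProper X.hom
  isIso_appTop : ∀ {X : Over (Sk k)}, P X → IsIso X.hom.appTop
  geometricallyIntegral : ∀ {X : Over (Sk k)}, P X → GeometricallyIntegral X.hom

/-- `(W, w₀)` satisfies the theorem of the cube against all pairs of nice pointed schemes. -/
def CubeGood (N : NiceClass k) (W : Over (Sk k)) (w₀ : 𝟙_ (Over (Sk k)) ⟶ W) : Prop :=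
  ∀ (X Y : Over (Sk k)), N.P X → N.P Y → ∀ (x₀ : 𝟙_ (Over (Sk k)) ⟶ X)
    (y₀ : 𝟙_ (Over (Sk k)) ⟶ Y) (M : (W ⊗ (X ⊗ Y)).left.Modules), M.IsInvertible →
    IsTrivial ((Scheme.Modules.pullback (face₁ W X Y w₀).left).obj M) →
    IsTrivial ((Scheme.Modules.pullback (face₂ W X Y x₀).left).obj M) →
    IsTrivial ((Scheme.Modules.pullback (face₃ W X Y y₀).left).obj M) → IsTrivial M

/-- The base point of a pointed `k`-scheme as a `SchemeHomOver`. -/
def ptOver {C : Over (Sk k)} (ε : 𝟙_ (Over (Sk k)) ⟶ C) :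
    SchemeHomOver (𝟙 (Sk k)) C.hom :=
  ⟨ε.left, Over.w ε⟩

/-- The rigidified degree-zero Picard functor of the pointed `k`-scheme `(C, ε)` is represented
(frozen interface of S25) by a separated `k`-scheme. -/
def HasJac (C : Over (Sk k)) (ε : 𝟙_ (Over (Sk k)) ⟶ C) : Prop :=
  ∃ D : RelativePic0Designation k C.hom,
    Nonempty (RepresentsRelSubPic C.hom (ptOver ε) (algEquivZeroCut C.hom (ptOver ε)) D) ∧
      IsSeparated D.toBase

/-- The cube step in `Over`-language. -/
theorem cube_step_over (C : Over (Sk k)) (ε : 𝟙_ (Over (Sk k)) ⟶ C) (hJ : HasJac C ε)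
    (X Y : Over (Sk k)) [IsProper X.hom] (hx : IsIso X.hom.appTop) [IsIntegral (X ⊗ Y).left]
    [GeometricallyIntegral (X ⊗ Y).hom] [LocallyOfFiniteType (X ⊗ Y).hom]
    (x₀ : 𝟙_ (Over (Sk k)) ⟶ X) (y₀ : 𝟙_ (Over (Sk k)) ⟶ Y)
    (M : (C ⊗ (X ⊗ Y)).left.Modules) (hM : M.IsInvertible)
    (h1 : IsTrivial ((Scheme.Modules.pullback (face₁ C X Y ε).left).obj M))
    (h2 : IsTrivial ((Scheme.Modules.pullback (face₂ C X Y x₀).left).obj M))
    (h3 : IsTrivial ((Scheme.Modules.pullback (face₃ C X Y y₀).left).obj M)) : IsTrivial M := by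
  obtain ⟨D, ⟨h⟩, hsep⟩ := hJ
  let Mr : RigidifiedLineBundle C.hom (ptOver ε) (prodStr X.hom Y.hom) := ⟨M, hM, h1⟩
  have hX : IsTrivial (Mr.pullbackAlong (inclOver X.hom Y.hom y₀.left (Over.w y₀))).L := h3
  have hY : IsTrivial (Mr.pullbackAlong (sectionOver X.hom Y.hom x₀.left (Over.w x₀))).L := h2
  have : IsSeparated D.toBase := hsep
  have : IsIntegral (pullback X.hom Y.hom) := ‹IsIntegral (X ⊗ Y).left›
  have : LocallyOfFiniteType (prodStr X.hom Y.hom) := ‹LocallyOfFiniteType (X ⊗ Y).hom›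
  have : GeometricallyIntegral (prodStr X.hom Y.hom) := ‹GeometricallyIntegral (X ⊗ Y).hom›
  have h0 : IsTrivial (Mr.pullbackAlong
      (postComp (inclOver X.hom Y.hom y₀.left (Over.w y₀)) (ptOver x₀))).L :=
    (isTrivial_pullbackAlong _ (ptOver x₀) hX).of_iso (pullbackAlongPostCompIso Mr _ _)
  have hfib : FibrewiseAlgEquivZero Mr :=
    fibrewiseAlgEquivZero_of_isTrivial_at_point (prodStr X.hom Y.hom) _ Mr h0
  exact cube_step X.hom Y.hom h hx x₀.left (Over.w x₀) y₀.left (Over.w y₀) Mr hfib hX hY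

/-- The point satisfies the theorem of the cube. -/
theorem cubeGood_unit (N : NiceClass k) :
    CubeGood N (𝟙_ (Over (Sk k))) (𝟙 _) := by
  intro X Y _ _ x₀ y₀ M _ h1 _ _
  have e : (λ_ (X ⊗ Y)).hom ≫ face₁ (𝟙_ (Over (Sk k))) X Y (𝟙 _) = 𝟙 _ := by
    apply CartesianMonoidalCategory.hom_ext
    · exact toUnit_unique _ _
    · simp [face₁, CartesianMonoidalCategory.leftUnitor_hom]
  exact isTrivial_of_pullback_of_retraction (face₁ (𝟙_ (Over (Sk k))) X Y (𝟙 _)).left
    (λ_ (X ⊗ Y)).hom.left (by rw [← Over.comp_left, e]; rfl) h1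

section Step

variable (C W' X Y : Over (Sk k))

/-- The reassociation `C × (X × (W' × Y)) ⟶ (C × W') × (X × Y)`. -/
def reassoc : C ⊗ (X ⊗ (W' ⊗ Y)) ⟶ (C ⊗ W') ⊗ (X ⊗ Y) :=
  lift (lift (fst _ _) (snd _ _ ≫ snd _ _ ≫ fst _ _))
    (lift (snd _ _ ≫ fst _ _) (snd _ _ ≫ snd _ _ ≫ snd _ _))

/-- The inverse reassociation. -/
def reassocInv : (C ⊗ W') ⊗ (X ⊗ Y) ⟶ C ⊗ (X ⊗ (W' ⊗ Y)) :=
  lift (fst _ _ ≫ fst _ _)
    (lift (snd _ _ ≫ fst _ _) (lift (fst _ _ ≫ snd _ _) (snd _ _ ≫ snd _ _)))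

theorem reassocInv_reassoc : reassocInv C W' X Y ≫ reassoc C W' X Y = 𝟙 _ := by
  apply CartesianMonoidalCategory.hom_ext <;> apply CartesianMonoidalCategory.hom_ext <;>
    simp [reassoc, reassocInv]

/-- The reordering `X × (W' × Y) ⟶ W' × (X × Y)`. -/
def reorder : X ⊗ (W' ⊗ Y) ⟶ W' ⊗ (X ⊗ Y) :=
  lift (snd _ _ ≫ fst _ _) (lift (fst _ _) (snd _ _ ≫ snd _ _))

variable {C W'} (ε : 𝟙_ (Over (Sk k)) ⟶ C) (w₀' : 𝟙_ (Over (Sk k)) ⟶ W')

/-- `W' × Z ⟶ (C × W') × Z`, `(w, z) ↦ ((ε, w), z)`. -/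
def inj (Z : Over (Sk k)) : W' ⊗ Z ⟶ (C ⊗ W') ⊗ Z :=
  lift (lift (toUnit _ ≫ ε) (fst _ _)) (snd _ _)

/-- `C × Z ⟶ (C × W') × Z`, `(c, z) ↦ ((c, w₀'), z)`. -/
def inj' (Z : Over (Sk k)) : C ⊗ Z ⟶ (C ⊗ W') ⊗ Z :=
  lift (lift (fst _ _) (toUnit _ ≫ w₀')) (snd _ _)

variable {X Y} (x₀ : 𝟙_ (Over (Sk k)) ⟶ X) (y₀ : 𝟙_ (Over (Sk k)) ⟶ Y)

theorem face₁_inj :
    face₁ W' X Y w₀' ≫ inj ε (X ⊗ Y) = face₁ (C ⊗ W') X Y (lift ε w₀') := by
  apply CartesianMonoidalCategory.hom_ext
  · apply CartesianMonoidalCategory.hom_ext <;> simp [face₁, inj]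
  · simp [face₁, inj]

theorem face₂_inj :
    face₂ W' X Y x₀ ≫ inj ε (X ⊗ Y) = inj ε Y ≫ face₂ (C ⊗ W') X Y x₀ := by
  apply CartesianMonoidalCategory.hom_ext
  · apply CartesianMonoidalCategory.hom_ext <;> simp [face₂, inj]
  · apply CartesianMonoidalCategory.hom_ext <;> simp [face₂, inj]

theorem face₃_inj :
    face₃ W' X Y y₀ ≫ inj ε (X ⊗ Y) = inj ε X ≫ face₃ (C ⊗ W') X Y y₀ := by
  apply CartesianMonoidalCategory.hom_ext
  · apply CartesianMonoidalCategory.hom_ext <;> simp [face₃, inj]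
  · apply CartesianMonoidalCategory.hom_ext <;> simp [face₃, inj]

theorem face₁_reassoc :
    face₁ C X (W' ⊗ Y) ε ≫ reassoc C W' X Y = reorder W' X Y ≫ inj ε (X ⊗ Y) := by
  apply CartesianMonoidalCategory.hom_ext
  · apply CartesianMonoidalCategory.hom_ext <;> simp [face₁, inj, reassoc, reorder]
  · apply CartesianMonoidalCategory.hom_ext <;> simp [face₁, inj, reassoc, reorder]

theorem face₂_reassoc :
    face₂ C X (W' ⊗ Y) x₀ ≫ reassoc C W' X Y =
      (α_ C W' Y).inv ≫ face₂ (C ⊗ W') X Y x₀ := by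
  apply CartesianMonoidalCategory.hom_ext
  · apply CartesianMonoidalCategory.hom_ext <;> simp [face₂, reassoc]
  · apply CartesianMonoidalCategory.hom_ext <;> simp [face₂, reassoc]

theorem face₃_reassoc :
    face₃ C X (W' ⊗ Y) (lift w₀' y₀) ≫ reassoc C W' X Y =
      inj' w₀' X ≫ face₃ (C ⊗ W') X Y y₀ := by
  apply CartesianMonoidalCategory.hom_ext
  · apply CartesianMonoidalCategory.hom_ext <;> simp [face₃, reassoc, inj']
  · apply CartesianMonoidalCategory.hom_ext <;> simp [face₃, reassoc, inj']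

end Step

/-- **Induction step of the theorem of the cube**: if `W'` is nice and satisfies the theorem of
the cube, and `(C, ε)` has a separated Jacobian (frozen S25 interface), then `C × W'` satisfies the
theorem of the cube. -/
theorem cubeGood_tensor (N : NiceClass k) {C W' : Over (Sk k)} (ε : 𝟙_ (Over (Sk k)) ⟶ C)
    (hJ : HasJac C ε) (w₀' : 𝟙_ (Over (Sk k)) ⟶ W') (hW' : N.P W')
    (hgood : CubeGood N W' w₀') : CubeGood N (C ⊗ W') (lift ε w₀') := by
  intro X Y hX hY x₀ y₀ M hM h1 h2 h3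
  -- the restriction of `M` to `{ε} × W' × X × Y` is trivial by the hypothesis on `W'`
  have hA : IsTrivial ((Scheme.Modules.pullback (inj ε (X ⊗ Y)).left).obj M) := by
    apply hgood X Y hX hY x₀ y₀ _ (hM.pullback _)
    · exact isTrivial_pullback_pullback_of_eq' _ _ _
        (by rw [← Over.comp_left, face₁_inj ε w₀']) h1
    · exact isTrivial_pullback_pullback_of_eq _ _ _ _
        (by rw [← Over.comp_left, face₂_inj ε x₀, Over.comp_left]) h2
    · exact isTrivial_pullback_pullback_of_eq _ _ _ _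
        (by rw [← Over.comp_left, face₃_inj ε y₀, Over.comp_left]) h3
  -- instances
  have : IsProper X.hom := N.isProper hX
  have hWY : N.P (W' ⊗ Y) := N.tensor hW' hY
  have hT : N.P (X ⊗ (W' ⊗ Y)) := N.tensor hX hWY
  have : GeometricallyIntegral (X ⊗ (W' ⊗ Y)).hom := N.geometricallyIntegral hT
  have : IsProper (X ⊗ (W' ⊗ Y)).hom := N.isProper hT
  have : IsIntegral (X ⊗ (W' ⊗ Y)).left :=
    GeometricallyIntegral.isIntegral_of_subsingleton (X ⊗ (W' ⊗ Y)).hom
  -- reassociate and apply the cube step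
  apply isTrivial_of_pullback_of_retraction (reassoc C W' X Y).left (reassocInv C W' X Y).left
    (by rw [← Over.comp_left, reassocInv_reassoc]; rfl)
  apply cube_step_over C ε hJ X (W' ⊗ Y) (N.isIso_appTop hX) x₀ (lift w₀' y₀) _ (hM.pullback _)
  · exact isTrivial_pullback_pullback_of_eq _ _ _ _
      (by rw [← Over.comp_left, face₁_reassoc ε, Over.comp_left]) hA
  · exact isTrivial_pullback_pullback_of_eq _ _ _ _
      (by rw [← Over.comp_left, face₂_reassoc x₀, Over.comp_left]) h2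
  · exact isTrivial_pullback_pullback_of_eq _ _ _ _
      (by rw [← Over.comp_left, face₃_reassoc w₀' y₀, Over.comp_left]) h3

/-! ### Products of pointed curves -/

/-- A nice pointed `k`-scheme with a separated Jacobian (e.g. a smooth proper geometrically integral
pointed curve over an algebraically closed field, by S25). -/
structure PointedJac (N : NiceClass k) where
  obj : Over (Sk k)
  pt : 𝟙_ (Over (Sk k)) ⟶ obj
  hasJac : HasJac obj pt
  nice : N.P obj

variable {N : NiceClass k}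

/-- The product `C₁ × (C₂ × (⋯ × pt))` of a list of pointed curves. -/
def prodObj : List (PointedJac N) → Over (Sk k)
  | [] => 𝟙_ (Over (Sk k))
  | c :: l => c.obj ⊗ prodObj l

/-- The base point of the product. -/
def prodPt : ∀ l : List (PointedJac N), 𝟙_ (Over (Sk k)) ⟶ prodObj l
  | [] => 𝟙 _
  | c :: l => lift c.pt (prodPt l)

theorem nice_prodObj : ∀ l : List (PointedJac N), N.P (prodObj l)
  | [] => N.unit
  | c :: l => N.tensor c.nice (nice_prodObj l)

/-- **Theorem of the cube for products of pointed curves** (`Scheme.Modules` form): an invertible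
module on `(C₁ × ⋯ × C_r) × X × Y`, `X`, `Y` nice and pointed, which is trivial on the three
faces is trivial. -/
theorem cubeGood_prodObj : ∀ l : List (PointedJac N), CubeGood N (prodObj l) (prodPt l)
  | [] => cubeGood_unit N
  | c :: l => cubeGood_tensor N c.pt c.hasJac (prodPt l) (nice_prodObj l) (cubeGood_prodObj l)

end

end Fermat.Agent.JAC.Cube.Induct6
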