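/-
S26-track, brick CW3 (helper1): the theorem of the cube in the language of divisor classes
(`Div2/Cl1`), deduced from its `Scheme.Modules` form (`Cube/Induct6.CubeGood`, helper6) through the
line-bundle bridge `ofCaDiv` (`Cube/LineBundle50`, helper50).

The only input not yet available as a theorem is CW1 (c'): "if the pulled back divisor is
principal, the pulled back module `φ^* O(E)` is trivial"; it is consumed as the hypothesis
`PullTrivial`.
-/
import Fermat.Agent.JAC.Cube.Induct6
import Fermat.Agent.JAC.Cube.LineBundle50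
import Fermat.Agent.JAC.Div2.Cl1
import Fermat.Agent.JAC.Glue.HomGlue1

set_option autoImplicit false

universe u

open AlgebraicGeometry CategoryTheory TopologicalSpace Opposite MonoidalCategory
  CartesianMonoidalCategory

namespace Fermat.Agent.JAC.Cube.ClCube1

open Fermat.Agent.JAC.Div2.Stalk69 Fermat.Agent.JAC.Div2.CaDiv69
open Fermat.Agent.JAC.Div2.PullGen1 Fermat.Agent.JAC.Div2.Cl1
open Fermat.Agent.JAC.Cube.LineBundle50 Fermat.Agent.JAC.Cube.Step6
open Fermat.Agent.JAC.Cube.Induct6
open Fermat.Agent.JAC.Glue.HomGlue1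

noncomputable section

/-! ### Multiplication by a rational function `O(E) ⟶ O(E')` -/

section Mul

variable {X : Scheme.{u}} [IsIntegral X] (E E' : CaDiv X)

/-- `h` maps `O(E)` into `O(E')`: `h * eq' / eq` is regular everywhere. -/
def MulCond (h : X.functionField) : Prop :=
  ∀ z : X, h * (E'.eq z : X.functionField) * ((E.eq z : X.functionField))⁻¹ ∈ stalkRing X z

variable {E E'}

/-- Multiplication by `h` on sections (function model). -/
def mulSecs {h : X.functionField} (hh : MulCond E E' h) (W : X.Opens) :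
    secs E W →+ secs E' W where
  toFun s := ⟨fun z => h * s.1 z, fun z => by
      have h1 := s.2.1 z
      have h2 := hh z.1
      have e : h * s.1 z * (E'.eq z.1 : X.functionField) =
          (s.1 z * (E.eq z.1 : X.functionField)) *
            (h * (E'.eq z.1 : X.functionField) * ((E.eq z.1 : X.functionField))⁻¹) := by
        have hne : (E.eq z.1 : X.functionField) ≠ 0 := Units.ne_zero _
        field_simp
      rw [e]
      exact mul_mem h1 h2, fun x => by
      obtain ⟨V, hxV, hV⟩ := s.2.2 x
      exact ⟨V, hxV, fun z hz => by simp only [hV z hz]⟩⟩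
  map_zero' := by
    apply Subtype.ext
    funext z
    simp
  map_add' s t := by
    apply Subtype.ext
    funext z
    simp [mul_add]

@[simp] lemma mulSecs_apply {h : X.functionField} (hh : MulCond E E' h) (W : X.Opens)
    (s : secs E W) (z : W) : (mulSecs hh W s).1 z = h * s.1 z := rfl

/-- Multiplication by `h` as a (global) local homomorphism `O(E) → O(E')`. -/
def mulLocalHom {h : X.functionField} (hh : MulCond E E' h) :
    LocalHom (ofCaDiv E) (ofCaDiv E') ⊤ where
  app V _ := ((toSecs E' V).symm.toAddMonoidHom.comp (mulSecs hh V)).comp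
    (toSecs E V).toAddMonoidHom
  naturality _ _ _ := rfl
  map_smul {V} _ r x := by
    apply (toSecs E' V).injective
    apply Subtype.ext
    funext z
    change h * (gK V _ r * (toSecs E V x).1 z) = gK V _ r * (h * (toSecs E V x).1 z)
    ring

lemma mulLocalHom_app {h : X.functionField} (hh : MulCond E E' h) (V : X.Opens) (hV : V ≤ ⊤)
    (x : Γ(ofCaDiv E, V)) (z : V) :
    (toSecs E' V ((mulLocalHom hh).app V hV x)).1 z = h * (toSecs E V x).1 z := rfl

/-- Multiplication by a function and by its inverse: an isomorphism `O(E) ≅ O(E')`. -/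
def mulIso (h : X.functionFieldˣ) (hh : MulCond E E' (h : X.functionField))
    (hh' : MulCond E' E ((h⁻¹ : X.functionFieldˣ) : X.functionField)) :
    ofCaDiv E ≅ ofCaDiv E' :=
  LocalIso.toIso
    { hom := mulLocalHom hh
      inv := mulLocalHom hh'
      hom_inv_id := by
        apply LocalHom.ext
        intro V hV x
        apply (toSecs E V).injective
        apply Subtype.ext
        funext z
        change ((h⁻¹ : X.functionFieldˣ) : X.functionField) *
          ((h : X.functionField) * (toSecs E V x).1 z) = (toSecs E V x).1 z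
        rw [← mul_assoc, Units.inv_mul, one_mul]
      inv_hom_id := by
        apply LocalHom.ext
        intro V hV x
        apply (toSecs E' V).injective
        apply Subtype.ext
        funext z
        change (h : X.functionField) *
          (((h⁻¹ : X.functionFieldˣ) : X.functionField) * (toSecs E' V x).1 z) =
            (toSecs E' V x).1 z
        rw [← mul_assoc, Units.mul_inv, one_mul] }

/-- **Linearly equivalent divisors have isomorphic line bundles.** -/
theorem nonempty_ofCaDiv_iso_of_linEquiv (h : CaDiv.LinEquiv E E') :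
    Nonempty (ofCaDiv E ≅ ofCaDiv E') := by
  obtain ⟨g, hg⟩ := h
  refine ⟨mulIso g (fun z => ?_) (fun z => ?_)⟩
  · have h1 := (hg z).2
    have e : (g : X.functionField) * (E'.eq z : X.functionField) *
        ((E.eq z : X.functionField))⁻¹ =
        (((E.eq z / (E' + CaDiv.principal g).eq z)⁻¹ : X.functionFieldˣ) : X.functionField) := by
      simp only [CaDiv.eq_add, CaDiv.eq_principal, inv_div, Units.val_div_eq_div_val,
        Units.val_mul]
      rw [mul_comm (g : X.functionField), div_eq_mul_inv]
    rw [e]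
    exact h1
  · have h1 := (hg z).1
    have e : ((g⁻¹ : X.functionFieldˣ) : X.functionField) * (E.eq z : X.functionField) *
        ((E'.eq z : X.functionField))⁻¹ =
        ((E.eq z / (E' + CaDiv.principal g).eq z : X.functionFieldˣ) : X.functionField) := by
      simp only [CaDiv.eq_add, CaDiv.eq_principal, Units.val_div_eq_div_val, Units.val_mul,
        Units.val_inv_eq_inv_val]
      have hne : (E'.eq z : X.functionField) ≠ 0 := Units.ne_zero _
      have hne' : (g : X.functionField) ≠ 0 := Units.ne_zero _
      field_simp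
    rw [e]
    exact h1

end Mul

/-! ### Triviality of pullbacks from vanishing in `Cl` -/

/-- CW1 (c') in hypothesis form: if the pullback of a divisor missing the image of the generic
point is principal, the pullback of its line bundle is trivial. -/
def PullTrivial : Prop :=
  ∀ {X Y : Scheme.{u}} [IsIntegral X] [IsIntegral Y] (φ : Y ⟶ X) (E : CaDiv X)
    (hE : Fermat.Agent.JAC.Div2.PullGen1.CaDiv.Misses E φ), CaDiv.LinEquiv (Fermat.Agent.JAC.Div2.PullGen1.CaDiv.pullAt φ E hE) 0 →
      IsTrivial ((Scheme.Modules.pullback φ).obj (ofCaDiv E))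

section Pull

variable {X Y : Scheme.{u}} [IsIntegral X] [IsIntegral Y]

/-- If the class of `E` dies under `Cl.map φ`, then `φ^* O(E)` is trivial. -/
theorem isTrivial_pullback_ofCaDiv_of_map_eq_zero (hc : PullTrivial.{u}) (φ : Y ⟶ X)
    (E : CaDiv X) (h : Cl.map φ (Cl.mk E) = 0) :
    IsTrivial ((Scheme.Modules.pullback φ).obj (ofCaDiv E)) := by
  have h1 : CaDiv.LinEquiv (Fermat.Agent.JAC.Div2.PullGen1.CaDiv.pullAt φ (Fermat.Agent.JAC.Div2.PullGen1.CaDiv.move φ E)
      (Fermat.Agent.JAC.Div2.PullGen1.CaDiv.misses_move φ E)) 0 := by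
    rw [Cl.map_mk, Cl.mk_eq_zero_iff] at h
    exact h
  have h2 := hc φ (Fermat.Agent.JAC.Div2.PullGen1.CaDiv.move φ E) (Fermat.Agent.JAC.Div2.PullGen1.CaDiv.misses_move φ E) h1
  obtain ⟨e⟩ := nonempty_ofCaDiv_iso_of_linEquiv (Fermat.Agent.JAC.Div2.PullGen1.CaDiv.linEquiv_move φ E)
  exact h2.of_iso ((Scheme.Modules.pullback φ).mapIso e)

/-- `O(E)` is trivial iff the class of `E` vanishes. -/
theorem isTrivial_ofCaDiv_iff (E : CaDiv X) : IsTrivial (ofCaDiv E) ↔ Cl.mk E = 0 := by
  rw [Cl.mk_eq_zero_iff]
  exact trivial_iff_linEquiv_zero E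

end Pull

/-! ### The cube in `Cl` -/

section Cube

variable {k : Type u} [Field k]

/-- **Theorem of the cube for divisor classes**: on `W × X × Y` (`W` cube-good, `X`, `Y` nice
and pointed) a divisor class which vanishes on the three faces vanishes.  This is the hypothesis
`cube` of `Quadratic6.Theta_eq_zero_of_cube` with `PT := Cl T`, `fP i := Cl.map (face_i).left`. -/
theorem cl_cube (hc : PullTrivial.{u}) (N : NiceClass k) {W X Y : Over (Sk k)}
    (w₀ : 𝟙_ (Over (Sk k)) ⟶ W) (x₀ : 𝟙_ (Over (Sk k)) ⟶ X) (y₀ : 𝟙_ (Over (Sk k)) ⟶ Y)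
    (hgood : CubeGood N W w₀) (hX : N.P X) (hY : N.P Y)
    [IsIntegral (W ⊗ (X ⊗ Y)).left] [IsIntegral (X ⊗ Y).left] [IsIntegral (W ⊗ Y).left]
    [IsIntegral (W ⊗ X).left] (ξ : Cl (W ⊗ (X ⊗ Y)).left)
    (h1 : Cl.map (face₁ W X Y w₀).left ξ = 0) (h2 : Cl.map (face₂ W X Y x₀).left ξ = 0)
    (h3 : Cl.map (face₃ W X Y y₀).left ξ = 0) : ξ = 0 := by
  induction ξ using Cl.induction_on with
  | h E =>
    rw [← isTrivial_ofCaDiv_iff]
    exact hgood X Y hX hY x₀ y₀ (ofCaDiv E) (isInvertible_ofCaDiv E)
      (isTrivial_pullback_ofCaDiv_of_map_eq_zero hc _ E h1)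
      (isTrivial_pullback_ofCaDiv_of_map_eq_zero hc _ E h2)
      (isTrivial_pullback_ofCaDiv_of_map_eq_zero hc _ E h3)

end Cube

end

end Fermat.Agent.JAC.Cube.ClCube1
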