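/-
S26-track, brick CW1 (helper50): abstract lemmas about free generators of modules
(`EndInv23.IsGen`): change of generator, an isomorphism criterion, and the passage
from a free generator to a trivialisation.
-/
import Fermat.Agent.JAC.Glue.SmallClasses23
import Fermat.Agent.JAC.Glue.InvStab23
import Fermat.Agent.JAC.Glue.LocalIso50

set_option autoImplicit false

open AlgebraicGeometry CategoryTheory TopologicalSpace Opposite

universe u

namespace Fermat.Agent.JAC.Cube.Gen50

open Fermat.Agent.JAC.Glue.EndInv23 Fermat.Agent.JAC.Glue.SmallClasses23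
open Fermat.Agent.JAC.Glue.LocalIso50

noncomputable section

variable {X : Scheme.{u}}

/-- Multiplying a free generator by a unit gives a free generator. -/
theorem isGen_smul_of_isUnit {L : X.Modules} {U : X.Opens} {e : Γ(L, U)} (he : IsGen L U e)
    {u : Γ(X, U)} (hu : IsUnit u) : IsGen L U (u • e) := by
  intro V h
  have hu' : IsUnit (resO X h u) := hu.map (resO X h).hom
  have : (fun a : Γ(X, V) => a • resM L h (u • e)) =
      (fun a : Γ(X, V) => a • resM L h e) ∘ (fun a : Γ(X, V) => a * resO X h u) := by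
    funext a
    simp only [Function.comp_apply]
    rw [resM_smul, smul_smul]
  rw [this]
  obtain ⟨v, hv⟩ := hu'
  rw [← hv]
  exact (he V h).comp (Units.mulRight_bijective v)

/-- If a free generator is a multiple `a • g`, then `a` is a unit and `g` is a free generator. -/
theorem isGen_of_smul_eq {L : X.Modules} {U : X.Opens} {e g : Γ(L, U)} (he : IsGen L U e)
    (a : Γ(X, U)) (h : e = a • g) : IsUnit a ∧ IsGen L U g := by
  obtain ⟨b, hb⟩ := (he U le_rfl).2 g
  simp only [resM_self] at hb
  have h1 : (a * b) • e = (1 : Γ(X, U)) • e := by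
    rw [mul_smul, hb, one_smul, ← h]
  have h2 : a * b = 1 := he.eq_of_smul_eq h1
  have hb' : IsUnit b := IsUnit.of_mul_eq_one a (by rw [mul_comm]; exact h2)
  refine ⟨IsUnit.of_mul_eq_one b h2, ?_⟩
  rw [← hb]
  exact isGen_smul_of_isUnit he hb'

/-- The unit section generates the structure sheaf. -/
theorem isGen_one (X : Scheme.{u}) (U : X.Opens) : IsGen (unitMod X) U (ofFn (1 : Γ(X, U))) := by
  intro V h
  have : (fun a : Γ(X, V) => a • resM (unitMod X) h (ofFn (1 : Γ(X, U)))) = fun a => ofFn a := by
    funext a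
    have h1 : resM (unitMod X) h (ofFn (1 : Γ(X, U))) = ofFn (1 : Γ(X, V)) := by
      change ofFn (X.presheaf.map (homOfLE h).op (1 : Γ(X, U))) = _
      rw [map_one]
    rw [h1, smul_ofFn, mul_one]
  rw [this]
  exact Function.bijective_id

/-- A morphism of modules which maps local free generators to local free generators
is an isomorphism. -/
theorem isIso_of_isGen {N N' : X.Modules} (φ : N ⟶ N')
    (h : ∀ x : X, ∃ (Ω : X.Opens) (n : Γ(N, Ω)), x ∈ Ω ∧ IsGen N Ω n ∧
      IsGen N' Ω (φ.app Ω n)) : IsIso φ := by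
  choose Ω n hx hn hn' using h
  have hbij : ∀ (x : X) (V : X.Opens), V ≤ Ω x → Function.Bijective (φ.app V) := by
    intro x V hV
    have h1 : (fun a : Γ(X, V) => a • resM N' hV (φ.app (Ω x) (n x))) =
        (fun s => φ.app V s) ∘ (fun a : Γ(X, V) => a • resM N hV (n x)) := by
      funext a
      simp only [Function.comp_apply]
      rw [Scheme.Modules.Hom.app_smul]
      congr 1
      exact (app_map_apply φ (homOfLE hV) (n x)).symm
    have h2 := hn' x V hV
    rw [h1] at h2
    exact (Function.Bijective.of_comp_iff _ (hn x V hV)).mp h2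
  apply isIso_of_cover Ω (fun x _ => Opens.mem_iSup.mpr ⟨x, hx x⟩) φ
  intro x
  rw [Scheme.Modules.Hom.isIso_iff_isIso_app]
  intro A
  have hA : (Ω x).ι ''ᵁ A ≤ Ω x := by
    intro z hz
    obtain ⟨w, -, rfl⟩ := hz
    exact w.2
  have := hbij x ((Ω x).ι ''ᵁ A) hA
  exact (ConcreteCategory.isIso_iff_bijective _).mpr this

/-- Free generators are transported by isomorphisms. -/
theorem isGen_of_iso {L L' : X.Modules} (t : L ≅ L') {U : X.Opens} {e : Γ(L, U)}
    (he : IsGen L U e) : IsGen L' U (t.hom.app U e) := by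
  intro V h
  have h1 : (fun a : Γ(X, V) => a • resM L' h (t.hom.app U e)) =
      (fun s => t.hom.app V s) ∘ (fun a : Γ(X, V) => a • resM L h e) := by
    funext a
    simp only [Function.comp_apply]
    rw [Scheme.Modules.Hom.app_smul]
    congr 1
    exact (app_map_apply t.hom (homOfLE h) e).symm
  rw [h1]
  exact (ConcreteCategory.bijective_of_isIso (t.hom.app V)).comp (he V h)

/-- A module with a global free generator is trivial. -/
theorem nonempty_iso_unit_of_isGen_top {L : X.Modules} {e : Γ(L, ⊤)} (he : IsGen L ⊤ e) :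
    Nonempty (L ≅ unitMod X) := by
  refine nonempty_iso_of_trans_eq (L := L) (L' := unitMod X) (fun _ => ⊤) (fun _ => trivial)
    (fun _ => e) (fun _ => ofFn (1 : Γ(X, ⊤))) (fun _ => he) (fun _ => isGen_one X ⊤) ?_
  intro x y
  unfold Fermat.Agent.JAC.Glue.SmallClasses23.trans
  rw [coeff_gen, coeff_gen]

/-- A trivial module has a global free generator. -/
theorem exists_isGen_top_of_iso_unit {L : X.Modules} (t : L ≅ unitMod X) :
    ∃ e : Γ(L, ⊤), IsGen L ⊤ e :=
  ⟨_, isGen_of_iso t.symm (isGen_one X ⊤)⟩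

/-- A free generator over `U`, viewed as a global generator of the restriction to `U`. -/
theorem isGen_restrict {L : X.Modules} {U : X.Opens} {e : Γ(L, U)} (he : IsGen L U e) :
    IsGen (L.restrict U.ι) ⊤
      (show Γ(L.restrict U.ι, ⊤) from
        resM L (show U.ι ''ᵁ ⊤ ≤ U from (Scheme.Opens.ι_image_top U).le) e) := by
  intro A hA
  have hle : U.ι ''ᵁ A ≤ U := by
    intro z hz
    obtain ⟨w, -, rfl⟩ := hz
    exact w.2
  have h1 : (fun a : Γ(U.toScheme, A) => a • resM (L.restrict U.ι) hA
      (show Γ(L.restrict U.ι, ⊤) from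
        resM L (show U.ι ''ᵁ ⊤ ≤ U from (Scheme.Opens.ι_image_top U).le) e)) =
      (fun b : Γ(X, U.ι ''ᵁ A) => (show Γ(L.restrict U.ι, A) from b • resM L hle e)) ∘
        (fun a : Γ(U.toScheme, A) => (U.ι.appIso A).inv a) := by
    funext a
    have h2 : resM (L.restrict U.ι) hA (show Γ(L.restrict U.ι, ⊤) from
        resM L (show U.ι ''ᵁ ⊤ ≤ U from (Scheme.Opens.ι_image_top U).le) e) =
        (show Γ(L.restrict U.ι, A) from resM L hle e) := by
      change resM L (U.ι.image_mono hA) (resM L _ e) = resM L hle e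
      rw [resM_resM]
    rw [h2]
    rfl
  rw [h1]
  exact (he _ hle).comp (ConcreteCategory.bijective_of_isIso (U.ι.appIso A).inv)

/-- A module with a free generator over `U` is trivial over `U`. -/
theorem nonempty_restrict_iso_unit_of_isGen {L : X.Modules} {U : X.Opens} {e : Γ(L, U)}
    (he : IsGen L U e) : Nonempty (L.restrict U.ι ≅ unitMod U.toScheme) :=
  nonempty_iso_unit_of_isGen_top (isGen_restrict he)

theorem nonempty_pullback_iso_unit_of_isGen {L : X.Modules} {U : X.Opens} {e : Γ(L, U)}
    (he : IsGen L U e) :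
    Nonempty ((Scheme.Modules.pullback U.ι).obj L ≅
      SheafOfModules.unit U.toScheme.ringCatSheaf) := by
  obtain ⟨t⟩ := nonempty_restrict_iso_unit_of_isGen he
  exact ⟨Fermat.Agent.JAC.Glue.InvStab23.trivRestrictEquivPullback U.ι L t⟩

/-- A module which is trivial over `U` has a free generator over `U`. -/
theorem exists_isGen_of_pullback_iso_unit {L : X.Modules} {U : X.Opens}
    (t : (Scheme.Modules.pullback U.ι).obj L ≅ SheafOfModules.unit U.toScheme.ringCatSheaf) :
    ∃ e : Γ(L, U), IsGen L U e := by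
  let t' : L.restrict U.ι ≅ unitMod U.toScheme :=
    (Fermat.Agent.JAC.Glue.InvStab23.trivRestrictEquivPullback U.ι L).symm t
  obtain ⟨W, hW, e, he⟩ : ∃ W : X.Opens, W = U ∧ ∃ e : Γ(L, W), IsGen L W e :=
    ⟨_, Scheme.Opens.ι_image_top U, _, isGen_genOn U.ι t'⟩
  subst hW
  exact ⟨e, he⟩

/-- A locally freely generated module is invertible (in the sense of the Prelude). -/
theorem isInvertible_of_locallyGen {L : X.Modules} (h : LocallyGen L) :
    Scheme.Modules.IsInvertible L := by
  refine ⟨fun x => ?_⟩
  obtain ⟨U, e, hx, he⟩ := h x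
  exact ⟨U, hx, nonempty_pullback_iso_unit_of_isGen he⟩

theorem isInvertible_iff_locallyGen {L : X.Modules} :
    Scheme.Modules.IsInvertible L ↔ LocallyGen L :=
  ⟨locallyGen_of_isInvertible, isInvertible_of_locallyGen⟩

end

end Fermat.Agent.JAC.Cube.Gen50
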