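/-
S26-track, brick CW1 (helper50): the invertible module `O(E)` of a Cartier divisor
`E : CaDiv X` (helper69's field form) on an integral scheme, as the subsheaf of the constant
sheaf `K(X)` of the functions `f` with `f * E.eq z` regular at `z`.

Sign convention = `CaDiv69.L`: the sections of `ofCaDiv E` over a nonempty open `W` are the
`f ∈ K(X)` with `f * E.eq z ∈ O_{X,z}` for all `z ∈ W`.
-/
import Fermat.Agent.JAC.Div2.CaDiv69
import Fermat.Agent.JAC.Cube.Gen50

set_option autoImplicit false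

open AlgebraicGeometry CategoryTheory TopologicalSpace Opposite

universe u

namespace Fermat.Agent.JAC.Cube.LineBundle50

open Fermat.Agent.JAC.Div2.Stalk69 Fermat.Agent.JAC.Div2.CaDiv69
open Fermat.Agent.JAC.Glue.Sec50 Fermat.Agent.JAC.Glue.EndInv23 Fermat.Agent.JAC.Cube.Gen50

noncomputable section

variable {X : Scheme.{u}} [IsIntegral X]

/-- The germ at the generic point of a section over an open containing it. -/
def gK (W : X.Opens) (hW : genericPoint X ∈ W) : Γ(X, W) →+* X.functionField :=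
  (X.presheaf.germ W (genericPoint X) hW).hom

lemma gK_res {V W : X.Opens} (h : V ≤ W) (hV : genericPoint X ∈ V) (r : Γ(X, W)) :
    gK V hV (resR X h r) = gK W (h hV) r :=
  X.presheaf.germ_res_apply (homOfLE h) (genericPoint X) hV r

lemma gK_mem_stalkRing {W : X.Opens} {z : X} (hz : z ∈ W) (r : Γ(X, W)) :
    gK W (genericPoint_mem_of_mem hz) r ∈ stalkRing X z :=
  germ_mem_stalkRing hz r

lemma gK_injective (W : X.Opens) (hW : genericPoint X ∈ W) : Function.Injective (gK W hW) := by
  have : Nonempty W := ⟨⟨genericPoint X, hW⟩⟩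
  exact Scheme.germToFunctionField_injective X W

variable (E : CaDiv X)

/-- The condition defining the sections of `O(E)` over `W`, as functions `W → K(X)`. -/
def IsSec (W : X.Opens) (s : W → X.functionField) : Prop :=
  (∀ z : W, s z * (E.eq z.1 : X.functionField) ∈ stalkRing X z.1) ∧
    ∀ x : W, ∃ V : X.Opens, x.1 ∈ V ∧ ∀ z : W, z.1 ∈ V → s z = s x

/-- The sections of `O(E)` over `W`. -/
def secs (W : X.Opens) : AddSubgroup (W → X.functionField) where
  carrier := {s | IsSec E W s}
  zero_mem' := by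
    refine ⟨fun z => ?_, fun x => ⟨⊤, trivial, fun z _ => rfl⟩⟩
    simp only [Pi.zero_apply, zero_mul]
    exact zero_mem _
  add_mem' := by
    rintro s t ⟨hs, hs'⟩ ⟨ht, ht'⟩
    refine ⟨fun z => ?_, fun x => ?_⟩
    · simp only [Pi.add_apply, add_mul]
      exact add_mem (hs z) (ht z)
    · obtain ⟨V, hxV, hV⟩ := hs' x
      obtain ⟨V', hxV', hV'⟩ := ht' x
      refine ⟨V ⊓ V', ⟨hxV, hxV'⟩, fun z hz => ?_⟩
      simp only [Pi.add_apply, hV z hz.1, hV' z hz.2]
  neg_mem' := by
    rintro s ⟨hs, hs'⟩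
    refine ⟨fun z => ?_, fun x => ?_⟩
    · simp only [Pi.neg_apply, neg_mul]
      exact neg_mem (hs z)
    · obtain ⟨V, hxV, hV⟩ := hs' x
      exact ⟨V, hxV, fun z hz => by simp only [Pi.neg_apply, hV z hz]⟩

variable {E}

lemma mem_secs {W : X.Opens} {s : W → X.functionField} : s ∈ secs E W ↔ IsSec E W s := Iff.rfl

/-- Sections are constant (the scheme is irreducible). -/
lemma secs_const {W : X.Opens} (s : secs E W) (x y : W) : s.1 x = s.1 y := by
  have key : ∀ x : W, s.1 x = s.1 ⟨genericPoint X, genericPoint_mem_of_mem x.2⟩ := by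
    intro x
    obtain ⟨V, hxV, hV⟩ := s.2.2 x
    exact (hV ⟨genericPoint X, genericPoint_mem_of_mem x.2⟩ (genericPoint_mem_of_mem hxV)).symm
  rw [key x, key y]

variable (E)

/-- Restriction of sections. -/
def secsRes {W' W : X.Opens} (h : W' ≤ W) : secs E W →+ secs E W' where
  toFun s := ⟨fun z => s.1 ⟨z.1, h z.2⟩, fun z => s.2.1 ⟨z.1, h z.2⟩, fun x => by
    obtain ⟨V, hxV, hV⟩ := s.2.2 ⟨x.1, h x.2⟩
    exact ⟨V, hxV, fun z hz => hV ⟨z.1, h z.2⟩ hz⟩⟩
  map_zero' := rfl
  map_add' _ _ := rfl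

@[simp] lemma secsRes_apply {W' W : X.Opens} (h : W' ≤ W) (s : secs E W) (z : W') :
    (secsRes E h s).1 z = s.1 ⟨z.1, h z.2⟩ := rfl

/-- Scalar multiplication on sections. -/
instance instSMulSecs (W : X.Opens) : SMul Γ(X, W) (secs E W) where
  smul r s := ⟨fun z => gK W (genericPoint_mem_of_mem z.2) r * s.1 z, fun z => by
      rw [mul_assoc]
      exact mul_mem (gK_mem_stalkRing z.2 r) (s.2.1 z), fun x => by
      obtain ⟨V, hxV, hV⟩ := s.2.2 x
      exact ⟨V, hxV, fun z hz => by
        show gK W _ r * s.1 z = gK W _ r * s.1 x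
        rw [hV z hz]⟩⟩

@[simp] lemma smul_secs_apply {W : X.Opens} (r : Γ(X, W)) (s : secs E W) (z : W) :
    (r • s).1 z = gK W (genericPoint_mem_of_mem z.2) r * s.1 z := rfl

instance instModuleSecs (W : X.Opens) : Module Γ(X, W) (secs E W) where
  one_smul s := by ext z; simp
  mul_smul r r' s := by ext z; simp [mul_assoc]
  smul_zero r := by ext z; simp
  smul_add r s t := by ext z; simp [mul_add]
  add_smul r r' s := by ext z; simp [add_mul]
  zero_smul s := by ext z; simp

/-- The presheaf of abelian groups underlying `O(E)`. -/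
def abPresheaf : TopCat.Presheaf Ab X where
  obj W := AddCommGrpCat.of (secs E W.unop)
  map f := AddCommGrpCat.ofHom (secsRes E (leOfHom f.unop))
  map_id W := by
    ext s z
    rfl
  map_comp f g := by
    ext s z
    rfl

instance instModuleAbPresheaf (W : X.Opensᵒᵖ) :
    Module (X.ringCatSheaf.obj.obj W) ((abPresheaf E).obj W) :=
  instModuleSecs E W.unop

lemma secsRes_smul {W' W : X.Opens} (h : W' ≤ W) (r : Γ(X, W)) (s : secs E W) :
    secsRes E h (r • s) = resR X h r • secsRes E h s := by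
  apply Subtype.ext
  funext z
  simp only [secsRes_apply, smul_secs_apply]
  rw [gK_res]

/-- The presheaf of modules underlying `O(E)`. -/
def presheafOfModules : PresheafOfModules X.ringCatSheaf.obj :=
  PresheafOfModules.ofPresheaf (abPresheaf E)
    (fun _ _ f r m => secsRes_smul E (leOfHom f.unop) r m)

theorem abPresheaf_isSheaf : (abPresheaf E).IsSheaf := by
  rw [TopCat.Presheaf.isSheaf_iff_isSheafUniqueGluing]
  intro κ V sf hsf
  have hidx : ∀ z : (⨆ a, V a : X.Opens), ∃ a, z.1 ∈ V a := fun z => Opens.mem_iSup.mp z.2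
  choose idx hidx' using hidx
  let s : (⨆ a, V a : X.Opens) → X.functionField := fun z => (sf (idx z)).1 ⟨z.1, hidx' z⟩
  have key : ∀ (a : κ) (z : (⨆ a, V a : X.Opens)) (hz : z.1 ∈ V a), s z = (sf a).1 ⟨z.1, hz⟩ := by
    intro a z hz
    exact congrArg (fun t : secs E (V (idx z) ⊓ V a) => t.1 ⟨z.1, ⟨hidx' z, hz⟩⟩) (hsf (idx z) a)
  have hs : IsSec E (⨆ a, V a) s := by
    refine ⟨fun z => ?_, fun x => ?_⟩
    · exact (sf (idx z)).2.1 ⟨z.1, hidx' z⟩
    · obtain ⟨V', hxV', hV'⟩ := (sf (idx x)).2.2 ⟨x.1, hidx' x⟩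
      refine ⟨V' ⊓ V (idx x), ⟨hxV', hidx' x⟩, fun z hz => ?_⟩
      rw [key (idx x) z hz.2]
      exact hV' ⟨z.1, hz.2⟩ hz.1
  refine ⟨⟨s, hs⟩, fun a => ?_, fun t ht => ?_⟩
  · apply Subtype.ext
    funext z
    exact key a ⟨z.1, (le_iSup V a) z.2⟩ z.2
  · apply Subtype.ext
    funext z
    have := congrArg (fun t : secs E (V (idx z)) => t.1 ⟨z.1, hidx' z⟩) (ht (idx z))
    exact this

/-- **The invertible module `O(E)` of a Cartier divisor.** -/
def ofCaDiv : X.Modules := ⟨presheafOfModules E, abPresheaf_isSheaf E⟩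

/-- Sections of `O(E)` are functions (definitionally). -/
def toSecs (W : X.Opens) : Γ(ofCaDiv E, W) ≃+ secs E W := AddEquiv.refl _

@[simp] lemma toSecs_res {W' W : X.Opens} (h : W' ≤ W) (s : Γ(ofCaDiv E, W)) :
    toSecs E W' (res (ofCaDiv E) h s) = secsRes E h (toSecs E W s) := rfl

@[simp] lemma toSecs_smul {W : X.Opens} (r : Γ(X, W)) (s : Γ(ofCaDiv E, W)) :
    toSecs E W (r • s) = r • toSecs E W s := rfl

/-! ### Constant sections and values -/

/-- The section of `O(E)` over `W` given by a rational function `f` with `f * E.eq z` regular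
at every `z ∈ W`. -/
def constSec (W : X.Opens) (f : X.functionField)
    (hf : ∀ z ∈ W, f * (E.eq z : X.functionField) ∈ stalkRing X z) : Γ(ofCaDiv E, W) :=
  (toSecs E W).symm ⟨fun _ => f, fun z => hf z.1 z.2, fun _ => ⟨⊤, trivial, fun _ _ => rfl⟩⟩

@[simp] lemma toSecs_constSec_apply (W : X.Opens) (f : X.functionField)
    (hf : ∀ z ∈ W, f * (E.eq z : X.functionField) ∈ stalkRing X z) (z : W) :
    (toSecs E W (constSec E W f hf)).1 z = f := rfl

/-- The value (at the generic point) of a section of `O(E)` over a nonempty open. -/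
def valSec {W : X.Opens} (hW : genericPoint X ∈ W) (s : Γ(ofCaDiv E, W)) : X.functionField :=
  (toSecs E W s).1 ⟨genericPoint X, hW⟩

lemma toSecs_apply_eq_valSec {W : X.Opens} (hW : genericPoint X ∈ W) (s : Γ(ofCaDiv E, W))
    (z : W) : (toSecs E W s).1 z = valSec E hW s :=
  secs_const (toSecs E W s) z _

lemma valSec_mul_mem {W : X.Opens} (hW : genericPoint X ∈ W) (s : Γ(ofCaDiv E, W)) {z : X}
    (hz : z ∈ W) : valSec E hW s * (E.eq z : X.functionField) ∈ stalkRing X z := by
  rw [← toSecs_apply_eq_valSec E hW s ⟨z, hz⟩]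
  exact (toSecs E W s).2.1 ⟨z, hz⟩

@[simp] lemma valSec_constSec {W : X.Opens} (hW : genericPoint X ∈ W) (f : X.functionField)
    (hf : ∀ z ∈ W, f * (E.eq z : X.functionField) ∈ stalkRing X z) :
    valSec E hW (constSec E W f hf) = f := rfl

lemma valSec_smul {W : X.Opens} (hW : genericPoint X ∈ W) (r : Γ(X, W)) (s : Γ(ofCaDiv E, W)) :
    valSec E hW (r • s) = gK W hW r * valSec E hW s := rfl

lemma valSec_res {W' W : X.Opens} (h : W' ≤ W) (hW' : genericPoint X ∈ W')
    (s : Γ(ofCaDiv E, W)) : valSec E hW' (res (ofCaDiv E) h s) = valSec E (h hW') s := rfl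

lemma valSec_add {W : X.Opens} (hW : genericPoint X ∈ W) (s t : Γ(ofCaDiv E, W)) :
    valSec E hW (s + t) = valSec E hW s + valSec E hW t := rfl

/-- Sections over an open containing the generic point are determined by their value. -/
lemma valSec_injective {W : X.Opens} (hW : genericPoint X ∈ W) :
    Function.Injective (valSec E hW) := by
  intro s t h
  apply (toSecs E W).injective
  apply Subtype.ext
  funext z
  rw [toSecs_apply_eq_valSec E hW s z, toSecs_apply_eq_valSec E hW t z, h]

lemma eq_constSec {W : X.Opens} (hW : genericPoint X ∈ W) (s : Γ(ofCaDiv E, W)) :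
    s = constSec E W (valSec E hW s) (fun _ hz => valSec_mul_mem E hW s hz) :=
  valSec_injective E hW rfl

/-- Sections over the empty open. -/
lemma eq_of_not_mem {W : X.Opens} (hW : genericPoint X ∉ W) (s t : Γ(ofCaDiv E, W)) : s = t := by
  apply (toSecs E W).injective
  apply Subtype.ext
  funext z
  exact (hW (genericPoint_mem_of_mem z.2)).elim

lemma eq_bot_of_not_mem {W : X.Opens} (hW : genericPoint X ∉ W) : W = ⊥ := by
  ext z
  exact ⟨fun hz => (hW (genericPoint_mem_of_mem hz)).elim, fun hz => hz.elim⟩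

/-! ### Generators -/

/-- The generator of `O(E)` over `U` attached to `h ∈ K(X)ˣ` with `h * E.eq z` a unit at every
`z ∈ U` (i.e. `E = div(h⁻¹)` on `U`). -/
def gen (U : X.Opens) (h : X.functionFieldˣ) (hh : ∀ z ∈ U, h * E.eq z ∈ stalkUnits X z) :
    Γ(ofCaDiv E, U) :=
  constSec E U (h : X.functionField) (fun z hz => by
    have := (hh z hz).1
    rwa [Units.val_mul] at this)

@[simp] lemma valSec_gen {U : X.Opens} (hU : genericPoint X ∈ U) (h : X.functionFieldˣ)
    (hh : ∀ z ∈ U, h * E.eq z ∈ stalkUnits X z) : valSec E hU (gen E U h hh) = h := rfl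

theorem isGen_gen (U : X.Opens) (h : X.functionFieldˣ)
    (hh : ∀ z ∈ U, h * E.eq z ∈ stalkUnits X z) : IsGen (ofCaDiv E) U (gen E U h hh) := by
  intro V hV
  by_cases hne : genericPoint X ∈ V
  · have hval : ∀ a : Γ(X, V), valSec E hne (a • resM (ofCaDiv E) hV (gen E U h hh)) =
        gK V hne a * h := fun a => rfl
    constructor
    · intro a a' haa'
      have h1 := congrArg (valSec E hne) haa'
      simp only [hval] at h1
      exact gK_injective V hne (mul_right_cancel₀ h.ne_zero h1)
    · intro t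
      have : Nonempty V := ⟨⟨genericPoint X, hne⟩⟩
      have hq : valSec E hne t * (h⁻¹ : X.functionFieldˣ) ∈ sectionRing X V := by
        rw [mem_sectionRing_iff]
        intro z hz
        have h1 := valSec_mul_mem E hne t hz
        have h2 := (hh z (hV hz)).2
        have h3 : valSec E hne t * ((h⁻¹ : X.functionFieldˣ) : X.functionField) =
            (valSec E hne t * (E.eq z : X.functionField)) *
              (((h * E.eq z)⁻¹ : X.functionFieldˣ) : X.functionField) := by
          rw [mul_inv, Units.val_mul, mul_assoc, ← mul_assoc (E.eq z : X.functionField),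
            mul_comm (E.eq z : X.functionField), mul_assoc, Units.mul_inv, mul_one]
        rw [h3]
        exact mul_mem h1 h2
      obtain ⟨a, ha⟩ := exists_section_of_mem_sectionRing hq
      refine ⟨a, valSec_injective E hne ?_⟩
      rw [hval]
      have ha' : gK V hne a = valSec E hne t * ((h⁻¹ : X.functionFieldˣ) : X.functionField) := ha
      rw [ha', mul_assoc, Units.inv_mul, mul_one]
  · have hV0 := eq_bot_of_not_mem hne
    subst hV0
    constructor
    · intro a a' _
      exact Subsingleton.elim _ _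
    · intro t
      exact ⟨0, eq_of_not_mem E hne _ _⟩

/-- `O(E)` is locally freely generated. -/
theorem locallyGen_ofCaDiv : LocallyGen (ofCaDiv E) := by
  intro x
  obtain ⟨V, hxV, hV⟩ := E.coh x
  have hh : ∀ z ∈ V, (E.eq x)⁻¹ * E.eq z ∈ stalkUnits X z := by
    intro z hz
    have := hV z hz
    rwa [div_eq_mul_inv, mul_comm] at this
  exact ⟨V, gen E V (E.eq x)⁻¹ hh, hxV, isGen_gen E V _ hh⟩

/-- **`O(E)` is an invertible module** (in the sense of the Prelude). -/
theorem isInvertible_ofCaDiv : Scheme.Modules.IsInvertible (ofCaDiv E) :=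
  isInvertible_of_locallyGen (locallyGen_ofCaDiv E)

/-! ### Triviality of `O(E)` over an open -/

/-- The value of a free generator of `O(E)` over `U` is a local equation of `-E` on `U`. -/
theorem exists_units_of_isGen {U : X.Opens} (hU : genericPoint X ∈ U) {e : Γ(ofCaDiv E, U)}
    (he : IsGen (ofCaDiv E) U e) :
    ∃ h : X.functionFieldˣ, (h : X.functionField) = valSec E hU e ∧
      ∀ z ∈ U, h * E.eq z ∈ stalkUnits X z := by
  have key : ∀ z ∈ U, ∃ a : X.functionField, a ∈ stalkRing X z ∧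
      a * valSec E hU e = ((E.eq z)⁻¹ : X.functionFieldˣ) := by
    intro z hz
    obtain ⟨V, hzV, hV⟩ := E.coh z
    have hh : ∀ y ∈ V ⊓ U, (E.eq z)⁻¹ * E.eq y ∈ stalkUnits X y := by
      intro y hy
      have := hV y hy.1
      rwa [div_eq_mul_inv, mul_comm] at this
    have hzV' : z ∈ V ⊓ U := ⟨hzV, hz⟩
    have hη : genericPoint X ∈ V ⊓ U := genericPoint_mem_of_mem hzV'
    obtain ⟨a, ha⟩ := (he (V ⊓ U) inf_le_right).2 (gen E (V ⊓ U) (E.eq z)⁻¹ hh)
    refine ⟨gK (V ⊓ U) hη a, gK_mem_stalkRing hzV' a, ?_⟩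
    have := congrArg (valSec E hη) ha
    exact this
  have hf0 : valSec E hU e ≠ 0 := by
    obtain ⟨a, -, ha⟩ := key (genericPoint X) hU
    intro h0
    rw [h0, mul_zero] at ha
    exact (Units.ne_zero _) ha.symm
  refine ⟨Units.mk0 _ hf0, rfl, fun z hz => ⟨?_, ?_⟩⟩
  · rw [Units.val_mul]
    exact valSec_mul_mem E hU e hz
  · obtain ⟨a, ha, haf⟩ := key z hz
    have : (((Units.mk0 _ hf0 * E.eq z)⁻¹ : X.functionFieldˣ) : X.functionField) = a := by
      rw [mul_inv, Units.val_mul, ← haf, mul_comm, mul_assoc, Units.val_inv_eq_inv_val,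
        Units.val_mk0, mul_inv_cancel₀ hf0, mul_one]
    rw [this]
    exact ha

/-- **(b)** `O(E)` is trivial over the nonempty open `U` iff `E` is principal on `U`. -/
theorem trivial_restrict_iff (U : X.Opens) [Nonempty U] :
    Nonempty ((Scheme.Modules.pullback U.ι).obj (ofCaDiv E) ≅
      SheafOfModules.unit U.toScheme.ringCatSheaf) ↔
      ∃ h : X.functionFieldˣ, ∀ x ∈ U, h * E.eq x ∈ stalkUnits X x := by
  constructor
  · rintro ⟨t⟩
    obtain ⟨e, he⟩ := exists_isGen_of_pullback_iso_unit t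
    obtain ⟨x⟩ := ‹Nonempty U›
    obtain ⟨h, -, hh⟩ := exists_units_of_isGen E (genericPoint_mem_of_mem x.2) he
    exact ⟨h, hh⟩
  · rintro ⟨h, hh⟩
    exact nonempty_pullback_iso_unit_of_isGen (isGen_gen E U h hh)

/-- **(b), global form** `O(E)` is trivial iff `E` is principal. -/
theorem trivial_iff :
    Nonempty (ofCaDiv E ≅ SheafOfModules.unit X.ringCatSheaf) ↔
      ∃ h : X.functionFieldˣ, ∀ x, h * E.eq x ∈ stalkUnits X x := by
  constructor
  · rintro ⟨t⟩
    obtain ⟨e, he⟩ := exists_isGen_top_of_iso_unit t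
    obtain ⟨h, -, hh⟩ := exists_units_of_isGen E (show genericPoint X ∈ (⊤ : X.Opens) from trivial) he
    exact ⟨h, fun x => hh x trivial⟩
  · rintro ⟨h, hh⟩
    exact nonempty_iso_unit_of_isGen_top (isGen_gen E ⊤ h (fun x _ => hh x))

/-- `O(E)` is trivial iff `E` is linearly equivalent to zero. -/
theorem trivial_iff_linEquiv_zero :
    Nonempty (ofCaDiv E ≅ SheafOfModules.unit X.ringCatSheaf) ↔ CaDiv.LinEquiv E 0 := by
  rw [trivial_iff]
  constructor
  · rintro ⟨h, hh⟩
    refine ⟨h⁻¹, fun x => ?_⟩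
    have := hh x
    simpa [div_eq_mul_inv, mul_comm] using this
  · rintro ⟨h, hh⟩
    refine ⟨h⁻¹, fun x => ?_⟩
    have := hh x
    simpa [div_eq_mul_inv, mul_comm] using this

end

end Fermat.Agent.JAC.Cube.LineBundle50
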