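/-
S26/S27 track, brick CUBE_W (helper6): linearly equivalent Cartier divisors have isomorphic
invertible modules, `O(E) ≅ O(E')` for `E ~ E'` (multiplication by the rational function), on
helper50's model `LineBundle50.ofCaDiv`.
-/
import Fermat.Agent.JAC.Cube.LineBundle50
import Fermat.Agent.JAC.Glue.HomGlue1

set_option autoImplicit false

open AlgebraicGeometry CategoryTheory TopologicalSpace Opposite

universe u

namespace Fermat.Agent.JAC.Cube.LineEquiv6

open Fermat.Agent.JAC.Div2.Stalk69 Fermat.Agent.JAC.Div2.CaDiv69 Fermat.Agent.JAC.Div2.CaDiv69.CaDiv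
open Fermat.Agent.JAC.Cube.LineBundle50 Fermat.Agent.JAC.Glue.HomGlue1

noncomputable section

variable {X : Scheme.{u}} [IsIntegral X] (E E' : CaDiv X)

/-- Multiplication by a rational function `h` as a map of sections `O(E)(V) → O(E')(V)`. -/
def mulSecs (h : X.functionField)
    (hh : ∀ (x : X) (f : X.functionField), f * (E.eq x : X.functionField) ∈ stalkRing X x →
      (h * f) * (E'.eq x : X.functionField) ∈ stalkRing X x) (V : X.Opens) :
    secs E V →+ secs E' V where
  toFun s := ⟨fun z => h * s.1 z, fun z => hh z.1 _ (s.2.1 z), fun x => by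
    obtain ⟨V', hxV', hV'⟩ := s.2.2 x
    exact ⟨V', hxV', fun z hz => by
      show h * s.1 z = h * s.1 x
      rw [hV' z hz]⟩⟩
  map_zero' := by
    apply Subtype.ext
    funext z
    simp
  map_add' s t := by
    apply Subtype.ext
    funext z
    simp [mul_add]

@[simp] lemma mulSecs_apply (h : X.functionField)
    (hh : ∀ (x : X) (f : X.functionField), f * (E.eq x : X.functionField) ∈ stalkRing X x →
      (h * f) * (E'.eq x : X.functionField) ∈ stalkRing X x) (V : X.Opens) (s : secs E V)
    (z : V) : (mulSecs E E' h hh V s).1 z = h * s.1 z := rfl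

/-- Multiplication by `h` as a morphism `O(E) ⟶ O(E')` (in `LocalHom` form). -/
def mulLocalHom (h : X.functionField)
    (hh : ∀ (x : X) (f : X.functionField), f * (E.eq x : X.functionField) ∈ stalkRing X x →
      (h * f) * (E'.eq x : X.functionField) ∈ stalkRing X x) :
    LocalHom (ofCaDiv E) (ofCaDiv E') ⊤ where
  app V _ := mulSecs E E' h hh V
  naturality _ _ _ := rfl
  map_smul {V} _ r s := by
    apply Subtype.ext
    funext z
    change h * (gK V _ r * (toSecs E V s).1 z) = gK V _ r * (h * (toSecs E V s).1 z)
    ring

variable {E E'}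

theorem mul_mem_of_same {h : X.functionFieldˣ} (hs : Same E (E' + principal h)) (x : X)
    (f : X.functionField) (hf : f * (E.eq x : X.functionField) ∈ stalkRing X x) :
    ((h : X.functionField) * f) * (E'.eq x : X.functionField) ∈ stalkRing X x := by
  have hu := (inv_mem (hs x)).1
  have e : ((h : X.functionField) * f) * (E'.eq x : X.functionField) =
      (f * (E.eq x : X.functionField)) *
        (((E.eq x / (E' + principal h).eq x)⁻¹ : X.functionFieldˣ) : X.functionField) := by
    rw [inv_div, eq_add, eq_principal, Units.val_div_eq_div_val, Units.val_mul]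
    field_simp
  rw [e]
  exact mul_mem hf hu

/-- **Linearly equivalent divisors have isomorphic line bundles.** -/
theorem nonempty_iso_of_linEquiv (hE : LinEquiv E E') :
    Nonempty (ofCaDiv E ≅ ofCaDiv E') := by
  obtain ⟨h, hs⟩ := hE
  have hs' : Same E' (E + principal h⁻¹) := by
    intro x
    have := inv_mem (hs x)
    rw [inv_div] at this
    simpa [div_eq_mul_inv, mul_comm, mul_left_comm, mul_assoc] using this
  refine ⟨LocalIso.toIso
    { hom := mulLocalHom E E' h (mul_mem_of_same hs)
      inv := mulLocalHom E' E ((h⁻¹ : X.functionFieldˣ) : X.functionField) (mul_mem_of_same hs')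
      hom_inv_id := ?_
      inv_hom_id := ?_ }⟩
  · ext V hV s
    apply Subtype.ext
    funext z
    change ((h⁻¹ : X.functionFieldˣ) : X.functionField) * ((h : X.functionField) *
      (toSecs E V s).1 z) = (toSecs E V s).1 z
    rw [← mul_assoc, ← Units.val_mul, inv_mul_cancel, Units.val_one, one_mul]
  · ext V hV s
    apply Subtype.ext
    funext z
    change (h : X.functionField) * (((h⁻¹ : X.functionFieldˣ) : X.functionField) *
      (toSecs E' V s).1 z) = (toSecs E' V s).1 z
    rw [← mul_assoc, ← Units.val_mul, mul_inv_cancel, Units.val_one, one_mul]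

end

end Fermat.Agent.JAC.Cube.LineEquiv6
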