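/-
S26/S27 track, brick CUBE_W, part CW3' (helper6): the theorem of the cube in the divisor class
groups `Cl` (helper1's `Div2/Cl1`), deduced from the `Scheme.Modules` form (`Induct6.CubeGood`) via
helper50's line bundle `LineBundle50.ofCaDiv`.  The compatibility of `ofCaDiv` with pullbacks
(`PullCompat`, helper50's CW1(c)) is taken as a hypothesis.
-/
import Fermat.Agent.JAC.Cube.Induct6
import Fermat.Agent.JAC.Cube.LineEquiv6
import Fermat.Agent.JAC.Div2.Cl1

set_option autoImplicit false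

universe u

open CategoryTheory CategoryTheory.Limits AlgebraicGeometry MonoidalCategory
  CartesianMonoidalCategory

namespace Fermat.Agent.JAC.Cube.ClCube6

open Fermat.Agent.JAC.Cube.Step6 Fermat.Agent.JAC.Cube.Induct6
open Fermat.Agent.JAC.Div2.CaDiv69 Fermat.Agent.JAC.Div2.CaDiv69.CaDiv
open Fermat.Agent.JAC.Div2.PullGen1 Fermat.Agent.JAC.Div2.PullGen1.CaDiv
open Fermat.Agent.JAC.Div2.Cl1 Fermat.Agent.JAC.Cube.LineBundle50
open Fermat.Agent.JAC.Cube.LineEquiv6

noncomputable section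

/-- CW1(c): the line bundle of a Cartier divisor is compatible with pullback along a morphism of
integral schemes which the divisor misses. -/
def PullCompat : Prop :=
  ∀ {X Y : Scheme.{u}} [IsIntegral X] [IsIntegral Y] (φ : Y ⟶ X) (E : CaDiv X)
    (hE : Misses E φ),
    Nonempty ((Scheme.Modules.pullback φ).obj (ofCaDiv E) ≅ ofCaDiv (pullAt φ E hE))

/-- If the class of `E` dies under `Cl.map φ`, the pullback of `O(E)` along `φ` is trivial. -/
theorem isTrivial_pullback_of_map_eq_zero (hc : PullCompat.{u}) {X Y : Scheme.{u}} [IsIntegral X]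
    [IsIntegral Y] (φ : Y ⟶ X) (E : CaDiv X) (h : Cl.map φ (Cl.mk E) = 0) :
    IsTrivial ((Scheme.Modules.pullback φ).obj (ofCaDiv E)) := by
  obtain ⟨e1⟩ := nonempty_iso_of_linEquiv (linEquiv_move φ E).symm
  obtain ⟨e2⟩ := hc φ (move φ E) (misses_move φ E)
  rw [Cl.map_mk, Cl.mk_eq_zero_iff, pullMoved_apply] at h
  obtain ⟨e3⟩ := (trivial_iff_linEquiv_zero _).mpr h
  exact ⟨(Scheme.Modules.pullback φ).mapIso e1 ≪≫ e2 ≪≫ e3⟩

variable {k : Type u} [Field k]

/-- **Theorem of the cube in `Cl`**: if `(W, w₀)` satisfies the theorem of the cube for invertible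
modules, a divisor class on `W × X × Y` (`X`, `Y` nice, all schemes integral) which dies on the
three faces is zero. -/
theorem eq_zero_of_faces (hc : PullCompat.{u}) {N : NiceClass k} {W : Over (Sk k)}
    {w₀ : 𝟙_ (Over (Sk k)) ⟶ W} (hW : CubeGood N W w₀) {X Y : Over (Sk k)} (hX : N.P X)
    (hY : N.P Y) (x₀ : 𝟙_ (Over (Sk k)) ⟶ X) (y₀ : 𝟙_ (Over (Sk k)) ⟶ Y)
    [IsIntegral (W ⊗ (X ⊗ Y)).left] [IsIntegral (X ⊗ Y).left] [IsIntegral (W ⊗ Y).left]
    [IsIntegral (W ⊗ X).left] (ξ : Cl (W ⊗ (X ⊗ Y)).left)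
    (h1 : Cl.map (face₁ W X Y w₀).left ξ = 0) (h2 : Cl.map (face₂ W X Y x₀).left ξ = 0)
    (h3 : Cl.map (face₃ W X Y y₀).left ξ = 0) : ξ = 0 := by
  obtain ⟨E, rfl⟩ := Cl.mk_surjective ξ
  rw [Cl.mk_eq_zero_iff, ← trivial_iff_linEquiv_zero]
  exact hW X Y hX hY x₀ y₀ (ofCaDiv E) (isInvertible_ofCaDiv E)
    (isTrivial_pullback_of_map_eq_zero hc _ E h1)
    (isTrivial_pullback_of_map_eq_zero hc _ E h2)
    (isTrivial_pullback_of_map_eq_zero hc _ E h3)

end

end Fermat.Agent.JAC.Cube.ClCube6
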