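/-
S26-track, bricks CW0/CW1 (helper50): pullback of rational functions and of Cartier divisors
along an ARBITRARY morphism `φ : Y ⟶ X` of integral schemes.

Let `x₀ := φ η_Y` (`gp φ`).  The stalk map of `φ` at the generic point of `Y` gives a ring
homomorphism `pullFunAt φ : O_{X,x₀} → K(Y)` defined on the subring `stalkRing X x₀ ⊆ K(X)`.
A Cartier divisor `E` on `X` whose support misses `x₀` has all its local equations
`E.eq (φ y)` in `O_{X,x₀}ˣ`, and `pullAt φ E` is the divisor on `Y` with equations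
`φ^#(E.eq (φ y))`.
-/
import Fermat.Agent.JAC.Div2.Pull69

set_option autoImplicit false

open AlgebraicGeometry CategoryTheory TopologicalSpace Opposite

universe u

namespace Fermat.Agent.JAC.Cube.PullFun50

open Fermat.Agent.JAC.Div2.Stalk69 Fermat.Agent.JAC.Div2.CaDiv69

noncomputable section

variable {X Y : Scheme.{u}} [IsIntegral X] [IsIntegral Y] (φ : Y ⟶ X)

/-- The image of the generic point of `Y`. -/
def gp : X := φ (genericPoint Y)

omit [IsIntegral X] in
lemma gp_specializes (y : Y) : gp φ ⤳ φ y :=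
  ((genericPoint_spec Y).specializes trivial).map φ.continuous

omit [IsIntegral X] in
lemma gp_mem_of_mem {W : X.Opens} {y : Y} (hy : φ y ∈ W) : gp φ ∈ W :=
  (gp_specializes φ y).mem_open W.isOpen hy

lemma stalkRing_le_gp (y : Y) : stalkRing X (φ y) ≤ stalkRing X (gp φ) :=
  stalkRing_le_of_specializes (gp_specializes φ y)

lemma stalkUnits_le_gp (y : Y) : stalkUnits X (φ y) ≤ stalkUnits X (gp φ) :=
  stalkUnits_le_of_specializes (gp_specializes φ y)

/-- `φ^# : O_{X, φ η_Y} → K(Y)`, on the subring `stalkRing X (φ η_Y)` of `K(X)`. -/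
def pullFunAt : stalkRing X (gp φ) →+* Y.functionField :=
  (φ.stalkMap (genericPoint Y)).hom.comp (stalkEquiv X (gp φ)).symm.toRingHom

lemma stalkEquiv_symm_germ {W : X.Opens} {x : X} (hx : x ∈ W) (r : Γ(X, W)) :
    (stalkEquiv X x).symm ⟨X.presheaf.germ W (genericPoint X) (genericPoint_mem_of_mem hx) r,
      germ_mem_stalkRing hx r⟩ = X.presheaf.germ W x hx r := by
  rw [RingEquiv.symm_apply_eq]
  apply Subtype.ext
  rw [coe_stalkEquiv]
  have : Nonempty W := ⟨⟨x, hx⟩⟩
  exact (Scheme.algebraMap_germ_eq_germToFunctionField X hx r).symm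

/-- `φ^#` on germs. -/
theorem pullFunAt_germ {W : X.Opens} (hW : gp φ ∈ W) (r : Γ(X, W)) :
    pullFunAt φ ⟨X.presheaf.germ W (genericPoint X) (genericPoint_mem_of_mem hW) r,
      germ_mem_stalkRing hW r⟩ =
      Y.presheaf.germ (φ ⁻¹ᵁ W) (genericPoint Y) hW (φ.app W r) := by
  change (φ.stalkMap (genericPoint Y)).hom ((stalkEquiv X (gp φ)).symm _) = _
  rw [stalkEquiv_symm_germ hW r]
  exact φ.germ_stalkMap_apply W (genericPoint Y) hW r

/-- `φ^#` maps `O_{X, φ y}` into `O_{Y, y}`. -/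
theorem pullFunAt_mem_stalkRing {y : Y} {f : X.functionField} (hf : f ∈ stalkRing X (φ y)) :
    pullFunAt φ ⟨f, stalkRing_le_gp φ y hf⟩ ∈ stalkRing Y y := by
  obtain ⟨W, hy, r, rfl⟩ := mem_stalkRing_iff.mp hf
  rw [pullFunAt_germ φ (gp_mem_of_mem φ hy) r]
  exact germ_mem_stalkRing (show y ∈ φ ⁻¹ᵁ W from hy) _

/-- For a dominant morphism, `pullFunAt` is the restriction of helper69's `pullFun`. -/
theorem pullFunAt_eq_pullFun [IsDominant φ] (f : stalkRing X (gp φ)) :
    pullFunAt φ f = Fermat.Agent.JAC.Div2.Pull69.pullFun φ f := by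
  obtain ⟨f, hf⟩ := f
  obtain ⟨W, hW, r, rfl⟩ := mem_stalkRing_iff.mp hf
  rw [pullFunAt_germ φ hW r, Fermat.Agent.JAC.Div2.Pull69.pullFun_germ]

/-! ### Units -/

/-- The units of `O_{X,x}` as units of the subring `stalkRing X x`. -/
def toUnitsSub (x : X) : stalkUnits X x →* (stalkRing X x)ˣ where
  toFun u := ⟨⟨(u.1 : X.functionField), u.2.1⟩,
    ⟨((u.1⁻¹ : X.functionFieldˣ) : X.functionField), u.2.2⟩,
    Subtype.ext (by simp), Subtype.ext (by simp)⟩
  map_one' := by
    apply Units.ext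
    apply Subtype.ext
    rfl
  map_mul' a b := by
    apply Units.ext
    apply Subtype.ext
    rfl

@[simp] lemma coe_toUnitsSub (x : X) (u : stalkUnits X x) :
    (((toUnitsSub x u : (stalkRing X x)ˣ) : stalkRing X x) : X.functionField) = (u.1 : _) := rfl

/-- `φ^#` on units of `O_{X, φ η_Y}`. -/
def pullUnitsAt : stalkUnits X (gp φ) →* Y.functionFieldˣ :=
  (Units.map (pullFunAt φ).toMonoidHom).comp (toUnitsSub (gp φ))

@[simp] lemma coe_pullUnitsAt (u : stalkUnits X (gp φ)) :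
    ((pullUnitsAt φ u : Y.functionFieldˣ) : Y.functionField) = pullFunAt φ ⟨(u.1 : _), u.2.1⟩ :=
  rfl

theorem pullUnitsAt_mem_stalkUnits {y : Y} {u : X.functionFieldˣ} (hu : u ∈ stalkUnits X (φ y)) :
    pullUnitsAt φ ⟨u, stalkUnits_le_gp φ y hu⟩ ∈ stalkUnits Y y := by
  refine ⟨pullFunAt_mem_stalkRing φ hu.1, ?_⟩
  rw [← map_inv]
  exact pullFunAt_mem_stalkRing φ hu.2

theorem pullUnitsAt_eq_pullUnits [IsDominant φ] (u : stalkUnits X (gp φ)) :
    pullUnitsAt φ u = Fermat.Agent.JAC.Div2.Pull69.pullUnits φ u.1 := by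
  apply Units.ext
  rw [coe_pullUnitsAt, pullFunAt_eq_pullFun]
  rfl

/-! ### Divisors -/

/-- The support of `E` misses the image of the generic point of `Y`. -/
def Misses (E : CaDiv X) : Prop := E.eq (gp φ) ∈ stalkUnits X (gp φ)

variable {φ}

/-- If `E` misses `φ η_Y`, all the local equations `E.eq (φ y)` are units at `φ η_Y`. -/
theorem Misses.eq_mem {E : CaDiv X} (hE : Misses φ E) (y : Y) :
    E.eq (φ y) ∈ stalkUnits X (gp φ) := by
  obtain ⟨V, hyV, hV⟩ := E.coh (φ y)
  have h1 := hV (gp φ) (gp_mem_of_mem φ hyV)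
  have h2 : E.eq (φ y) = (E.eq (gp φ) / E.eq (φ y))⁻¹ * E.eq (gp φ) := by
    rw [inv_div, div_mul_cancel]
  rw [h2]
  exact mul_mem (inv_mem h1) hE

theorem misses_iff {E : CaDiv X} : Misses φ E ↔ gp φ ∉ E.supp := by
  rw [CaDiv.mem_supp_iff, not_not]; rfl

theorem misses_zero : Misses φ (0 : CaDiv X) := one_mem _

theorem Misses.add {E E' : CaDiv X} (h : Misses φ E) (h' : Misses φ E') : Misses φ (E + E') :=
  mul_mem h h'

theorem Misses.neg {E : CaDiv X} (h : Misses φ E) : Misses φ (-E) := inv_mem h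

theorem Misses.sub {E E' : CaDiv X} (h : Misses φ E) (h' : Misses φ E') : Misses φ (E - E') :=
  div_mem h h'

theorem misses_principal {h : X.functionFieldˣ} (hh : h ∈ stalkUnits X (gp φ)) :
    Misses φ (CaDiv.principal h) := hh

/-- Moving: `E - div(E.eq (φ η_Y))` misses `φ η_Y`. -/
theorem misses_sub_principal (E : CaDiv X) :
    Misses φ (E - CaDiv.principal (E.eq (gp φ))) := by
  change E.eq (gp φ) / E.eq (gp φ) ∈ stalkUnits X (gp φ)
  rw [div_self']
  exact one_mem _

variable (φ)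

/-- **The pullback of a Cartier divisor missing `φ η_Y`** along an arbitrary morphism of
integral schemes. -/
def pullAt (E : CaDiv X) (hE : Misses φ E) : CaDiv Y where
  eq y := pullUnitsAt φ ⟨E.eq (φ y), hE.eq_mem y⟩
  coh y := by
    obtain ⟨V, hyV, hV⟩ := E.coh (φ y)
    refine ⟨φ ⁻¹ᵁ V, hyV, fun y' hy' => ?_⟩
    rw [← map_div]
    exact pullUnitsAt_mem_stalkUnits φ (hV (φ y') hy')

@[simp] theorem pullAt_eq (E : CaDiv X) (hE : Misses φ E) (y : Y) :
    (pullAt φ E hE).eq y = pullUnitsAt φ ⟨E.eq (φ y), hE.eq_mem y⟩ := rfl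

theorem pullAt_zero : pullAt φ (0 : CaDiv X) misses_zero = 0 := by
  ext y
  simp only [pullAt_eq, CaDiv.eq_zero]
  exact congrArg Units.val (map_one (pullUnitsAt φ))

theorem pullAt_add (E E' : CaDiv X) (hE : Misses φ E) (hE' : Misses φ E') :
    pullAt φ (E + E') (hE.add hE') = pullAt φ E hE + pullAt φ E' hE' := by
  apply CaDiv.ext
  intro y
  change pullUnitsAt φ ⟨E.eq (φ y) * E'.eq (φ y), _⟩ =
    pullUnitsAt φ ⟨E.eq (φ y), hE.eq_mem y⟩ * pullUnitsAt φ ⟨E'.eq (φ y), hE'.eq_mem y⟩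
  rw [← map_mul]
  rfl

theorem pullAt_neg (E : CaDiv X) (hE : Misses φ E) :
    pullAt φ (-E) hE.neg = - pullAt φ E hE := by
  apply CaDiv.ext
  intro y
  change pullUnitsAt φ ⟨(E.eq (φ y))⁻¹, _⟩ = (pullUnitsAt φ ⟨E.eq (φ y), hE.eq_mem y⟩)⁻¹
  rw [← map_inv]
  rfl

theorem pullAt_sub (E E' : CaDiv X) (hE : Misses φ E) (hE' : Misses φ E') :
    pullAt φ (E - E') (hE.sub hE') = pullAt φ E hE - pullAt φ E' hE' := by
  apply CaDiv.ext
  intro y
  change pullUnitsAt φ ⟨E.eq (φ y) / E'.eq (φ y), _⟩ =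
    pullUnitsAt φ ⟨E.eq (φ y), hE.eq_mem y⟩ / pullUnitsAt φ ⟨E'.eq (φ y), hE'.eq_mem y⟩
  rw [← map_div]
  rfl

theorem pullAt_principal {h : X.functionFieldˣ} (hh : h ∈ stalkUnits X (gp φ)) :
    pullAt φ (CaDiv.principal h) (misses_principal hh) =
      CaDiv.principal (pullUnitsAt φ ⟨h, hh⟩) := by
  ext y
  rfl

theorem pullAt_congr {E E' : CaDiv X} (h : E = E') (hE : Misses φ E) :
    pullAt φ E hE = pullAt φ E' (h ▸ hE) := by
  subst h; rfl

/-- `Same` divisors missing `φ η_Y` have `Same` pullbacks. -/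
theorem Same.pullAt {E E' : CaDiv X} (h : CaDiv.Same E E') (hE : Misses φ E)
    (hE' : Misses φ E') : CaDiv.Same (pullAt φ E hE) (pullAt φ E' hE') := fun y => by
  rw [pullAt_eq, pullAt_eq, ← map_div]
  exact pullUnitsAt_mem_stalkUnits φ (h (φ y))

/-- Linearly equivalent divisors missing `φ η_Y` have linearly equivalent pullbacks. -/
theorem LinEquiv.pullAt {E E' : CaDiv X} (h : CaDiv.LinEquiv E E') (hE : Misses φ E)
    (hE' : Misses φ E') : CaDiv.LinEquiv (pullAt φ E hE) (pullAt φ E' hE') := by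
  obtain ⟨f, hf⟩ := h
  -- `f` is a unit at `φ η_Y`
  have hf0 : f ∈ stalkUnits X (gp φ) := by
    have h1 := hf (gp φ)
    simp only [CaDiv.eq_add, CaDiv.eq_principal] at h1
    have h2 : f = (E.eq (gp φ) / E'.eq (gp φ)) / (E.eq (gp φ) / (E'.eq (gp φ) * f)) := by
      rw [div_div_div_cancel_left, mul_div_cancel_left]
    rw [h2]
    exact div_mem (div_mem hE hE') h1
  refine ⟨pullUnitsAt φ ⟨f, hf0⟩, ?_⟩
  have := Same.pullAt φ hf hE (hE'.add (misses_principal hf0))
  rwa [pullAt_add φ E' (CaDiv.principal f) hE' (misses_principal hf0), pullAt_principal] at this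

/-- For a dominant morphism every divisor misses the generic point, and `pullAt` is helper69's
`pull`. -/
theorem misses_of_isDominant [IsDominant φ] (E : CaDiv X) : Misses φ E := by
  rw [misses_iff]
  have : gp φ = genericPoint X := Fermat.Agent.JAC.Div2.Pull69.map_genericPoint φ
  rw [this]
  exact E.genericPoint_notMem_supp

theorem pullAt_eq_pull [IsDominant φ] (E : CaDiv X) (hE : Misses φ E) :
    pullAt φ E hE = Fermat.Agent.JAC.Div2.Pull69.CaDiv.pull φ E := by
  ext y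
  rw [pullAt_eq, pullUnitsAt_eq_pullUnits]
  rfl

end

end Fermat.Agent.JAC.Cube.PullFun50
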