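/-
S26-track, brick CW1 (c) (helper50): for a morphism `φ : Y ⟶ X` of integral schemes and a
Cartier divisor `E` on `X` missing `φ η_Y`, `φ^* O(E) ≅ O(pullAt φ E)`.

Route: an explicit morphism `α : O(E) ⟶ φ_* O(φ^*E)` (pull back functions), its adjoint
`β : φ^* O(E) ⟶ O(φ^*E)`, and the criterion `Gen50.isIso_of_isGen` (β maps local free
generators to local free generators).  No pseudofunctor coherence is used.
-/
import Fermat.Agent.JAC.Cube.LineBundle50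
import Fermat.Agent.JAC.Cube.PullFun50
import Fermat.Agent.JAC.Glue.HomGlue50

set_option autoImplicit false

open AlgebraicGeometry CategoryTheory TopologicalSpace Opposite

universe u

namespace Fermat.Agent.JAC.Cube.LinePull50

open Fermat.Agent.JAC.Div2.Stalk69 Fermat.Agent.JAC.Div2.CaDiv69
open Fermat.Agent.JAC.Glue.Sec50 Fermat.Agent.JAC.Glue.EndInv23 Fermat.Agent.JAC.Cube.Gen50
open Fermat.Agent.JAC.Cube.LineBundle50 Fermat.Agent.JAC.Cube.PullFun50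

noncomputable section

variable {X Y : Scheme.{u}} [IsIntegral X] [IsIntegral Y] (φ : Y ⟶ X) (E : CaDiv X)
  (hE : Misses φ E)

include hE in
/-- The values of a section of `O(E)` at points of the image of `φ` are regular at `φ η_Y`. -/
lemma sec_mem {W : X.Opens} (s : secs E W) (y : Y) (hy : φ y ∈ W) :
    s.1 ⟨φ y, hy⟩ ∈ stalkRing X (gp φ) := by
  have h1 := stalkRing_le_gp φ y (s.2.1 ⟨φ y, hy⟩)
  have h2 := (hE.eq_mem y).2
  have h3 : s.1 ⟨φ y, hy⟩ = s.1 ⟨φ y, hy⟩ * (E.eq (φ y) : X.functionField) *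
      (((E.eq (φ y))⁻¹ : X.functionFieldˣ) : X.functionField) := by
    rw [mul_assoc, Units.mul_inv, mul_one]
  rw [h3]
  exact mul_mem h1 h2

/-- Pulling back the sections of `O(E)` over `W` to sections of `O(φ^*E)` over `φ⁻¹ W`. -/
def pullSecs (W : X.Opens) : secs E W →+ secs (pullAt φ E hE) (φ ⁻¹ᵁ W) where
  toFun s := ⟨fun y => pullFunAt φ ⟨s.1 ⟨φ y.1, y.2⟩, sec_mem φ E hE s y.1 y.2⟩, by
    refine ⟨fun y => ?_, fun y => ?_⟩
    · have h1 := pullFunAt_mem_stalkRing φ (s.2.1 ⟨φ y.1, y.2⟩)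
      have h2 : pullFunAt φ ⟨s.1 ⟨φ y.1, y.2⟩, sec_mem φ E hE s y.1 y.2⟩ *
          (((pullAt φ E hE).eq y.1 : Y.functionFieldˣ) : Y.functionField) =
          pullFunAt φ ⟨s.1 ⟨φ y.1, y.2⟩ * (E.eq (φ y.1) : X.functionField),
            stalkRing_le_gp φ y.1 (s.2.1 ⟨φ y.1, y.2⟩)⟩ := by
        rw [pullAt_eq, coe_pullUnitsAt, ← map_mul]
        rfl
      rw [h2]
      exact h1
    · obtain ⟨V, hyV, hV⟩ := s.2.2 ⟨φ y.1, y.2⟩
      refine ⟨φ ⁻¹ᵁ V, hyV, fun y' hy' => ?_⟩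
      exact congrArg (pullFunAt φ) (Subtype.ext (hV ⟨φ y'.1, y'.2⟩ hy'))⟩
  map_zero' := by
    apply Subtype.ext
    funext y
    exact map_zero (pullFunAt φ)
  map_add' s t := by
    apply Subtype.ext
    funext y
    exact map_add (pullFunAt φ) ⟨s.1 ⟨φ y.1, y.2⟩, sec_mem φ E hE s y.1 y.2⟩
      ⟨t.1 ⟨φ y.1, y.2⟩, sec_mem φ E hE t y.1 y.2⟩

@[simp] lemma pullSecs_apply (W : X.Opens) (s : secs E W) (y : (φ ⁻¹ᵁ W : Y.Opens)) :
    (pullSecs φ E hE W s).1 y = pullFunAt φ ⟨s.1 ⟨φ y.1, y.2⟩, sec_mem φ E hE s y.1 y.2⟩ := rfl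

/-- `gK` is compatible with `φ^#`. -/
lemma pullFunAt_gK {W : X.Opens} (hW : gp φ ∈ W) (r : Γ(X, W)) :
    pullFunAt φ ⟨gK W (genericPoint_mem_of_mem hW) r, germ_mem_stalkRing hW r⟩ =
      gK (φ ⁻¹ᵁ W) hW (φ.app W r) :=
  pullFunAt_germ φ hW r

/-- The sectionwise form of `α : O(E) ⟶ φ_* O(φ^*E)`. -/
def alphaSec : SecHom ⊤ (ofCaDiv E)
    ((Scheme.Modules.pushforward φ).obj (ofCaDiv (pullAt φ E hE))) where
  app W _ := pullSecs φ E hE W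
  app_res _ _ _ _ _ := rfl
  app_smul W _ r s := by
    apply Subtype.ext
    funext y
    have hW : gp φ ∈ W := gp_mem_of_mem φ y.2
    change pullFunAt φ ⟨gK W _ r * (toSecs E W s).1 ⟨φ y.1, y.2⟩, _⟩ =
      gK (φ ⁻¹ᵁ W) _ (φ.app W r) * pullFunAt φ ⟨(toSecs E W s).1 ⟨φ y.1, y.2⟩, _⟩
    rw [← pullFunAt_gK φ hW r, ← map_mul]
    rfl

/-- `α : O(E) ⟶ φ_* O(φ^*E)`. -/
def alpha : ofCaDiv E ⟶ (Scheme.Modules.pushforward φ).obj (ofCaDiv (pullAt φ E hE)) :=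
  Fermat.Agent.JAC.Glue.HomGlue50.toHom (alphaSec φ E hE)

/-- `β : φ^* O(E) ⟶ O(φ^*E)`, the adjoint of `α`. -/
def beta : (Scheme.Modules.pullback φ).obj (ofCaDiv E) ⟶ ofCaDiv (pullAt φ E hE) :=
  ((Scheme.Modules.pullbackPushforwardAdjunction φ).homEquiv _ _).symm (alpha φ E hE)

lemma alpha_eq : alpha φ E hE =
    (Scheme.Modules.pullbackPushforwardAdjunction φ).unit.app (ofCaDiv E) ≫
      (Scheme.Modules.pushforward φ).map (beta φ E hE) := by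
  have h := (Scheme.Modules.pullbackPushforwardAdjunction φ).homEquiv_unit
    (X := ofCaDiv E) (Y := ofCaDiv (pullAt φ E hE)) (f := beta φ E hE)
  rw [← h]
  exact ((Equiv.apply_symm_apply _ _).symm)

/-- The pulled back section `η(s) ∈ Γ(φ^*O(E), φ⁻¹W)` of a section `s ∈ Γ(O(E), W)`. -/
def pbSec {W : X.Opens} (s : Γ(ofCaDiv E, W)) :
    Γ((Scheme.Modules.pullback φ).obj (ofCaDiv E), φ ⁻¹ᵁ W) :=
  ((Scheme.Modules.pullbackPushforwardAdjunction φ).unit.app (ofCaDiv E)).app W s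

lemma beta_pbSec {W : X.Opens} (s : Γ(ofCaDiv E, W)) :
    (beta φ E hE).app (φ ⁻¹ᵁ W) (pbSec φ E s) = pullSecs φ E hE W (toSecs E W s) := by
  have := congrArg (fun f => (Scheme.Modules.Hom.app f W) s) (alpha_eq φ E hE)
  exact this.symm

/-- **`β : φ^* O(E) ⟶ O(φ^*E)` is an isomorphism.** -/
theorem isIso_beta : IsIso (beta φ E hE) := by
  apply isIso_of_isGen
  intro y
  -- a local generator of `O(E)` at `φ y`
  obtain ⟨V, hxV, hV⟩ := E.coh (φ y)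
  have hh : ∀ z ∈ V, (E.eq (φ y))⁻¹ * E.eq z ∈ stalkUnits X z := by
    intro z hz
    have := hV z hz
    rwa [div_eq_mul_inv, mul_comm] at this
  have h0 : (E.eq (φ y))⁻¹ ∈ stalkUnits X (gp φ) := inv_mem (hE.eq_mem y)
  -- its pullback generates `O(φ^*E)` over `φ⁻¹ V`
  have hh' : ∀ y' ∈ φ ⁻¹ᵁ V,
      pullUnitsAt φ ⟨(E.eq (φ y))⁻¹, h0⟩ * (pullAt φ E hE).eq y' ∈ stalkUnits Y y' := by
    intro y' hy'
    rw [pullAt_eq, ← map_mul]
    exact pullUnitsAt_mem_stalkUnits φ (hh (φ y') hy')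
  have hpull : pullSecs φ E hE V (toSecs E V (gen E V (E.eq (φ y))⁻¹ hh)) =
      toSecs (pullAt φ E hE) (φ ⁻¹ᵁ V)
        (gen (pullAt φ E hE) (φ ⁻¹ᵁ V) (pullUnitsAt φ ⟨(E.eq (φ y))⁻¹, h0⟩) hh') := by
    apply Subtype.ext
    funext y'
    rfl
  -- a local generator of `φ^* O(E)` near `y`
  have hinv : Scheme.Modules.IsInvertible ((Scheme.Modules.pullback φ).obj (ofCaDiv E)) :=
    (isInvertible_ofCaDiv E).pullback φ
  obtain ⟨Ω', n', hyΩ', hn'⟩ := locallyGen_of_isInvertible hinv y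
  have hn := hn'.restrict (inf_le_left : Ω' ⊓ φ ⁻¹ᵁ V ≤ Ω')
  refine ⟨Ω' ⊓ φ ⁻¹ᵁ V, _, ⟨hyΩ', hxV⟩, hn, ?_⟩
  obtain ⟨a, ha⟩ := (hn (Ω' ⊓ φ ⁻¹ᵁ V) le_rfl).2
    (resM _ (inf_le_right : Ω' ⊓ φ ⁻¹ᵁ V ≤ φ ⁻¹ᵁ V) (pbSec φ E (gen E V (E.eq (φ y))⁻¹ hh)))
  simp only [resM_self] at ha
  have hgen := (isGen_gen (pullAt φ E hE) (φ ⁻¹ᵁ V) _ hh').restrict
    (inf_le_right : Ω' ⊓ φ ⁻¹ᵁ V ≤ φ ⁻¹ᵁ V)
  refine (isGen_of_smul_eq hgen a ?_).2
  rw [← Scheme.Modules.Hom.app_smul, ha]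
  have h1 := app_map_apply (beta φ E hE) (homOfLE (inf_le_right : Ω' ⊓ φ ⁻¹ᵁ V ≤ φ ⁻¹ᵁ V))
    (pbSec φ E (gen E V (E.eq (φ y))⁻¹ hh))
  refine Eq.trans ?_ h1.symm
  rw [beta_pbSec, hpull]
  rfl

/-- **(c)** `φ^* O(E) ≅ O(φ^*E)` for a morphism `φ : Y ⟶ X` of integral schemes and a Cartier
divisor `E` on `X` missing `φ η_Y`. -/
def pullbackIso : (Scheme.Modules.pullback φ).obj (ofCaDiv E) ≅ ofCaDiv (pullAt φ E hE) :=
  haveI := isIso_beta φ E hE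
  asIso (beta φ E hE)

theorem nonempty_pullback_iso :
    Nonempty ((Scheme.Modules.pullback φ).obj (ofCaDiv E) ≅ ofCaDiv (pullAt φ E hE)) :=
  ⟨pullbackIso φ E hE⟩

/-- **(c')** `φ^* O(E)` is trivial iff `φ^*E` is principal. -/
theorem pullback_trivial_iff :
    Nonempty ((Scheme.Modules.pullback φ).obj (ofCaDiv E) ≅
      SheafOfModules.unit Y.ringCatSheaf) ↔
      ∃ h : Y.functionFieldˣ, ∀ y, h * (pullAt φ E hE).eq y ∈ stalkUnits Y y := by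
  rw [← trivial_iff]
  exact ⟨fun ⟨t⟩ => ⟨(pullbackIso φ E hE).symm ≪≫ t⟩, fun ⟨t⟩ => ⟨pullbackIso φ E hE ≪≫ t⟩⟩

theorem pullback_trivial_iff_linEquiv_zero :
    Nonempty ((Scheme.Modules.pullback φ).obj (ofCaDiv E) ≅
      SheafOfModules.unit Y.ringCatSheaf) ↔ CaDiv.LinEquiv (pullAt φ E hE) 0 := by
  rw [← trivial_iff_linEquiv_zero]
  exact ⟨fun ⟨t⟩ => ⟨(pullbackIso φ E hE).symm ≪≫ t⟩, fun ⟨t⟩ => ⟨pullbackIso φ E hE ≪≫ t⟩⟩

end

end Fermat.Agent.JAC.Cube.LinePull50
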