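/-
S26-track, brick CW3 (helper1), final form: the theorem of the cube for divisor classes,
UNCONDITIONALLY (given `CubeGood`), by plugging helper50's CW1 (c) (`Cube/LinePull50`) into
`Cube/ClCube1`.  Also the dictionary between the two (independently written, equal) general
pullbacks of Cartier divisors `PullFun50.pullAt` (helper50) and `PullGen1.CaDiv.pullAt` (helper1).
-/
import Fermat.Agent.JAC.Cube.ClCube1
import Fermat.Agent.JAC.Cube.LinePull50

set_option autoImplicit false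

universe u

open AlgebraicGeometry CategoryTheory TopologicalSpace Opposite MonoidalCategory
  CartesianMonoidalCategory

namespace Fermat.Agent.JAC.Cube.ClCubeFinal1

open Fermat.Agent.JAC.Div2.Stalk69 Fermat.Agent.JAC.Div2.CaDiv69
open Fermat.Agent.JAC.Div2.Cl1
open Fermat.Agent.JAC.Cube.LineBundle50 Fermat.Agent.JAC.Cube.Step6
open Fermat.Agent.JAC.Cube.Induct6 Fermat.Agent.JAC.Cube.ClCube1

noncomputable section

section Bridge

variable {X Y : Scheme.{u}} [IsIntegral X] [IsIntegral Y] (φ : Y ⟶ X)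

/-- The two general pullbacks of rational functions agree. -/
theorem pullFunAt_eq :
    Fermat.Agent.JAC.Cube.PullFun50.pullFunAt φ = Fermat.Agent.JAC.Div2.PullGen1.pullFunAt φ := by
  refine RingHom.ext fun a => ?_
  obtain ⟨U, hU, s, hs⟩ := mem_stalkRing_iff.mp a.2
  have h1 : a = ⟨X.presheaf.germ U (genericPoint X) (genericPoint_mem_of_mem hU) s,
      germ_mem_stalkRing hU s⟩ := Subtype.ext hs.symm
  rw [h1, Fermat.Agent.JAC.Cube.PullFun50.pullFunAt_germ φ hU s]
  exact (Fermat.Agent.JAC.Div2.PullGen1.pullFunAt_germ φ U hU s).symm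

/-- The two general pullbacks of units agree. -/
theorem pullUnitsAt_eq (u : stalkUnits X (Fermat.Agent.JAC.Cube.PullFun50.gp φ)) :
    Fermat.Agent.JAC.Cube.PullFun50.pullUnitsAt φ u =
      Fermat.Agent.JAC.Div2.PullGen1.pullUnitsAt φ u := by
  apply Units.ext
  change Fermat.Agent.JAC.Cube.PullFun50.pullFunAt φ ⟨_, u.2.1⟩ =
    Fermat.Agent.JAC.Div2.PullGen1.pullFunAt φ ⟨_, u.2.1⟩
  exact DFunLike.congr_fun (pullFunAt_eq φ) _

/-- The two notions of "missing the image of the generic point" agree (definitionally). -/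
theorem misses_iff (E : CaDiv X) :
    Fermat.Agent.JAC.Cube.PullFun50.Misses φ E ↔
      Fermat.Agent.JAC.Div2.PullGen1.CaDiv.Misses E φ := Iff.rfl

/-- The two general pullbacks of Cartier divisors agree. -/
theorem pullAt_eq (E : CaDiv X) (hE : Fermat.Agent.JAC.Cube.PullFun50.Misses φ E) :
    Fermat.Agent.JAC.Cube.PullFun50.pullAt φ E hE =
      Fermat.Agent.JAC.Div2.PullGen1.CaDiv.pullAt φ E hE :=
  CaDiv.ext fun _ => pullUnitsAt_eq φ _

/-- **CW1 (c), in `PullGen1` form**: `φ^* O(E) ≅ O(pullAt φ E)`. -/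
theorem nonempty_pullback_iso (E : CaDiv X)
    (hE : Fermat.Agent.JAC.Div2.PullGen1.CaDiv.Misses E φ) :
    Nonempty ((Scheme.Modules.pullback φ).obj (ofCaDiv E) ≅
      ofCaDiv (Fermat.Agent.JAC.Div2.PullGen1.CaDiv.pullAt φ E hE)) := by
  have h := Fermat.Agent.JAC.Cube.LinePull50.nonempty_pullback_iso φ E hE
  rw [pullAt_eq φ E hE] at h
  exact h

end Bridge

/-- **CW1 (c') holds** (helper50's `LinePull50`). -/
theorem pullTrivial : PullTrivial.{u} := by
  intro X Y _ _ φ E hE h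
  have h' : CaDiv.LinEquiv (Fermat.Agent.JAC.Cube.PullFun50.pullAt φ E hE) 0 := by
    rw [pullAt_eq φ E hE]
    exact h
  exact (Fermat.Agent.JAC.Cube.LinePull50.pullback_trivial_iff_linEquiv_zero φ E hE).mpr h'

section Pull

variable {X Y : Scheme.{u}} [IsIntegral X] [IsIntegral Y]

/-- If the class of `E` dies under `Cl.map φ`, then `φ^* O(E)` is trivial. -/
theorem isTrivial_pullback_ofCaDiv_of_map_eq_zero (φ : Y ⟶ X) (E : CaDiv X)
    (h : Cl.map φ (Cl.mk E) = 0) : IsTrivial ((Scheme.Modules.pullback φ).obj (ofCaDiv E)) :=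
  ClCube1.isTrivial_pullback_ofCaDiv_of_map_eq_zero pullTrivial φ E h

/-- `φ^* O(E)` is trivial iff the class of `E` dies under `Cl.map φ`. -/
theorem isTrivial_pullback_ofCaDiv_iff (φ : Y ⟶ X) (E : CaDiv X) :
    IsTrivial ((Scheme.Modules.pullback φ).obj (ofCaDiv E)) ↔ Cl.map φ (Cl.mk E) = 0 := by
  refine ⟨fun h => ?_, isTrivial_pullback_ofCaDiv_of_map_eq_zero φ E⟩
  obtain ⟨e⟩ := nonempty_ofCaDiv_iso_of_linEquiv
    (Fermat.Agent.JAC.Div2.PullGen1.CaDiv.linEquiv_move φ E)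
  have h1 : IsTrivial ((Scheme.Modules.pullback φ).obj
      (ofCaDiv (Fermat.Agent.JAC.Div2.PullGen1.CaDiv.move φ E))) :=
    h.of_iso ((Scheme.Modules.pullback φ).mapIso e.symm)
  obtain ⟨t⟩ := nonempty_pullback_iso φ _ (Fermat.Agent.JAC.Div2.PullGen1.CaDiv.misses_move φ E)
  have h2 := h1.of_iso t
  rw [Cl.map_mk, Cl.mk_eq_zero_iff]
  exact (trivial_iff_linEquiv_zero _).mp h2

end Pull

section Cube

variable {k : Type u} [Field k]

/-- **Theorem of the cube for divisor classes** (unconditional form of `ClCube1.cl_cube`). -/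
theorem cl_cube (N : NiceClass k) {W X Y : Over (Sk k)}
    (w₀ : 𝟙_ (Over (Sk k)) ⟶ W) (x₀ : 𝟙_ (Over (Sk k)) ⟶ X) (y₀ : 𝟙_ (Over (Sk k)) ⟶ Y)
    (hgood : CubeGood N W w₀) (hX : N.P X) (hY : N.P Y)
    [IsIntegral (W ⊗ (X ⊗ Y)).left] [IsIntegral (X ⊗ Y).left] [IsIntegral (W ⊗ Y).left]
    [IsIntegral (W ⊗ X).left] (ξ : Cl (W ⊗ (X ⊗ Y)).left)
    (h1 : Cl.map (face₁ W X Y w₀).left ξ = 0) (h2 : Cl.map (face₂ W X Y x₀).left ξ = 0)
    (h3 : Cl.map (face₃ W X Y y₀).left ξ = 0) : ξ = 0 :=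
  ClCube1.cl_cube pullTrivial N w₀ x₀ y₀ hgood hX hY ξ h1 h2 h3

end Cube

end

end Fermat.Agent.JAC.Cube.ClCubeFinal1
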