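/-
S26-track, brick CW1 (c) (helper50), bridge to helper1's CW0 (`Div2/PullGen1`, `Div2/Cl1`):
`Cube/PullFun50` and `Div2/PullGen1` define the same `pullFunAt` / `pullAt`; the results of
`Cube/LinePull50` are restated here for `PullGen1.CaDiv.pullAt`, in the exact shapes consumed
by `Cube/ClCube1` (`PullTrivial`).
-/
import Fermat.Agent.JAC.Cube.LinePull50
import Fermat.Agent.JAC.Div2.PullGen1

set_option autoImplicit false

open AlgebraicGeometry CategoryTheory TopologicalSpace Opposite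

universe u

namespace Fermat.Agent.JAC.Cube.LinePullGen50

open Fermat.Agent.JAC.Div2.Stalk69 Fermat.Agent.JAC.Div2.CaDiv69
open Fermat.Agent.JAC.Cube.LineBundle50
open Fermat.Agent.JAC.Div2

variable {X Y : Scheme.{u}} [IsIntegral X] [IsIntegral Y] (φ : Y ⟶ X)

/-- The two definitions of `φ^# : O_{X, φ η_Y} → K(Y)` agree. -/
theorem pullFunAt_eq (a : stalkRing X (φ (genericPoint Y))) :
    PullFun50.pullFunAt φ a = PullGen1.pullFunAt φ a := by
  obtain ⟨a, ha⟩ := a
  obtain ⟨W, hW, r, rfl⟩ := mem_stalkRing_iff.mp ha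
  rw [PullGen1.pullFunAt_germ φ W hW r]
  exact PullFun50.pullFunAt_germ φ hW r

theorem misses_iff (E : CaDiv X) : PullFun50.Misses φ E ↔ PullGen1.CaDiv.Misses E φ := Iff.rfl

/-- The two definitions of the pullback of a divisor missing `φ η_Y` agree. -/
theorem pullAt_eq (E : CaDiv X) (hE : PullGen1.CaDiv.Misses E φ) :
    PullFun50.pullAt φ E hE = PullGen1.CaDiv.pullAt φ E hE := by
  apply CaDiv.ext
  intro y
  apply Units.ext
  exact pullFunAt_eq φ _

/-- **(c)** `φ^* O(E) ≅ O(φ^*E)`, with helper1's `pullAt`. -/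
theorem nonempty_pullback_iso (E : CaDiv X) (hE : PullGen1.CaDiv.Misses E φ) :
    Nonempty ((Scheme.Modules.pullback φ).obj (ofCaDiv E) ≅
      ofCaDiv (PullGen1.CaDiv.pullAt φ E hE)) := by
  rw [← pullAt_eq]
  exact LinePull50.nonempty_pullback_iso φ E hE

/-- **(c')** `φ^* O(E)` is trivial iff `φ^*E` is linearly equivalent to zero. -/
theorem pullback_trivial_iff_linEquiv_zero (E : CaDiv X) (hE : PullGen1.CaDiv.Misses E φ) :
    Nonempty ((Scheme.Modules.pullback φ).obj (ofCaDiv E) ≅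
      SheafOfModules.unit Y.ringCatSheaf) ↔
      CaDiv.LinEquiv (PullGen1.CaDiv.pullAt φ E hE) 0 := by
  rw [← pullAt_eq]
  exact LinePull50.pullback_trivial_iff_linEquiv_zero φ E hE

theorem pullback_trivial_iff (E : CaDiv X) (hE : PullGen1.CaDiv.Misses E φ) :
    Nonempty ((Scheme.Modules.pullback φ).obj (ofCaDiv E) ≅
      SheafOfModules.unit Y.ringCatSheaf) ↔
      ∃ h : Y.functionFieldˣ, ∀ y,
        h * (PullGen1.CaDiv.pullAt φ E hE).eq y ∈ stalkUnits Y y := by
  rw [← pullAt_eq]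
  exact LinePull50.pullback_trivial_iff φ E hE

/-- The statement `PullTrivial` consumed by `Cube/ClCube1` (helper1, #914). -/
theorem pullTrivial {X Y : Scheme.{u}} [IsIntegral X] [IsIntegral Y] (φ : Y ⟶ X)
    (E : CaDiv X) (hE : PullGen1.CaDiv.Misses E φ)
    (h : CaDiv.LinEquiv (PullGen1.CaDiv.pullAt φ E hE) 0) :
    Nonempty ((Scheme.Modules.pullback φ).obj (ofCaDiv E) ≅
      SheafOfModules.unit Y.ringCatSheaf) :=
  (pullback_trivial_iff_linEquiv_zero φ E hE).mpr h

end Fermat.Agent.JAC.Cube.LinePullGen50
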