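import Mathlib
import Fermat.Agent.JAC.Cube.Induct6
import Fermat.Agent.JAC.Cube.PtVar27

/-!
# S26 track / PROD : the class of nice schemes over an algebraically closed field

`niceClass k : Induct6.NiceClass k` for `k` algebraically closed: `P X := IsProper X.hom ∧
IsIntegral X.left`.  It contains the point, is closed under products, and its members have
`H⁰ = k` and are geometrically integral.  Pointed proper smooth integral curves belong to it.
-/

set_option autoImplicit false

universe u

open CategoryTheory Limits AlgebraicGeometry MonoidalCategory CartesianMonoidalCategory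

namespace Fermat.Agent.JAC.Cube.Nice27

open Fermat.Agent.JAC.Cube.Induct6 Fermat.Agent.JAC.Cube.PtVar27 Fermat.Agent.JAC.Prop

variable (k : Type u) [Field k] [IsAlgClosed k]

/-- The property defining the nice class. -/
def IsNice (X : Over (Sk k)) : Prop := IsProper X.hom ∧ IsIntegral X.left

variable {k}

theorem IsNice.tensor {X Y : Over (Sk k)} (hX : IsNice k X) (hY : IsNice k Y) :
    IsNice k (X ⊗ Y) := by
  obtain ⟨hXp, hXi⟩ := hX
  obtain ⟨hYp, hYi⟩ := hY
  have hYg : GeometricallyIntegral Y.hom := GeomIntegral27.geometricallyIntegral_of_isIntegral Y.hom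
  have : IsLocallyNoetherian X.left := LocallyOfFiniteType.isLocallyNoetherian X.hom
  refine ⟨?_, ?_⟩
  · change IsProper (pullback.fst X.hom Y.hom ≫ X.hom)
    infer_instance
  · change IsIntegral (pullback X.hom Y.hom)
    infer_instance

variable (k)

/-- **The nice class over an algebraically closed field.** -/
noncomputable def niceClass : NiceClass k where
  P := IsNice k
  unit := ⟨inferInstanceAs (IsProper (𝟙 (Spec (CommRingCat.of k)))),
    inferInstanceAs (IsIntegral (Spec (CommRingCat.of k)))⟩
  tensor := IsNice.tensor
  isProper h := h.1
  isIso_appTop h := by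
    have := h.1
    have := h.2
    exact Fermat.Agent.JAC.Bridge.H0Proper57.isIso_appTop _
  geometricallyIntegral h := by
    have := h.2
    exact GeomIntegral27.geometricallyIntegral_of_isIntegral _

variable {k}

/-- A proper integral `k`-scheme is nice. -/
theorem isNice_mk {X : Scheme.{u}} (x : X ⟶ Spec (CommRingCat.of k)) [IsProper x] [IsIntegral X] :
    (niceClass k).P (Over.mk x) :=
  ⟨‹IsProper x›, ‹IsIntegral X›⟩

/-- The underlying object of a proper pointed variety is nice. -/
theorem isNice_ptVar (V : PtVar k) [PtVar.IsProperVar V] : (niceClass k).P V.obj :=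
  ⟨inferInstance, inferInstance⟩

end Fermat.Agent.JAC.Cube.Nice27
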