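/-
S26/S27 track, brick CUBE_W, part [N] (helper6): the concrete class of nice `k`-schemes over an
algebraically closed field (integral and proper; via helper27's `GeomIntegral27` and helper57's
`H0Proper57`), the Jacobian hypothesis from an S25-shaped hypothesis, and the resulting theorem
of the cube for products of pointed smooth proper curves (`Scheme.Modules` form).
-/
import Mathlib
import Fermat.Agent.JAC.Cube.Induct6
import Fermat.Agent.JAC.Prop.GeomIntegral27
import Fermat.Agent.JAC.Bridge.H0Proper57

set_option autoImplicit false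

universe u

open CategoryTheory CategoryTheory.Limits AlgebraicGeometry MonoidalCategory
  CartesianMonoidalCategory AlgebraicGeometry.RelPicard NeronModelInfra GoodReductionJacobian

namespace Fermat.Agent.JAC.Cube.Nice6

open Fermat.Agent.JAC.Cube.Step6 Fermat.Agent.JAC.Cube.Induct6 Fermat.Agent.JAC.Prop

noncomputable section

variable (k : Type u) [Field k] [IsAlgClosed k]

/-- Over an algebraically closed field: the class of integral proper `k`-schemes. -/
def niceClass : NiceClass k where
  P X := IsIntegral X.left ∧ IsProper X.hom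
  unit := ⟨inferInstanceAs (IsIntegral (Spec (CommRingCat.of k))),
    inferInstanceAs (IsProper (𝟙 (Spec (CommRingCat.of k))))⟩
  tensor := by
    rintro X Y ⟨hX, hX'⟩ ⟨hY, hY'⟩
    have : GeometricallyIntegral X.hom := GeomIntegral27.geometricallyIntegral_of_isIntegral X.hom
    have : IsLocallyNoetherian Y.left := LocallyOfFiniteType.isLocallyNoetherian Y.hom
    refine ⟨?_, ?_⟩
    · change IsIntegral (pullback X.hom Y.hom)
      infer_instance
    · change IsProper (pullback.fst X.hom Y.hom ≫ X.hom)
      infer_instance
  isProper h := h.2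
  isIso_appTop := by
    rintro X ⟨hX, hX'⟩
    exact Fermat.Agent.JAC.Bridge.H0Proper57.isIso_appTop X.hom
  geometricallyIntegral := by
    rintro X ⟨hX, hX'⟩
    exact GeomIntegral27.geometricallyIntegral_of_isIntegral X.hom

variable {k}

theorem niceClass_P_iff (X : Over (Sk k)) :
    (niceClass k).P X ↔ IsIntegral X.left ∧ IsProper X.hom := Iff.rfl

/-- The statement of S25 (frozen shape), as a hypothesis. -/
def S25Statement (k : Type u) [Field k] : Prop :=
  ∀ {C : Scheme.{u}} (c : C ⟶ Spec (CommRingCat.of k))
    [IsProper c] [SmoothOfRelativeDimension 1 c] [IsIntegral C]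
    (ε : SchemeHomOver (𝟙 (Spec (CommRingCat.of k))) c),
    ∃ D : RelativePic0Designation k c,
      Nonempty (RepresentsRelSubPic c ε (algEquivZeroCut c ε) D) ∧
        Smooth D.toBase ∧ IsProper D.toBase ∧ GeometricallyConnected D.toBase

omit [IsAlgClosed k] in
/-- A pointed smooth proper integral curve has a separated Jacobian, by S25. -/
theorem hasJac_of_S25 (h25 : S25Statement k) {C : Scheme.{u}}
    (c : C ⟶ Spec (CommRingCat.of k)) [IsProper c] [SmoothOfRelativeDimension 1 c]
    [IsIntegral C] (ε : Spec (CommRingCat.of k) ⟶ C) (hε : ε ≫ c = 𝟙 _) :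
    HasJac (Over.mk c) (Over.homMk ε hε) := by
  obtain ⟨D, hD, -, hprop, -⟩ := h25 c ⟨ε, hε⟩
  exact ⟨D, hD, inferInstance⟩

/-- The pointed curve `(C, ε)` as a `PointedJac`. -/
def pointedJacOfCurve (h25 : S25Statement k) {C : Scheme.{u}}
    (c : C ⟶ Spec (CommRingCat.of k)) [IsProper c] [SmoothOfRelativeDimension 1 c]
    [IsIntegral C] (ε : Spec (CommRingCat.of k) ⟶ C) (hε : ε ≫ c = 𝟙 _) :
    PointedJac (niceClass k) where
  obj := Over.mk c
  pt := Over.homMk ε hε
  hasJac := hasJac_of_S25 h25 c ε hε
  nice := ⟨‹IsIntegral C›, ‹IsProper c›⟩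

/-- **Theorem of the cube for products of pointed smooth proper curves** over an algebraically
closed field, `Scheme.Modules` form, assuming the statement of S25. -/
theorem cubeGood_curves (l : List (PointedJac (niceClass k))) :
    CubeGood (niceClass k) (prodObj l) (prodPt l) :=
  cubeGood_prodObj l

end

end Fermat.Agent.JAC.Cube.Nice6
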