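/-
S26/S27 track, brick CUBE_W, part [Q] (helper6): the purely formal half of "the theorem of the cube
implies that `n ↦ [n]^* δ` is quadratic".  Mathlib only, no schemes.

Abstract setting.  `GW`, `GT`, `GF i` (`i : Fin 3`) are commutative groups (think: the groups of
`W`-, `T`- and `F i`-valued points of a commutative group scheme `A`, where `T = W × W × W` and
`F i` is its `i`-th face), `PW`, `PT`, `PF i` are additive commutative groups (think: divisor class
groups), `ev* : G* → P*` are maps (think: `x ↦ x^* δ` for a fixed class `δ` on `A`) compatible with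
the pullbacks along the three projections `T ⟶ W`, the diagonal `W ⟶ T` and the face inclusions
`F i ⟶ T`.  If a class on `T` vanishing on the three faces vanishes (theorem of the cube) then
`Θ(a, b, c) = 0` for pointed `a b c`, and hence `ev (a ^ n) = n ^ 2 • ev a` when `ev` is symmetric.
-/
import Mathlib

set_option autoImplicit false

namespace Fermat.Agent.JAC.Cube.Quadratic6

section Theta

variable {G P : Type*} [CommGroup G] [AddCommGroup P]

/-- The "second difference" `Θ(a,b,c) = ev(abc) - ev(ab) - ev(ac) - ev(bc) + ev a + ev b + ev c`. -/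
def Theta (ev : G → P) (a b c : G) : P :=
  ev (a * b * c) - ev (a * b) - ev (a * c) - ev (b * c) + ev a + ev b + ev c

theorem Theta_one_left (ev : G → P) (h1 : ev 1 = 0) (b c : G) : Theta ev 1 b c = 0 := by
  simp only [Theta, one_mul, h1]; abel

theorem Theta_one_middle (ev : G → P) (h1 : ev 1 = 0) (a c : G) : Theta ev a 1 c = 0 := by
  simp only [Theta, one_mul, mul_one, h1]; abel

theorem Theta_one_right (ev : G → P) (h1 : ev 1 = 0) (a b : G) : Theta ev a b 1 = 0 := by
  simp only [Theta, mul_one, h1]; abel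

/-- Naturality of `Θ`. -/
theorem Theta_map {G' P' : Type*} [CommGroup G'] [AddCommGroup P'] (ev : G → P) (ev' : G' → P')
    (φ : G →* G') (ψ : P →+ P') (h : ∀ x, ev' (φ x) = ψ (ev x)) (a b c : G) :
    Theta ev' (φ a) (φ b) (φ c) = ψ (Theta ev a b c) := by
  simp only [Theta, map_add, map_sub, ← h, map_mul]

end Theta

section Cube

variable {GW GT : Type*} [CommGroup GW] [CommGroup GT] {PW PT : Type*} [AddCommGroup PW]
  [AddCommGroup PT] {GF PF : Fin 3 → Type*} [∀ i, CommGroup (GF i)] [∀ i, AddCommGroup (PF i)]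
  (evW : GW → PW) (evT : GT → PT) (evF : ∀ i, GF i → PF i)
  (p : Fin 3 → GW →* GT) (dG : GT →* GW) (dP : PT →+ PW)
  (fG : ∀ i, GT →* GF i) (fP : ∀ i, PT →+ PF i) (H : Subgroup GW)

/-- **The theorem of the cube implies the theorem of the square (abstract form)**:
`Θ(a, b, c) = 0` for pointed `a`, `b`, `c`. -/
theorem Theta_eq_zero_of_cube
    (h_dp : ∀ i a, dG (p i a) = a)
    (h_fp : ∀ i, ∀ a ∈ H, fG i (p i a) = 1)
    (ev_d : ∀ x, evW (dG x) = dP (evT x))
    (ev_f : ∀ i x, evF i (fG i x) = fP i (evT x))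
    (ev_one : ∀ i, evF i 1 = 0)
    (cube : ∀ ξ : PT, (∀ i, fP i ξ = 0) → ξ = 0)
    {a b c : GW} (ha : a ∈ H) (hb : b ∈ H) (hc : c ∈ H) : Theta evW a b c = 0 := by
  have hξ : Theta evT (p 0 a) (p 1 b) (p 2 c) = 0 := by
    apply cube
    intro i
    rw [← Theta_map evT (evF i) (fG i) (fP i) (ev_f i)]
    fin_cases i
    · simp only [Fin.zero_eta]
      rw [h_fp 0 a ha]
      exact Theta_one_left _ (ev_one 0) _ _
    · simp only [Fin.mk_one]
      rw [h_fp 1 b hb]
      exact Theta_one_middle _ (ev_one 1) _ _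
    · simp only [Fin.reduceFinMk]
      rw [h_fp 2 c hc]
      exact Theta_one_right _ (ev_one 2) _ _
  have := Theta_map evT evW dG dP ev_d (p 0 a) (p 1 b) (p 2 c)
  rw [h_dp, h_dp, h_dp, hξ, map_zero] at this
  exact this

end Cube

section Quadratic

variable {G P : Type*} [CommGroup G] [AddCommGroup P] (ev : G → P) (H : Subgroup G)

/-- If `Θ` vanishes on `H` and `ev` is symmetric on `H` then `ev (a ^ n) = n ^ 2 • ev a`. -/
theorem ev_pow_of_Theta (h1 : ev 1 = 0)
    (hΘ : ∀ a ∈ H, ∀ b ∈ H, ∀ c ∈ H, Theta ev a b c = 0)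
    (hsymm : ∀ a ∈ H, ev a⁻¹ = ev a) {a : G} (ha : a ∈ H) :
    ∀ n : ℕ, ev (a ^ n) = (n ^ 2) • ev a := by
  -- the recursion `q (n+2) = 2 q (n+1) - q n + 2 q 1`
  have hrec : ∀ n : ℕ, ev (a ^ (n + 2)) = 2 • ev (a ^ (n + 1)) - ev (a ^ n) + 2 • ev a := by
    intro n
    have h := hΘ (a ^ (n + 1)) (H.pow_mem ha _) a ha a⁻¹ (H.inv_mem ha)
    have e1 : a ^ (n + 1) * a * a⁻¹ = a ^ (n + 1) := by rw [mul_inv_cancel_right]
    have e2 : a ^ (n + 1) * a = a ^ (n + 2) := by rw [← pow_succ]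
    have e3 : a ^ (n + 1) * a⁻¹ = a ^ n := by rw [pow_succ, mul_inv_cancel_right]
    unfold Theta at h
    rw [e1, e2, e3, mul_inv_cancel, h1, hsymm a ha] at h
    have h' : ev (a ^ (n + 2)) =
        ev (a ^ (n + 1)) + ev (a ^ (n + 1)) - ev (a ^ n) + (ev a + ev a) := by
      calc ev (a ^ (n + 2)) = ev (a ^ (n + 2)) + 0 := (add_zero _).symm
        _ = ev (a ^ (n + 2)) + (ev (a ^ (n + 1)) - ev (a ^ (n + 2)) - ev (a ^ n) - 0 +
              ev (a ^ (n + 1)) + ev a + ev a) := by rw [h]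
        _ = _ := by abel
    rw [h', two_nsmul, two_nsmul]
  intro n
  induction n using Nat.strong_induction_on with
  | _ n ih =>
    match n, ih with
    | 0, _ => simp [h1]
    | 1, _ => simp
    | (m + 2), ih =>
      rw [hrec m, ih (m + 1) (by omega), ih m (by omega)]
      have : ((m + 2) ^ 2 : ℕ) + m ^ 2 = 2 * (m + 1) ^ 2 + 2 := by ring
      rw [eq_comm, ← sub_eq_zero]
      have h2 : ((m + 2) ^ 2) • ev a + (m ^ 2) • ev a =
          2 • ((m + 1) ^ 2) • ev a + 2 • ev a := by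
        rw [← add_nsmul, this, add_nsmul, mul_nsmul']
      rw [sub_eq_zero]
      rw [← sub_eq_zero] at h2
      rw [← sub_eq_zero, ← h2]
      abel

/-- The same for integer exponents. -/
theorem ev_zpow_of_Theta (h1 : ev 1 = 0)
    (hΘ : ∀ a ∈ H, ∀ b ∈ H, ∀ c ∈ H, Theta ev a b c = 0)
    (hsymm : ∀ a ∈ H, ev a⁻¹ = ev a) {a : G} (ha : a ∈ H) (n : ℤ) :
    ev (a ^ n) = (n ^ 2).toNat • ev a := by
  obtain ⟨m, rfl | rfl⟩ := n.eq_nat_or_neg
  · have hm : (((m : ℤ)) ^ 2).toNat = m ^ 2 := by exact_mod_cast Int.toNat_natCast (m ^ 2)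
    rw [zpow_natCast, ev_pow_of_Theta ev H h1 hΘ hsymm ha m, hm]
  · have hm : ((-(m : ℤ)) ^ 2).toNat = m ^ 2 := by
      rw [neg_sq]; exact_mod_cast Int.toNat_natCast (m ^ 2)
    rw [zpow_neg, zpow_natCast, hsymm _ (H.pow_mem ha m), ev_pow_of_Theta ev H h1 hΘ hsymm ha m,
      hm]

end Quadratic

end Fermat.Agent.JAC.Cube.Quadratic6
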