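/-
S26/S27 track, brick CUBE_W, part (QN) (helper6): the concrete quadraticity statement.

`K` algebraically closed, `f : A ⟶ Spec K` with a commutative relative group law `L`, `A`
integral; `l` a list of pointed curves with Jacobians, `W` their product, `σ : W ⟶ A` a pointed
`K`-morphism, `δ` a symmetric divisor class on `A`.  Then
`Cl.map (σ ≫ [N]) δ = N ^ 2 • Cl.map σ δ`.

Inputs: the theorem of the cube in `Cl` (`ClCube6.eq_zero_of_faces`; its hypothesis `PullCompat` =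
CW1(c) is kept as a hypothesis), the formal computation `Quadratic6`, and the point calculus of
`AV/Basic66`, `AV/Neg66`.
-/
import Fermat.Agent.JAC.Cube.ClCube6
import Fermat.Agent.JAC.Cube.Nice6
import Fermat.Agent.JAC.Cube.Quadratic6
import Fermat.Agent.JAC.AV.Neg66

set_option autoImplicit false

universe u

open CategoryTheory CategoryTheory.Limits AlgebraicGeometry MonoidalCategory
  CartesianMonoidalCategory NeronModelInfra GoodReductionJacobian

namespace Fermat.Agent.JAC.Cube.QN6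

open Fermat.Agent.JAC.Cube.Step6 Fermat.Agent.JAC.Cube.Induct6 Fermat.Agent.JAC.Cube.Nice6
open Fermat.Agent.JAC.Cube.ClCube6 Fermat.Agent.JAC.Cube.Quadratic6
open Fermat.Agent.JAC.Div2.CaDiv69 Fermat.Agent.JAC.Div2.Cl1
open Fermat.Agent.JAC.AV.Basic66 Fermat.Agent.JAC.AV.Neg66

noncomputable section

variable {K : Type u} [Field K] {A : Scheme.{u}} {f : A ⟶ Spec (CommRingCat.of K)}
  (L : RelativeGroupLaw K f) (hc : L.IsCommutative)

/-- The commutative group of `S`-valued points of `A` (a type synonym carrying `L`, `hc`). -/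
def Pts (_L : RelativeGroupLaw K f) (_hc : _L.IsCommutative) (S : Over (Sk K)) : Type u :=
  SchemeHomOver S.hom f

instance (S : Over (Sk K)) : CommGroup (Pts L hc S) := pointCommGroup L hc S.hom

variable {L hc}

theorem Pts.ext {S : Over (Sk K)} {x y : Pts L hc S} (h : x.1 = y.1) : x = y := Subtype.ext h

theorem Pts.one_coe (S : Over (Sk K)) :
    (1 : Pts L hc S).1 = S.hom ≫ (L.one (𝟙 (Spec (CommRingCat.of K)))).1 :=
  Fermat.Agent.JAC.AV.Basic66.one_coe L S.hom

theorem Pts.inv_coe {S : Over (Sk K)} (x : Pts L hc S) : (x⁻¹).1 = x.1 ≫ neg L :=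
  Fermat.Agent.JAC.AV.Neg66.inv_coe L S.hom x

theorem Pts.pow_coe {S : Over (Sk K)} (x : Pts L hc S) (n : ℕ) :
    (x ^ n).1 = x.1 ≫ L.schemeNsmul n := by
  rw [← Fermat.Agent.JAC.AV.Basic66.nsmul_coe L S.hom n x, Fermat.Agent.JAC.AV.Basic66.nsmul_eq_pow L S.hom n x]
  rfl

variable (L hc)

/-- Composition with a morphism over `K`, as a group homomorphism on points. -/
def compHom {S S' : Over (Sk K)} (u : S' ⟶ S) : Pts L hc S →* Pts L hc S' :=
  MonoidHom.mk' (fun x => schemeHomOverComp u.left (Over.w u) x)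
    (fun x y => L.mul_natural S.hom S'.hom u.left (Over.w u) x y)

variable {L hc}

@[simp] theorem compHom_coe {S S' : Over (Sk K)} (u : S' ⟶ S) (x : Pts L hc S) :
    (compHom L hc u x).1 = u.left ≫ x.1 := rfl

theorem compHom_comp {S S' S'' : Over (Sk K)} (u : S' ⟶ S) (v : S'' ⟶ S') (x : Pts L hc S) :
    compHom L hc (v ≫ u) x = compHom L hc v (compHom L hc u x) :=
  Pts.ext (by simp)

theorem compHom_id {S : Over (Sk K)} (x : Pts L hc S) : compHom L hc (𝟙 S) x = x :=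
  Pts.ext (by simp)

theorem compHom_congr {S S' : Over (Sk K)} {u v : S' ⟶ S} (h : u = v) (x : Pts L hc S) :
    compHom L hc u x = compHom L hc v x := by rw [h]

section Ev

variable [IsIntegral A] (δ : Cl A)

/-- `x ↦ x^* δ`. -/
def ev (S : Over (Sk K)) [IsIntegral S.left] (x : Pts L hc S) : Cl S.left := Cl.map x.1 δ

theorem ev_compHom {S S' : Over (Sk K)} [IsIntegral S.left] [IsIntegral S'.left] (u : S' ⟶ S)
    (x : Pts L hc S) : ev δ S' (compHom L hc u x) = Cl.map u.left (ev δ S x) :=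
  Cl.map_comp_apply u.left x.1 δ

theorem ev_one (S : Over (Sk K)) [IsIntegral S.left] : ev δ S (1 : Pts L hc S) = 0 := by
  unfold ev
  rw [Pts.one_coe, Cl.map_eq_zero_of_factors_field]
  rfl

theorem ev_inv (hδ : Cl.map (neg L) δ = δ) {S : Over (Sk K)} [IsIntegral S.left]
    (x : Pts L hc S) : ev δ S x⁻¹ = ev δ S x := by
  unfold ev
  rw [Pts.inv_coe, Cl.map_comp_apply, hδ]

end Ev

section Cube

variable [IsIntegral A] (δ : Cl A) {N : NiceClass K} {W : Over (Sk K)}
  {w₀ : 𝟙_ (Over (Sk K)) ⟶ W}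

/-- The three projections `W × (W × W) ⟶ W`. -/
def proj3 (W : Over (Sk K)) : Fin 3 → (W ⊗ (W ⊗ W) ⟶ W) :=
  ![fst _ _, snd _ _ ≫ fst _ _, snd _ _ ≫ snd _ _]

/-- The three faces `W × W ⟶ W × (W × W)`. -/
def face3 (W : Over (Sk K)) (w₀ : 𝟙_ (Over (Sk K)) ⟶ W) : Fin 3 → (W ⊗ W ⟶ W ⊗ (W ⊗ W)) :=
  ![face₁ W W W w₀, face₂ W W W w₀, face₃ W W W w₀]

/-- The diagonal `W ⟶ W × (W × W)`. -/
def diag3 (W : Over (Sk K)) : W ⟶ W ⊗ (W ⊗ W) := lift (𝟙 W) (lift (𝟙 W) (𝟙 W))

theorem diag3_proj3 (W : Over (Sk K)) (i : Fin 3) : diag3 W ≫ proj3 W i = 𝟙 W := by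
  fin_cases i <;> simp [diag3, proj3]

theorem face3_proj3 (W : Over (Sk K)) (w₀ : 𝟙_ (Over (Sk K)) ⟶ W) (i : Fin 3) :
    face3 W w₀ i ≫ proj3 W i = toUnit _ ≫ w₀ := by
  fin_cases i <;> simp [face3, proj3, face₁, face₂, face₃]

/-- **(Q)**: the theorem of the square on `W` for pointed morphisms `a b c : W ⟶ A`. -/
theorem Theta_eq_zero (hcomp : PullCompat.{u}) (hgood : CubeGood N W w₀) (hW : N.P W)
    [IsIntegral W.left] [IsIntegral (W ⊗ W).left] [IsIntegral (W ⊗ (W ⊗ W)).left]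
    {a b c : Pts L hc W} (ha : compHom L hc w₀ a = 1) (hb : compHom L hc w₀ b = 1)
    (hc' : compHom L hc w₀ c = 1) : Theta (ev δ W) a b c = 0 := by
  refine Theta_eq_zero_of_cube (GF := fun _ => Pts L hc (W ⊗ W))
    (PF := fun _ => Cl (W ⊗ W).left) (ev δ W) (ev δ (W ⊗ (W ⊗ W))) (fun _ => ev δ (W ⊗ W))
    (fun i => compHom L hc (proj3 W i)) (compHom L hc (diag3 W)) (Cl.map (diag3 W).left)
    (fun i => compHom L hc (face3 W w₀ i)) (fun i => Cl.map (face3 W w₀ i).left)
    (compHom L hc w₀).ker ?_ ?_ ?_ ?_ ?_ ?_ ha hb hc'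
  · intro i x
    rw [← compHom_comp, compHom_congr (diag3_proj3 W i), compHom_id]
  · intro i x hx
    rw [← compHom_comp, compHom_congr (face3_proj3 W w₀ i), compHom_comp, MonoidHom.mem_ker.mp hx,
      map_one]
  · intro x
    exact ev_compHom δ _ x
  · intro i x
    exact ev_compHom δ _ x
  · intro i
    exact ev_one δ _
  · intro ξ hξ
    exact eq_zero_of_faces hcomp hgood hW hW w₀ w₀ ξ (hξ 0) (hξ 1) (hξ 2)

/-- **(QN)**, general form: `(σ ≫ [n])^* δ = n² • σ^* δ` for a pointed `σ : W ⟶ A` and a symmetric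
class `δ`, when `W` satisfies the theorem of the cube. -/
theorem map_comp_schemeNsmul (hcomp : PullCompat.{u}) (hgood : CubeGood N W w₀) (hW : N.P W)
    [IsIntegral W.left] [IsIntegral (W ⊗ W).left] [IsIntegral (W ⊗ (W ⊗ W)).left]
    (hδ : Cl.map (neg L) δ = δ) (σ : Pts L hc W) (hσ : compHom L hc w₀ σ = 1) (n : ℕ) :
    Cl.map (σ.1 ≫ L.schemeNsmul n) δ = (n ^ 2) • Cl.map σ.1 δ := by
  have h := ev_pow_of_Theta (ev δ W) (compHom L hc w₀).ker (ev_one δ W)
    (fun a ha b hb c hc' => Theta_eq_zero δ hcomp hgood hW (MonoidHom.mem_ker.mp ha)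
      (MonoidHom.mem_ker.mp hb) (MonoidHom.mem_ker.mp hc'))
    (fun a _ => ev_inv δ hδ a) (MonoidHom.mem_ker.mpr hσ) n
  rw [← Pts.pow_coe]
  exact h

end Cube

section Curves

variable [IsAlgClosed K]

instance isIntegral_prodObj (l : List (PointedJac (niceClass K))) :
    IsIntegral (prodObj l).left := (nice_prodObj l).1

variable [IsIntegral A]

/-- **(QN)** for products of pointed curves: the shape consumed by `Final26`. -/
theorem QN (hcomp : PullCompat.{u}) (l : List (PointedJac (niceClass K)))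
    (σ : (prodObj l).left ⟶ A) (hσ : σ ≫ f = (prodObj l).hom)
    (hσ0 : (prodPt l).left ≫ σ = (L.one (𝟙 (Spec (CommRingCat.of K)))).1)
    (hc : L.IsCommutative) (δ : Cl A) (hδ : Cl.map (neg L) δ = δ) (n : ℕ) :
    Cl.map (σ ≫ L.schemeNsmul n) δ = (n ^ 2) • Cl.map σ δ := by
  have hW := nice_prodObj l
  have hWW := (niceClass K).tensor hW hW
  have hWWW := (niceClass K).tensor hW hWW
  have : IsIntegral (prodObj l ⊗ prodObj l).left := hWW.1
  have : IsIntegral (prodObj l ⊗ (prodObj l ⊗ prodObj l)).left := hWWW.1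
  refine map_comp_schemeNsmul (L := L) (hc := hc) δ hcomp (cubeGood_prodObj l) hW hδ ⟨σ, hσ⟩ ?_ n
  apply Pts.ext
  rw [Pts.one_coe]
  change (prodPt l).left ≫ σ = 𝟙 _ ≫ _
  rw [hσ0, Category.id_comp]

end Curves

end

end Fermat.Agent.JAC.Cube.QN6
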