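/-
S26/S27 track, brick CUBE_W, final form (helper6): the hypothesis `ClCube6.PullCompat` of
`ClCube6` / `QN6` is helper50's CW1(c) (`LinePullGen50.nonempty_pullback_iso`), so the theorem of
the cube in `Cl` and the quadraticity statement (QN) hold unconditionally.
-/
import Fermat.Agent.JAC.Cube.QN6
import Fermat.Agent.JAC.Cube.LinePullGen50

set_option autoImplicit false

universe u

open CategoryTheory CategoryTheory.Limits AlgebraicGeometry MonoidalCategory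
  CartesianMonoidalCategory NeronModelInfra GoodReductionJacobian

namespace Fermat.Agent.JAC.Cube.QNFinal6

open Fermat.Agent.JAC.Cube.Step6 Fermat.Agent.JAC.Cube.Induct6 Fermat.Agent.JAC.Cube.Nice6
open Fermat.Agent.JAC.Cube.ClCube6 Fermat.Agent.JAC.Cube.QN6
open Fermat.Agent.JAC.Div2.CaDiv69 Fermat.Agent.JAC.Div2.Cl1
open Fermat.Agent.JAC.AV.Basic66 Fermat.Agent.JAC.AV.Neg66

/-- CW1(c) (helper50): the hypothesis `PullCompat` holds. -/
theorem pullCompat : PullCompat.{u} := fun φ E hE =>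
  Fermat.Agent.JAC.Cube.LinePullGen50.nonempty_pullback_iso φ E hE

variable {K : Type u} [Field K]

/-- The theorem of the cube in `Cl`, unconditional. -/
theorem eq_zero_of_faces {N : NiceClass K} {W : Over (Sk K)}
    {w₀ : 𝟙_ (Over (Sk K)) ⟶ W} (hW : CubeGood N W w₀) {X Y : Over (Sk K)} (hX : N.P X)
    (hY : N.P Y) (x₀ : 𝟙_ (Over (Sk K)) ⟶ X) (y₀ : 𝟙_ (Over (Sk K)) ⟶ Y)
    [IsIntegral (W ⊗ (X ⊗ Y)).left] [IsIntegral (X ⊗ Y).left] [IsIntegral (W ⊗ Y).left]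
    [IsIntegral (W ⊗ X).left] (ξ : Cl (W ⊗ (X ⊗ Y)).left)
    (h1 : Cl.map (face₁ W X Y w₀).left ξ = 0) (h2 : Cl.map (face₂ W X Y x₀).left ξ = 0)
    (h3 : Cl.map (face₃ W X Y y₀).left ξ = 0) : ξ = 0 :=
  Fermat.Agent.JAC.Cube.ClCube6.eq_zero_of_faces pullCompat hW hX hY x₀ y₀ ξ h1 h2 h3

variable {A : Scheme.{u}} {f : A ⟶ Spec (CommRingCat.of K)} {L : RelativeGroupLaw K f}
  {hc : L.IsCommutative} [IsIntegral A]

/-- (QN), general form, unconditional. -/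
theorem map_comp_schemeNsmul (δ : Cl A) {N : NiceClass K} {W : Over (Sk K)}
    {w₀ : 𝟙_ (Over (Sk K)) ⟶ W} (hgood : CubeGood N W w₀) (hW : N.P W)
    [IsIntegral W.left] [IsIntegral (W ⊗ W).left] [IsIntegral (W ⊗ (W ⊗ W)).left]
    (hδ : Cl.map (neg L) δ = δ) (σ : Pts L hc W) (hσ : compHom L hc w₀ σ = 1) (n : ℕ) :
    Cl.map (σ.1 ≫ L.schemeNsmul n) δ = (n ^ 2) • Cl.map σ.1 δ :=
  Fermat.Agent.JAC.Cube.QN6.map_comp_schemeNsmul δ pullCompat hgood hW hδ σ hσ n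

/-- **(QN)** for products of pointed curves, unconditional: the shape consumed by `Final26`. -/
theorem QN [IsAlgClosed K] (L : RelativeGroupLaw K f) (l : List (PointedJac (niceClass K)))
    (σ : (prodObj l).left ⟶ A) (hσ : σ ≫ f = (prodObj l).hom)
    (hσ0 : (prodPt l).left ≫ σ = (L.one (𝟙 (Spec (CommRingCat.of K)))).1)
    (hc : L.IsCommutative) (δ : Cl A) (hδ : Cl.map (neg L) δ = δ) (n : ℕ) :
    Cl.map (σ ≫ L.schemeNsmul n) δ = (n ^ 2) • Cl.map σ δ :=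
  Fermat.Agent.JAC.Cube.QN6.QN (L := L) pullCompat l σ hσ hσ0 hc δ hδ n

end Fermat.Agent.JAC.Cube.QNFinal6
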