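/-
S26-track, brick (QN) (helper1): the CONCRETE instantiation of helper6's formal `Quadratic6`
("the theorem of the cube implies that `n ↦ [n]^* δ` is quadratic") for the points of a
commutative relative group law `L` on `A / K` with values in a pointed `K`-scheme `(W, w₀)`
satisfying the theorem of the cube (`Induct6.CubeGood`), in the divisor class groups `Cl`
(`Div2/Cl1`), using the theorem of the cube for divisor classes `ClCubeFinal1.cl_cube`.

Main results:
* `ev_pow_eq` : for `(W, w₀)` `CubeGood`, `δ` a symmetric class on `A` and `x : W ⟶ A` a pointed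
  `K`-morphism, `(x ≫ [n])^* δ = n² • x^* δ`.
* `map_comp_schemeNsmul_eq` : the same for `W` a product of pointed curves with Jacobians
  (`Induct6.prodObj l`), in the literal shape of the hypothesis `hQN` of
  `Final26/Package66.torsionCard_eq_pow_of_package`.
-/
import Fermat.Agent.JAC.Cube.ClCubeFinal1
import Fermat.Agent.JAC.Cube.Nice6
import Fermat.Agent.JAC.Cube.Quadratic6
import Fermat.Agent.JAC.AV.Neg66

set_option autoImplicit false

universe u

open CategoryTheory CategoryTheory.Limits AlgebraicGeometry MonoidalCategory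
  CartesianMonoidalCategory NeronModelInfra GoodReductionJacobian

namespace Fermat.Agent.JAC.Cube.QuadraticCl1

open Fermat.Agent.JAC.Cube.Induct6 Fermat.Agent.JAC.Cube.Nice6 Fermat.Agent.JAC.Cube.Quadratic6
open Fermat.Agent.JAC.Div2.Cl1 Fermat.Agent.JAC.AV.Basic66 Fermat.Agent.JAC.AV

noncomputable section

variable {K : Type u} [Field K] {A : Scheme.{u}} {f : A ⟶ Spec (CommRingCat.of K)}

/-! ### The group of `X`-valued points, functorially in `X : Over (Spec K)` -/

/-- The `X`-valued points of `A` (a type synonym carrying the group structure coming from `L`). -/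
@[nolint unusedArguments]
def Pts (L : RelativeGroupLaw K f) (_hc : L.IsCommutative) (X : Over (Sk K)) : Type u :=
  SchemeHomOver X.hom f

variable (L : RelativeGroupLaw K f) (hc : L.IsCommutative)

instance (X : Over (Sk K)) : CommGroup (Pts L hc X) := pointCommGroup L hc X.hom

variable {L hc}

/-- The underlying morphism of a point. -/
def Pts.hom {X : Over (Sk K)} (x : Pts L hc X) : X.left ⟶ A := Subtype.val x

theorem Pts.hom_comp {X : Over (Sk K)} (x : Pts L hc X) : x.hom ≫ f = X.hom := Subtype.property x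

/-- A point from a morphism over the base. -/
def Pts.mk {X : Over (Sk K)} (σ : X.left ⟶ A) (hσ : σ ≫ f = X.hom) : Pts L hc X := ⟨σ, hσ⟩

@[simp] theorem Pts.mk_hom {X : Over (Sk K)} (σ : X.left ⟶ A) (hσ : σ ≫ f = X.hom) :
    (Pts.mk (L := L) (hc := hc) σ hσ).hom = σ := rfl

@[ext] theorem Pts.ext {X : Over (Sk K)} {x y : Pts L hc X} (h : x.hom = y.hom) : x = y :=
  Subtype.ext h

theorem Pts.one_hom (X : Over (Sk K)) :
    (1 : Pts L hc X).hom = X.hom ≫ (L.one (𝟙 (Spec (CommRingCat.of K)))).1 :=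
  one_coe L X.hom

theorem Pts.inv_hom {X : Over (Sk K)} (x : Pts L hc X) : (x⁻¹).hom = x.hom ≫ Neg66.neg L :=
  Neg66.inv_coe L X.hom x

theorem Pts.pow_hom {X : Over (Sk K)} (x : Pts L hc X) (n : ℕ) :
    (x ^ n).hom = x.hom ≫ L.schemeNsmul n := by
  have h1 := nsmul_eq_pow L X.hom n x
  have h2 := nsmul_coe L X.hom n x
  rw [h1] at h2
  exact h2

variable (L hc) in
/-- Composition with a morphism over the base, as a group homomorphism on points. -/
def compHom {X Y : Over (Sk K)} (ψ : Y ⟶ X) : Pts L hc X →* Pts L hc Y where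
  toFun x := schemeHomOverComp ψ.left (Over.w ψ) x
  map_one' := L.one_natural X.hom Y.hom ψ.left (Over.w ψ)
  map_mul' x y := L.mul_natural X.hom Y.hom ψ.left (Over.w ψ) x y

@[simp] theorem compHom_hom {X Y : Over (Sk K)} (ψ : Y ⟶ X) (x : Pts L hc X) :
    (compHom L hc ψ x).hom = ψ.left ≫ x.hom := rfl

theorem compHom_comp {X Y Z : Over (Sk K)} (φ : Z ⟶ Y) (ψ : Y ⟶ X) (x : Pts L hc X) :
    compHom L hc (φ ≫ ψ) x = compHom L hc φ (compHom L hc ψ x) := by
  ext
  simp only [compHom_hom, Over.comp_left, Category.assoc]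

theorem compHom_id {X : Over (Sk K)} (x : Pts L hc X) : compHom L hc (𝟙 X) x = x := by
  ext
  simp only [compHom_hom, Over.id_left, Category.id_comp]

theorem compHom_congr {X Y : Over (Sk K)} {ψ ψ' : Y ⟶ X} (h : ψ = ψ') (x : Pts L hc X) :
    compHom L hc ψ x = compHom L hc ψ' x := by
  subst h; rfl

/-! ### Pulling back a fixed class along points -/

variable [IsIntegral A]

/-- `x ↦ x^* δ`. -/
def ev (δ : Cl A) (X : Over (Sk K)) [IsIntegral X.left] (x : Pts L hc X) : Cl X.left :=
  Cl.map x.hom δ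

theorem ev_compHom (δ : Cl A) {X Y : Over (Sk K)} [IsIntegral X.left] [IsIntegral Y.left]
    (ψ : Y ⟶ X) (x : Pts L hc X) :
    ev δ Y (compHom L hc ψ x) = Cl.map ψ.left (ev δ X x) := by
  unfold ev
  rw [compHom_hom, Cl.map_comp_apply]

theorem ev_one (δ : Cl A) (X : Over (Sk K)) [IsIntegral X.left] :
    ev δ X (1 : Pts L hc X) = 0 := by
  unfold ev
  rw [Pts.one_hom, Cl.map_eq_zero_of_factors_field]
  rfl

theorem ev_inv (δ : Cl A) (hδ : Cl.map (Neg66.neg L) δ = δ) (X : Over (Sk K))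
    [IsIntegral X.left] (x : Pts L hc X) : ev δ X x⁻¹ = ev δ X x := by
  unfold ev
  rw [Pts.inv_hom, Cl.map_comp_apply, hδ]

/-! ### The cube configuration -/

section Config

variable (W : Over (Sk K))

/-- The three projections `W × W × W ⟶ W`. -/
def pr : Fin 3 → (W ⊗ (W ⊗ W) ⟶ W) :=
  ![fst _ _, snd _ _ ≫ fst _ _, snd _ _ ≫ snd _ _]

/-- The diagonal `W ⟶ W × W × W`. -/
def diag : W ⟶ W ⊗ (W ⊗ W) := lift (𝟙 _) (lift (𝟙 _) (𝟙 _))

theorem diag_pr (i : Fin 3) : diag W ≫ pr W i = 𝟙 W := by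
  fin_cases i <;> simp [diag, pr]

variable {W} (w₀ : 𝟙_ (Over (Sk K)) ⟶ W)

/-- The three faces `W × W ⟶ W × W × W`. -/
def fc : Fin 3 → (W ⊗ W ⟶ W ⊗ (W ⊗ W)) :=
  ![face₁ W W W w₀, face₂ W W W w₀, face₃ W W W w₀]

theorem fc_pr (i : Fin 3) : fc w₀ i ≫ pr W i = toUnit _ ≫ w₀ := by
  fin_cases i <;> simp [fc, pr, face₁, face₂, face₃]

end Config

/-! ### The quadratic law -/

section Main

variable (N : NiceClass K) {W : Over (Sk K)} (w₀ : 𝟙_ (Over (Sk K)) ⟶ W)

/-- **The theorem of the square on pointed points**: `Θ(a, b, c) = 0` for `a b c : W ⟶ A`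
sending `w₀` to the unit section. -/
theorem theta_eq_zero (hgood : CubeGood N W w₀) (hW : N.P W)
    [IsIntegral W.left] [IsIntegral (W ⊗ W).left] [IsIntegral (W ⊗ (W ⊗ W)).left]
    (δ : Cl A) {a b c : Pts L hc W} (ha : compHom L hc w₀ a = 1) (hb : compHom L hc w₀ b = 1)
    (hc' : compHom L hc w₀ c = 1) : Theta (ev δ W) a b c = 0 := by
  refine Theta_eq_zero_of_cube (GF := fun _ => Pts L hc (W ⊗ W))
    (PF := fun _ => Cl (W ⊗ W).left) (ev δ W) (ev δ (W ⊗ (W ⊗ W)))
    (fun _ => ev δ (W ⊗ W)) (fun i => compHom L hc (pr W i)) (compHom L hc (diag W))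
    (Cl.map (diag W).left) (fun i => compHom L hc (fc w₀ i)) (fun i => Cl.map (fc w₀ i).left)
    (compHom L hc w₀).ker ?_ ?_ ?_ ?_ ?_ ?_ (MonoidHom.mem_ker.mpr ha) (MonoidHom.mem_ker.mpr hb)
    (MonoidHom.mem_ker.mpr hc')
  · intro i x
    rw [← compHom_comp, compHom_congr (diag_pr W i), compHom_id]
  · intro i x hx
    rw [← compHom_comp, compHom_congr (fc_pr w₀ i), compHom_comp, MonoidHom.mem_ker.mp hx,
      map_one]
  · intro x
    exact ev_compHom δ (diag W) x
  · intro i x
    exact ev_compHom δ (fc w₀ i) x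
  · intro i
    exact ev_one δ (W ⊗ W)
  · intro ξ hξ
    exact ClCubeFinal1.cl_cube N w₀ w₀ w₀ hgood hW hW ξ (hξ 0) (hξ 1) (hξ 2)

/-- **The quadratic law**: for a symmetric class `δ` on `A` and a pointed `x : W ⟶ A`,
`(x ^ n)^* δ = n² • x^* δ`. -/
theorem ev_pow_eq (hgood : CubeGood N W w₀) (hW : N.P W)
    [IsIntegral W.left] [IsIntegral (W ⊗ W).left] [IsIntegral (W ⊗ (W ⊗ W)).left]
    (δ : Cl A) (hδ : Cl.map (Neg66.neg L) δ = δ) {x : Pts L hc W}
    (hx : compHom L hc w₀ x = 1) (n : ℕ) : ev δ W (x ^ n) = (n ^ 2) • ev δ W x :=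
  ev_pow_of_Theta (ev δ W) (compHom L hc w₀).ker (ev_one δ W)
    (fun _ ha _ hb _ hc' => theta_eq_zero N w₀ hgood hW δ (MonoidHom.mem_ker.mp ha)
      (MonoidHom.mem_ker.mp hb) (MonoidHom.mem_ker.mp hc'))
    (fun a _ => ev_inv δ hδ W a) (MonoidHom.mem_ker.mpr hx) n

variable (hc) in
include hc in
/-- The quadratic law in terms of morphisms. -/
theorem map_comp_schemeNsmul_eq_of_cubeGood (hgood : CubeGood N W w₀) (hW : N.P W)
    [IsIntegral W.left] [IsIntegral (W ⊗ W).left] [IsIntegral (W ⊗ (W ⊗ W)).left]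
    (σ : W.left ⟶ A) (hσ : σ ≫ f = W.hom)
    (hpt : w₀.left ≫ σ = (L.one (𝟙 (Spec (CommRingCat.of K)))).1)
    (δ : Cl A) (hδ : Cl.map (Neg66.neg L) δ = δ) (n : ℕ) :
    Cl.map (σ ≫ L.schemeNsmul n) δ = (n ^ 2) • Cl.map σ δ := by
  have hx : compHom L hc w₀ (Pts.mk (L := L) (hc := hc) σ hσ) = 1 := by
    ext
    rw [compHom_hom, Pts.mk_hom, hpt, Pts.one_hom]
    exact (Category.id_comp _).symm
  have h := ev_pow_eq N w₀ hgood hW δ hδ hx n
  unfold ev at h
  rwa [Pts.pow_hom, Pts.mk_hom] at h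

end Main

/-! ### Products of pointed curves -/

section Curves

variable [IsAlgClosed K]

variable (hc) in
include hc in
/-- **(QN)**: for `W = C₁ × ⋯ × C_r` a product of pointed curves with Jacobians, `σ : W ⟶ A` a
pointed `K`-morphism to a commutative group scheme and `δ` a symmetric divisor class on `A`:
`(σ ≫ [N])^* δ = N² • σ^* δ`.  This is literally the hypothesis `hQN` of
`Final26/Package66.torsionCard_eq_pow_of_package`. -/
theorem map_comp_schemeNsmul_eq (l : List (PointedJac (niceClass K)))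
    [IsIntegral (prodObj l).left] (σ : (prodObj l).left ⟶ A) (hσ : σ ≫ f = (prodObj l).hom)
    (hpt : (prodPt l).left ≫ σ = (L.one (𝟙 (Spec (CommRingCat.of K)))).1)
    (δ : Cl A) (hδ : Cl.map (Neg66.neg L) δ = δ) (N : ℕ) :
    Cl.map (σ ≫ L.schemeNsmul N) δ = (N ^ 2) • Cl.map σ δ := by
  have hW := nice_prodObj l
  have hWW := (niceClass K).tensor hW hW
  have hT := (niceClass K).tensor hW hWW
  have : IsIntegral (prodObj l ⊗ prodObj l).left := hWW.1
  have : IsIntegral (prodObj l ⊗ (prodObj l ⊗ prodObj l)).left := hT.1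
  exact map_comp_schemeNsmul_eq_of_cubeGood hc (niceClass K) (prodPt l) (cubeGood_curves l) hW
    σ hσ hpt δ hδ N

/-- The product of pointed curves is integral. -/
theorem isIntegral_prodObj (l : List (PointedJac (niceClass K))) :
    IsIntegral (prodObj l).left := (nice_prodObj l).1

/-- The product of pointed curves is proper. -/
theorem isProper_prodObj (l : List (PointedJac (niceClass K))) :
    IsProper (prodObj l).hom := (nice_prodObj l).2

end Curves

end

end Fermat.Agent.JAC.Cube.QuadraticCl1
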